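import Mathlib.NumberTheory.ModularForms.CongruenceSubgroups
import Mathlib.Analysis.Complex.UpperHalfPlane.MoebiusAction
import Mathlib.LinearAlgebra.Matrix.Adjugate
import Mathlib.Tactic.LinearCombination

/-!
# Integral `2 × 2` matrices

Integral matrices act on integral vectors and, when their determinant is positive, on the upper
half plane; `act` is compatible with products and with the action of `SL(2, ℤ)`.
-/

set_option autoImplicit false

open Matrix CongruenceSubgroup
open scoped MatrixGroups

namespace Fermat.Agent.LevelRaising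

/-- Integral `2 × 2` matrices. -/
abbrev Mat := Matrix (Fin 2) (Fin 2) ℤ

/-- Integral vectors; the nonzero ones represent cusps. -/
abbrev Vec := Fin 2 → ℤ

/-- The underlying integral matrix of an element of `SL(2, ℤ)`. -/
abbrev mat (γ : SL(2, ℤ)) : Mat := (γ : Mat)

/-- Membership of `Γ₀(N)` as a divisibility. -/
theorem mem_Gamma0 {N : ℕ} {γ : SL(2, ℤ)} : γ ∈ Gamma0 N ↔ (N : ℤ) ∣ γ 1 0 :=
  Gamma0_mem.trans (ZMod.intCast_zmod_eq_zero_iff_dvd _ _)

/-- `Γ₀(M) ≤ Γ₀(N)` for `N ∣ M`. -/
theorem Gamma0_le_of_dvd {N M : ℕ} (h : N ∣ M) : Gamma0 M ≤ Gamma0 N := fun _ hγ =>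
  mem_Gamma0.mpr ((Int.natCast_dvd_natCast.mpr h).trans (mem_Gamma0.mp hγ))

/-- A non singular matrix preserves non zero vectors. -/
theorem mulVec_ne_zero {g : Mat} (hg : g.det ≠ 0) {v : Vec} (hv : v ≠ 0) : g *ᵥ v ≠ 0 := by
  intro h
  refine hv ?_
  have h2 : g.adjugate *ᵥ (g *ᵥ v) = g.det • v := by
    rw [mulVec_mulVec, adjugate_mul, smul_mulVec, one_mulVec]
  rw [h, mulVec_zero] at h2
  exact (smul_eq_zero.mp h2.symm).resolve_left hg

/-- Elements of `SL(2, ℤ)` have determinant one. -/
theorem det_mat (γ : SL(2, ℤ)) : (mat γ).det = 1 := γ.det_coe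

/-- Elements of `SL(2, ℤ)` are non singular. -/
theorem det_mat_ne_zero (γ : SL(2, ℤ)) : (mat γ).det ≠ 0 := by
  rw [det_mat]; exact one_ne_zero

/-- `mat` is multiplicative. -/
theorem mat_mul (γ δ : SL(2, ℤ)) : mat (γ * δ) = mat γ * mat δ := rfl

/-- `mat` sends `1` to `1`. -/
@[simp] theorem mat_one : mat 1 = 1 := rfl

/-- `mat` is injective. -/
theorem mat_inj {γ δ : SL(2, ℤ)} : mat γ = mat δ ↔ γ = δ := Subtype.coe_injective.eq_iff

/-- `mat` of an inverse is the adjugate. -/
theorem mat_inv (γ : SL(2, ℤ)) : mat γ⁻¹ = (mat γ).adjugate := SpecialLinearGroup.coe_inv γ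

/-- `mat γ⁻¹` is a left inverse of `mat γ`. -/
theorem mat_inv_mul (γ : SL(2, ℤ)) : mat γ⁻¹ * mat γ = 1 := by
  rw [← mat_mul, inv_mul_cancel, mat_one]

/-- The adjugate of a `2 × 2` matrix is involutive. -/
theorem adjugate_adjugate' (g : Mat) : g.adjugate.adjugate = g := by
  ext i j; fin_cases i <;> fin_cases j <;> simp [adjugate_fin_two]

/-- The adjugate of a `2 × 2` matrix has the same determinant. -/
theorem det_adjugate' (g : Mat) : g.adjugate.det = g.det := by
  rw [adjugate_fin_two, det_fin_two_of, det_fin_two]; ring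

/-- Cancel a matrix of nonzero determinant on the right. -/
theorem mul_right_cancel_of_det {a b g : Mat} (hg : g.det ≠ 0) (h : a * g = b * g) : a = b := by
  have h2 := congrArg (· * g.adjugate) h
  simp only [Matrix.mul_assoc, mul_adjugate, Matrix.mul_smul, Matrix.mul_one] at h2
  exact smul_right_injective _ hg h2

/-- Cancel a matrix of nonzero determinant on the left. -/
theorem mul_left_cancel_of_det {a b g : Mat} (hg : g.det ≠ 0) (h : g * a = g * b) : a = b := by
  have h2 := congrArg (g.adjugate * ·) h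
  simp only [← Matrix.mul_assoc, adjugate_mul, Matrix.smul_mul, Matrix.one_mul] at h2
  exact smul_right_injective _ hg h2

section Action

/-- A matrix of positive determinant as an element of `GL(2, ℝ)` (junk `1` otherwise). -/
noncomputable def toGL (g : Mat) : GL (Fin 2) ℝ :=
  if h : 0 < g.det then
    GeneralLinearGroup.mkOfDetNeZero (g.map (Int.cast : ℤ → ℝ))
      (by
        have : (g.map (Int.cast : ℤ → ℝ)).det = (g.det : ℝ) := by
          rw [det_fin_two, det_fin_two]; simp
        rw [this]; exact_mod_cast h.ne')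
  else 1

/-- The real matrix underlying `toGL`. -/
theorem val_toGL {g : Mat} (h : 0 < g.det) :
    ((toGL g : GL (Fin 2) ℝ) : Matrix (Fin 2) (Fin 2) ℝ) = g.map (Int.cast : ℤ → ℝ) := by
  rw [toGL, dif_pos h]
  rfl

/-- `toGL` is multiplicative on positive determinants. -/
theorem toGL_mul {g h : Mat} (hg : 0 < g.det) (hh : 0 < h.det) :
    toGL (g * h) = toGL g * toGL h := by
  apply Units.ext
  have hgh : 0 < (g * h).det := by rw [det_mul]; exact mul_pos hg hh
  rw [Units.val_mul, val_toGL hgh, val_toGL hg, val_toGL hh]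
  exact Matrix.map_mul (f := Int.castRingHom ℝ)

/-- `toGL` on `SL(2, ℤ)` is the coercion. -/
theorem toGL_mat (γ : SL(2, ℤ)) : toGL (mat γ) = (γ : GL (Fin 2) ℝ) := by
  apply Units.ext
  rw [val_toGL (by rw [det_mat]; exact one_pos)]
  ext i j
  simp

theorem det_toGL_pos {g : Mat} (h : 0 < g.det) : 0 < ((toGL g).det : ℝ) := by
  rw [GeneralLinearGroup.val_det_apply, val_toGL h, det_fin_two]
  have : (0 : ℝ) < (g.det : ℝ) := by exact_mod_cast h
  rw [det_fin_two] at this
  simpa using this

/-- The action of an integral matrix (of positive determinant) on the upper half plane. -/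
noncomputable def act (g : Mat) (z : UpperHalfPlane) : UpperHalfPlane := toGL g • z

/-- The action as a Möbius transformation. -/
theorem coe_act {g : Mat} (h : 0 < g.det) (z : UpperHalfPlane) :
    (act g z : ℂ) = ((g 0 0 : ℂ) * z + g 0 1) / ((g 1 0 : ℂ) * z + g 1 1) := by
  rw [act, UpperHalfPlane.coe_smul_of_det_pos (det_toGL_pos h)]
  simp [UpperHalfPlane.num, UpperHalfPlane.denom, val_toGL h]

theorem act_mul {g h : Mat} (hg : 0 < g.det) (hh : 0 < h.det) (z : UpperHalfPlane) :
    act (g * h) z = act g (act h z) := by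
  rw [act, toGL_mul hg hh, mul_smul]; rfl

/-- The action of `mat γ` is that of `γ`. -/
theorem act_mat (γ : SL(2, ℤ)) (z : UpperHalfPlane) : act (mat γ) z = γ • z := by
  rw [act, toGL_mat]; rfl

/-- The action of a product with `SL(2, ℤ)` on the right. -/
theorem act_mul_mat {g : Mat} (hg : 0 < g.det) (γ : SL(2, ℤ)) (z : UpperHalfPlane) :
    act (g * mat γ) z = act g (γ • z) := by
  rw [act_mul hg (by rw [det_mat]; exact one_pos), act_mat]

/-- The action of a product with `SL(2, ℤ)` on the left. -/
theorem act_mat_mul {g : Mat} (hg : 0 < g.det) (γ : SL(2, ℤ)) (z : UpperHalfPlane) :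
    act (mat γ * g) z = γ • act g z := by
  rw [act_mul (by rw [det_mat]; exact one_pos) hg, act_mat]

end Action

end Fermat.Agent.LevelRaising
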