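import Mathlib.Algebra.BigOperators.Finsupp.Basic
import Mathlib.LinearAlgebra.Matrix.ToLinearEquiv
import Mathlib.GroupTheory.QuotientGroup.Defs
import Fermat.Agent.LevelRaising.Matrices
import Fermat.Prelude.Def_ModularCurve_PeriodMap

/-!
# Integral modular symbols for `Γ₀(N)`

Modular symbols `{v, w}` are generated by pairs of integral vectors (cusps), subject to the
triangle, scaling and invariance relations.  We define the boundary map and the closed symbols, and
show that parabolic homomorphisms on `Γ₀(N)` are the restrictions of functionals on symbols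
(`exists_comp_cycleHom_eq`).
-/

set_option autoImplicit false

open Matrix CongruenceSubgroup
open scoped MatrixGroups

namespace Fermat.Agent.LevelRaising

variable (N : ℕ) {A : Type*} [AddCommGroup A]

/-- The conditions on a function of two vectors to define a function on modular symbols. -/
structure IsSymbol (F : Vec → Vec → A) : Prop where
  zero_left : ∀ w, F 0 w = 0
  zero_right : ∀ v, F v 0 = 0
  triangle : ∀ u v w, u ≠ 0 → v ≠ 0 → w ≠ 0 → F u v + F v w = F u w
  scale : ∀ a : ℤ, a ≠ 0 → ∀ v w, F (a • v) w = F v w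
  invariant : ∀ γ ∈ Gamma0 N, ∀ v w, F (mat γ *ᵥ v) (mat γ *ᵥ w) = F v w

/-- The relations defining modular symbols. -/
def relSet : Set ((Vec × Vec) →₀ ℤ) :=
  {x | (∃ w, x = Finsupp.single (0, w) 1) ∨ (∃ v, x = Finsupp.single (v, 0) 1) ∨
    (∃ u v w, u ≠ 0 ∧ v ≠ 0 ∧ w ≠ 0 ∧
      x = Finsupp.single (u, v) 1 + Finsupp.single (v, w) 1 - Finsupp.single (u, w) 1) ∨
    (∃ (a : ℤ) (v w : Vec), a ≠ 0 ∧
      x = Finsupp.single (a • v, w) 1 - Finsupp.single (v, w) 1) ∨
    (∃ γ ∈ Gamma0 N, ∃ v w : Vec,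
      x = Finsupp.single (mat γ *ᵥ v, mat γ *ᵥ w) 1 - Finsupp.single (v, w) 1)}

/-- Integral modular symbols of level `N`. -/
def ModSym : Type := ((Vec × Vec) →₀ ℤ) ⧸ AddSubgroup.closure (relSet N)

noncomputable instance : AddCommGroup (ModSym N) :=
  inferInstanceAs (AddCommGroup (((Vec × Vec) →₀ ℤ) ⧸ AddSubgroup.closure (relSet N)))

variable {N}

/-- The class of a formal combination of pairs. -/
noncomputable def ModSym.mk : ((Vec × Vec) →₀ ℤ) →+ ModSym N :=
  QuotientAddGroup.mk' (AddSubgroup.closure (relSet N))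

/-- The quotient map to modular symbols is surjective. -/
theorem ModSym.mk_surjective : Function.Surjective (ModSym.mk (N := N)) :=
  QuotientAddGroup.mk'_surjective _

theorem ModSym.mk_eq_zero_of_mem {x : (Vec × Vec) →₀ ℤ} (hx : x ∈ relSet N) :
    ModSym.mk (N := N) x = 0 :=
  (QuotientAddGroup.eq_zero_iff x).mpr (AddSubgroup.subset_closure hx)

variable (N)

/-- The modular symbol `{v, w}`. -/
noncomputable def symb (v w : Vec) : ModSym N := ModSym.mk (Finsupp.single (v, w) 1)

variable {N}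

/-- The tautological map satisfies the symbol relations. -/
theorem isSymbol_symb : IsSymbol N (symb N) where
  zero_left w := ModSym.mk_eq_zero_of_mem (Or.inl ⟨w, rfl⟩)
  zero_right v := ModSym.mk_eq_zero_of_mem (Or.inr (Or.inl ⟨v, rfl⟩))
  triangle u v w hu hv hw := by
    have := ModSym.mk_eq_zero_of_mem (N := N) (x := _)
      (Or.inr (Or.inr (Or.inl ⟨u, v, w, hu, hv, hw, rfl⟩)))
    rwa [map_sub, map_add, sub_eq_zero] at this
  scale a ha v w := by
    have := ModSym.mk_eq_zero_of_mem (N := N) (x := _)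
      (Or.inr (Or.inr (Or.inr (Or.inl ⟨a, v, w, ha, rfl⟩))))
    rwa [map_sub, sub_eq_zero] at this
  invariant γ hγ v w := by
    have := ModSym.mk_eq_zero_of_mem (N := N) (x := _)
      (Or.inr (Or.inr (Or.inr (Or.inr ⟨γ, hγ, v, w, rfl⟩))))
    rwa [map_sub, sub_eq_zero] at this

/-- `{v, v} = 0`. -/
theorem symb_self (v : Vec) : symb N v v = 0 := by
  by_cases hv : v = 0
  · subst hv; exact isSymbol_symb.zero_left 0
  · simpa using isSymbol_symb.triangle (N := N) v v v hv hv hv

/-- `{w, v} = -{v, w}`. -/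
theorem symb_swap (v w : Vec) : symb N w v = -symb N v w := by
  by_cases hv : v = 0
  · subst hv; rw [isSymbol_symb.zero_right, isSymbol_symb.zero_left, neg_zero]
  by_cases hw : w = 0
  · subst hw; rw [isSymbol_symb.zero_right, isSymbol_symb.zero_left, neg_zero]
  have h := isSymbol_symb.triangle (N := N) v w v hv hw hv
  rw [symb_self] at h
  exact eq_neg_of_add_eq_zero_right h

/-- A symbol only depends on the line of its second vector. -/
theorem symb_scale_right {a : ℤ} (ha : a ≠ 0) (v w : Vec) :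
    symb N v (a • w) = symb N v w := by
  rw [symb_swap, isSymbol_symb.scale a ha, ← symb_swap]

/-- A symbol only depends on the line of its first vector. -/
theorem symb_scale_left {a : ℤ} (ha : a ≠ 0) (v w : Vec) :
    symb N (a • v) w = symb N v w := isSymbol_symb.scale a ha v w

/-- Symbols are invariant under `Γ₀(N)`. -/
theorem symb_gamma {γ : SL(2, ℤ)} (hγ : γ ∈ Gamma0 N) (v w : Vec) :
    symb N (mat γ *ᵥ v) (mat γ *ᵥ w) = symb N v w := isSymbol_symb.invariant γ hγ v w

/-- `{u, v} + {v, w} = {u, w}`. -/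
theorem symb_add {u v w : Vec} (hu : u ≠ 0) (hv : v ≠ 0) (hw : w ≠ 0) :
    symb N u v + symb N v w = symb N u w := isSymbol_symb.triangle u v w hu hv hw

/-- A compatible function of two vectors gives a homomorphism on modular symbols. -/
noncomputable def lift (F : Vec → Vec → A) (hF : IsSymbol N F) : ModSym N →+ A :=
  QuotientAddGroup.lift _ (Finsupp.liftAddHom fun p => (zmultiplesHom A) (F p.1 p.2)) <| by
    rw [AddSubgroup.closure_le]
    rintro x (⟨w, rfl⟩ | ⟨v, rfl⟩ | ⟨u, v, w, hu, hv, hw, rfl⟩ | ⟨a, v, w, ha, rfl⟩ |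
      ⟨γ, hγ, v, w, rfl⟩) <;>
      simp only [SetLike.mem_coe, AddMonoidHom.mem_ker, map_sub, map_add,
        Finsupp.liftAddHom_apply_single, zmultiplesHom_apply, one_zsmul]
    · exact hF.zero_left w
    · exact hF.zero_right v
    · rw [hF.triangle u v w hu hv hw, sub_self]
    · rw [hF.scale a ha v w, sub_self]
    · rw [hF.invariant γ hγ v w, sub_self]

/-- The lift of a symbol map takes the given values. -/
@[simp] theorem lift_symb (F : Vec → Vec → A) (hF : IsSymbol N F) (v w : Vec) :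
    lift F hF (symb N v w) = F v w := by
  show (QuotientAddGroup.lift _ _ _) (QuotientAddGroup.mk' _ _) = _
  simp

/-- Homomorphisms on modular symbols agree if they agree on symbols. -/
theorem hom_ext {f g : ModSym N →+ A} (h : ∀ v w, v ≠ 0 → w ≠ 0 → f (symb N v w) = g (symb N v w)) :
    f = g := by
  have : f.comp ModSym.mk = g.comp ModSym.mk := by
    refine Finsupp.addHom_ext fun p n => ?_
    obtain ⟨v, w⟩ := p
    have hs : Finsupp.single (v, w) n = n • Finsupp.single (v, w) (1 : ℤ) := by simp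
    simp only [AddMonoidHom.comp_apply, hs, map_zsmul]
    show n • f (symb N v w) = n • g (symb N v w)
    by_cases hv : v = 0
    · subst hv; simp [isSymbol_symb.zero_left]
    by_cases hw : w = 0
    · subst hw; simp [isSymbol_symb.zero_right]
    rw [h v w hv hw]
  refine AddMonoidHom.ext fun x => ?_
  obtain ⟨y, rfl⟩ := ModSym.mk_surjective x
  exact DFunLike.congr_fun this y

/-- The base cusp `∞`. -/
def vecInfty : Vec := ![1, 0]

/-- The vector of the cusp `∞` is non zero. -/
theorem vecInfty_ne_zero : vecInfty ≠ 0 := by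
  intro h
  simpa [vecInfty] using congrFun h 0

/-- `SL(2, ℤ)` preserves non zero vectors. -/
theorem mat_mulVec_ne_zero (γ : SL(2, ℤ)) {v : Vec} (hv : v ≠ 0) : mat γ *ᵥ v ≠ 0 :=
  mulVec_ne_zero (det_mat_ne_zero γ) hv

theorem symb_cycle_eq {γ : SL(2, ℤ)} (hγ : γ ∈ Gamma0 N) {v : Vec} (hv : v ≠ 0) :
    symb N v (mat γ *ᵥ v) = symb N vecInfty (mat γ *ᵥ vecInfty) := by
  have he := vecInfty_ne_zero
  have hge := mat_mulVec_ne_zero γ he
  have hgv := mat_mulVec_ne_zero γ hv
  rw [← symb_add hv he hgv, ← symb_add he hge hgv, symb_gamma hγ]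
  rw [symb_swap v vecInfty]
  abel

variable (N)

/-- The closed symbol attached to `γ`. -/
noncomputable def cycleHom : Additive (Gamma0 N) →+ ModSym N :=
  AddMonoidHom.mk' (fun γ => symb N vecInfty (mat (Additive.toMul γ : Gamma0 N) *ᵥ vecInfty))
    fun γ δ => by
      set a : Gamma0 N := Additive.toMul γ
      set b : Gamma0 N := Additive.toMul δ
      have he := vecInfty_ne_zero
      show symb N vecInfty (mat ((a * b : Gamma0 N) : SL(2, ℤ)) *ᵥ vecInfty) = _
      rw [Subgroup.coe_mul, mat_mul, ← mulVec_mulVec,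
        ← symb_add he (mat_mulVec_ne_zero _ he) (mat_mulVec_ne_zero _ (mat_mulVec_ne_zero _ he)),
        symb_gamma a.2]

/-- The cycle of `γ` is `{∞, γ ∞}`. -/
theorem cycleHom_apply (γ : Gamma0 N) :
    cycleHom N (Additive.ofMul γ) = symb N vecInfty (mat (γ : SL(2, ℤ)) *ᵥ vecInfty) := rfl

/-- The cycle of `γ` is `{v, γ v}` for any base cusp `v`. -/
theorem cycleHom_eq (γ : Gamma0 N) {v : Vec} (hv : v ≠ 0) :
    cycleHom N (Additive.ofMul γ) = symb N v (mat (γ : SL(2, ℤ)) *ᵥ v) :=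
  (symb_cycle_eq γ.2 hv).symm

/-- Two vectors represent the same cusp of `Γ₀(N)`. -/
def CuspRel (v w : Vec) : Prop :=
  ∃ γ ∈ Gamma0 N, ∃ a b : ℤ, a ≠ 0 ∧ b ≠ 0 ∧ a • w = b • (mat γ *ᵥ v)

variable {N}

/-- Equivalence of cusps is reflexive. -/
theorem CuspRel.refl (v : Vec) : CuspRel N v v :=
  ⟨1, one_mem _, 1, 1, one_ne_zero, one_ne_zero, by simp⟩

/-- Equivalence of cusps is symmetric. -/
theorem CuspRel.symm {v w : Vec} (h : CuspRel N v w) : CuspRel N w v := by
  obtain ⟨γ, hγ, a, b, ha, hb, e⟩ := h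
  refine ⟨γ⁻¹, inv_mem hγ, b, a, hb, ha, ?_⟩
  have e2 := congrArg (mat γ⁻¹ *ᵥ ·) e
  simp only [mulVec_smul, mulVec_mulVec, mat_inv_mul, one_mulVec] at e2
  exact e2.symm

/-- Equivalence of cusps is transitive. -/
theorem CuspRel.trans {u v w : Vec} (h : CuspRel N u v) (h' : CuspRel N v w) : CuspRel N u w := by
  obtain ⟨γ, hγ, a, b, ha, hb, e⟩ := h
  obtain ⟨δ, hδ, c, d, hc, hd, e'⟩ := h'
  refine ⟨δ * γ, mul_mem hδ hγ, c * a, d * b, mul_ne_zero hc ha, mul_ne_zero hd hb, ?_⟩
  calc (c * a) • w = a • (c • w) := by rw [smul_smul, mul_comm]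
    _ = a • (d • (mat δ *ᵥ v)) := by rw [e']
    _ = d • (mat δ *ᵥ (a • v)) := by rw [mulVec_smul, smul_comm]
    _ = (d * b) • (mat (δ * γ) *ᵥ u) := by
      rw [e, mulVec_smul, smul_smul, mat_mul, mulVec_mulVec]

variable (N)

/-- Nonzero vectors, up to the relation `CuspRel`. -/
def cuspSetoid : Setoid {v : Vec // v ≠ 0} where
  r v w := CuspRel N v.1 w.1
  iseqv := ⟨fun v => CuspRel.refl v.1, CuspRel.symm, CuspRel.trans⟩

/-- The cusps of `Γ₀(N)`. -/
def Cusp : Type := Quotient (cuspSetoid N)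

variable {N}

/-- The divisor of a vector (`0` for the zero vector). -/
noncomputable def cuspDiv (v : Vec) : Cusp N →₀ ℤ :=
  if hv : v = 0 then 0 else Finsupp.single (Quotient.mk (cuspSetoid N) ⟨v, hv⟩) 1

/-- Equivalent cusps have the same divisor. -/
theorem cuspDiv_eq {v w : Vec} (hv : v ≠ 0) (hw : w ≠ 0) (h : CuspRel N v w) :
    cuspDiv (N := N) v = cuspDiv w := by
  rw [cuspDiv, cuspDiv, dif_neg hv, dif_neg hw]
  exact congrArg (fun c => Finsupp.single c (1 : ℤ)) (Quotient.sound (s := cuspSetoid N) h)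

theorem isSymbol_boundary : IsSymbol N
    (fun v w => if v = 0 ∨ w = 0 then 0 else cuspDiv (N := N) w - cuspDiv v) where
  zero_left w := by simp
  zero_right v := by simp
  triangle u v w hu hv hw := by simp [hu, hv, hw]
  scale a ha v w := by
    by_cases hv : v = 0
    · simp [hv]
    have hav : a • v ≠ 0 := smul_ne_zero ha hv
    rw [cuspDiv_eq hav hv ⟨1, one_mem _, a, 1, ha, one_ne_zero, by simp⟩]
    simp only [hv, hav, false_or]
  invariant γ hγ v w := by
    by_cases hv : v = 0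
    · simp [hv]
    by_cases hw : w = 0
    · simp [hw]
    have hgv := mat_mulVec_ne_zero γ hv
    have hgw := mat_mulVec_ne_zero γ hw
    rw [← cuspDiv_eq hv hgv ⟨γ, hγ, 1, 1, one_ne_zero, one_ne_zero, rfl⟩,
      ← cuspDiv_eq hw hgw ⟨γ, hγ, 1, 1, one_ne_zero, one_ne_zero, rfl⟩]
    simp [hv, hw, hgv, hgw]

variable (N)

/-- The boundary map. -/
noncomputable def boundary : ModSym N →+ (Cusp N →₀ ℤ) :=
  lift _ (isSymbol_boundary (N := N))

/-- The boundary of `{v, w}` is `(w) - (v)`. -/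
theorem boundary_symb {v w : Vec} (hv : v ≠ 0) (hw : w ≠ 0) :
    boundary N (symb N v w) = cuspDiv w - cuspDiv v := by
  rw [boundary, lift_symb]; simp [hv, hw]

/-- A section of the boundary map, up to closed symbols. -/
noncomputable def cuspSection : (Cusp N →₀ ℤ) →+ ModSym N :=
  Finsupp.liftAddHom fun c => zmultiplesHom _ (symb N vecInfty (Quotient.out c).1)

/-- A symbol minus the section of its boundary is a cycle. -/
theorem sub_section_boundary_mem (x : ModSym N) :
    x - cuspSection N (boundary N x) ∈ (cycleHom N).range := by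
  set f : ModSym N →+ ModSym N ⧸ (cycleHom N).range := QuotientAddGroup.mk' _
  suffices h : f = (f.comp (cuspSection N)).comp (boundary N) by
    have hx := DFunLike.congr_fun h x
    rw [AddMonoidHom.comp_apply, AddMonoidHom.comp_apply] at hx
    exact (QuotientAddGroup.eq_zero_iff _).mp (by
      rw [← QuotientAddGroup.mk'_apply, map_sub]; exact sub_eq_zero.mpr hx)
  refine hom_ext fun v w hv hw => ?_
  have key : ∀ {v : Vec}, v ≠ 0 →
      f (symb N vecInfty v) = f (cuspSection N (cuspDiv v)) := by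
    intro v hv
    rw [cuspDiv, dif_neg hv, cuspSection, Finsupp.liftAddHom_apply_single, zmultiplesHom_apply,
      one_zsmul]
    obtain ⟨γ, hγ, a, b, ha, hb, e⟩ : CuspRel N
        (Quotient.out (Quotient.mk (cuspSetoid N) ⟨v, hv⟩)).1 v :=
      Quotient.exact (s := cuspSetoid N) (Quotient.out_eq _)
    set r := Quotient.out (Quotient.mk (cuspSetoid N) ⟨v, hv⟩)
    have he := vecInfty_ne_zero
    have hv' : symb N vecInfty v = symb N vecInfty (mat γ *ᵥ r.1) := by
      rw [← symb_scale_right ha vecInfty v, e, symb_scale_right hb]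
    have hcyc : f (symb N vecInfty (mat γ *ᵥ vecInfty)) = 0 :=
      (QuotientAddGroup.eq_zero_iff _).mpr ⟨Additive.ofMul ⟨γ, hγ⟩, rfl⟩
    rw [hv', ← symb_add he (mat_mulVec_ne_zero γ he) (mat_mulVec_ne_zero γ r.2), symb_gamma hγ,
      map_add, hcyc, zero_add]
  have he := vecInfty_ne_zero
  rw [AddMonoidHom.comp_apply, AddMonoidHom.comp_apply, boundary_symb N hv hw, map_sub, map_sub,
    ← key hv, ← key hw, ← symb_add hv he hw, symb_swap vecInfty v, map_add, map_neg]
  abel

variable {N}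

/-- A functional killing all closed symbols factors through the boundary. -/
theorem eq_comp_boundary {φ : ModSym N →+ A} (h : φ.comp (cycleHom N) = 0) :
    φ = (φ.comp (cuspSection N)).comp (boundary N) := by
  refine AddMonoidHom.ext fun x => ?_
  obtain ⟨y, hy⟩ := sub_section_boundary_mem N x
  have h2 : φ (x - cuspSection N (boundary N x)) = 0 := by
    rw [← hy]; exact DFunLike.congr_fun h y
  rw [map_sub, sub_eq_zero] at h2
  exact h2

section Parabolic

theorem trace_sq_eq_four_of_eigen {γ : SL(2, ℤ)} {v : Vec} (hv : v ≠ 0) {a b : ℤ} (ha : a ≠ 0)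
    (hb : b ≠ 0) (e : a • v = b • (mat γ *ᵥ v)) : (mat γ).trace ^ 2 = 4 := by
  have h0 : (b • mat γ - a • (1 : Mat)).det = 0 := by
    refine Matrix.exists_mulVec_eq_zero_iff.mp ⟨v, hv, ?_⟩
    rw [sub_mulVec, smul_mulVec, smul_mulVec, one_mulVec, e, sub_self]
  have hq : b ^ 2 - a * b * (mat γ).trace + a ^ 2 = 0 := by
    have hd := det_mat γ
    rw [det_fin_two] at h0 hd
    rw [trace_fin_two]
    simp only [Matrix.sub_apply, Matrix.smul_apply, smul_eq_mul, Matrix.one_fin_two, of_apply,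
      cons_val', cons_val_zero, cons_val_one, empty_val', cons_val_fin_one] at h0
    linear_combination h0 - b ^ 2 * hd
  obtain ⟨g, a', b', hg, hab, rfl, rfl⟩ :=
    Int.exists_gcd_one' (Int.gcd_pos_of_ne_zero_left b ha)
  have hg' : (g : ℤ) ^ 2 ≠ 0 := pow_ne_zero _ (Int.natCast_ne_zero.mpr hg.ne')
  have hq' : b' ^ 2 - a' * b' * (mat γ).trace + a' ^ 2 = 0 := by
    apply mul_left_cancel₀ hg'
    linear_combination hq
  have hcop : IsCoprime a' b' := Int.isCoprime_iff_gcd_eq_one.mpr hab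
  have hua : IsUnit a' := (hcop.pow_right (n := 2)).isUnit_of_dvd
    ⟨b' * (mat γ).trace - a', by linear_combination hq'⟩
  have hub : IsUnit b' := (hcop.symm.pow_right (n := 2)).isUnit_of_dvd
    ⟨a' * (mat γ).trace - b', by linear_combination hq'⟩
  rcases Int.isUnit_eq_one_or hua with rfl | rfl <;>
    rcases Int.isUnit_eq_one_or hub with rfl | rfl <;>
      (have ht : (mat γ).trace = 2 ∨ (mat γ).trace = -2 := by omega) <;>
      rcases ht with ht | ht <;> rw [ht] <;> norm_num

/-- An element with squared trace `4` fixes a line. -/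
theorem exists_fixed_vec {γ : SL(2, ℤ)} (h : (mat γ).trace ^ 2 = 4) :
    ∃ v : Vec, v ≠ 0 ∧ ∃ ε : ℤ, ε ≠ 0 ∧ mat γ *ᵥ v = ε • v := by
  obtain ⟨ε, hε, ht⟩ : ∃ ε : ℤ, ε ^ 2 = 1 ∧ (mat γ).trace = 2 * ε := by
    rcases sq_eq_sq_iff_eq_or_eq_neg.mp (show (mat γ).trace ^ 2 = 2 ^ 2 by rw [h]; norm_num) with
      ht | ht
    · exact ⟨1, by norm_num, by rw [ht]; norm_num⟩
    · exact ⟨-1, by norm_num, by rw [ht]; norm_num⟩
  obtain ⟨v, hv, e⟩ := Matrix.exists_mulVec_eq_zero_iff.mpr
    (show (mat γ - ε • (1 : Mat)).det = 0 by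
      have hd := det_mat γ
      rw [det_fin_two] at hd ⊢
      rw [trace_fin_two] at ht
      simp only [Matrix.sub_apply, Matrix.smul_apply, smul_eq_mul, Matrix.one_fin_two, of_apply,
        cons_val', cons_val_zero, cons_val_one, empty_val', cons_val_fin_one]
      linear_combination hd - ε * ht - hε)
  refine ⟨v, hv, ε, fun h0 => by simp [h0] at hε, ?_⟩
  rwa [sub_mulVec, smul_mulVec, one_mulVec, sub_eq_zero] at e

/-- Functionals on symbols restrict to parabolic homomorphisms. -/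
theorem isParabolicHom_comp_cycleHom (φ : ModSym N →+ A) :
    ModularCurve.Period.IsParabolicHom (Gamma0 N) (φ.comp (cycleHom N)) := by
  intro γ hγ
  obtain ⟨v, hv, ε, hε, e⟩ := exists_fixed_vec hγ
  rw [AddMonoidHom.comp_apply, cycleHom_eq N γ hv, e, symb_scale_right hε, symb_self, map_zero]

/-- Every parabolic homomorphism comes from a functional on modular symbols. -/
theorem exists_comp_cycleHom_eq (h : Additive (Gamma0 N) →+ A)
    (hp : ModularCurve.Period.IsParabolicHom (Gamma0 N) h) :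
    ∃ φ : ModSym N →+ A, φ.comp (cycleHom N) = h := by
  classical
  have hrep : ∀ (v : Vec) (hv : v ≠ 0),
      ∃ γ : Gamma0 N, ∃ a b : ℤ, a ≠ 0 ∧ b ≠ 0 ∧
        a • v = b • (mat (γ : SL(2, ℤ)) *ᵥ
          (Quotient.out (Quotient.mk (cuspSetoid N) ⟨v, hv⟩)).1) := fun v hv => by
    obtain ⟨γ, hγ, r⟩ := Quotient.exact (s := cuspSetoid N)
      (Quotient.out_eq (Quotient.mk (cuspSetoid N) ⟨v, hv⟩))
    exact ⟨⟨γ, hγ⟩, r⟩
  choose g a b ha hb he using hrep
  set F : Vec → A := fun v => if hv : v = 0 then 0 else h (Additive.ofMul (g v hv)) with hF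
  have hFv : ∀ v (hv : v ≠ 0) (γ : Gamma0 N) (c d : ℤ), c ≠ 0 → d ≠ 0 →
      c • v = d • (mat (γ : SL(2, ℤ)) *ᵥ
          (Quotient.out (Quotient.mk (cuspSetoid N) ⟨v, hv⟩)).1) →
      F v = h (Additive.ofMul γ) := by
    intro v hv γ c d hc hd e
    have hfix : h (Additive.ofMul ((g v hv)⁻¹ * γ)) = 0 := by
      set r := (Quotient.out (Quotient.mk (cuspSetoid N) ⟨v, hv⟩)) with hr
      refine hp _ (trace_sq_eq_four_of_eigen r.2 (a := c * b v hv) (b := a v hv * d)
        (mul_ne_zero hc (hb v hv)) (mul_ne_zero (ha v hv) hd) ?_)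
      have e2 : a v hv • (mat ((g v hv : SL(2, ℤ)))⁻¹ *ᵥ v) = b v hv • r.1 := by
        rw [← mulVec_smul, he v hv, mulVec_smul, mulVec_mulVec, mat_inv_mul, one_mulVec]
      rw [Subgroup.coe_mul, Subgroup.coe_inv, mat_mul, ← mulVec_mulVec, mul_smul, ← e2, mul_smul,
        ← mulVec_smul _ d, ← e, mulVec_smul, smul_comm]
    have : h (Additive.ofMul γ) =
        h (Additive.ofMul (g v hv)) + h (Additive.ofMul ((g v hv)⁻¹ * γ)) := by
      rw [← map_add, ← ofMul_mul, mul_inv_cancel_left]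
    rw [hF]; simp only [dif_neg hv]
    rw [this, hfix, add_zero]
  have hout : ∀ {v w : Vec} (hv : v ≠ 0) (hw : w ≠ 0), CuspRel N v w →
      Quotient.out (Quotient.mk (cuspSetoid N) ⟨v, hv⟩) =
        Quotient.out (Quotient.mk (cuspSetoid N) ⟨w, hw⟩) := fun hv hw r =>
    congrArg Quotient.out (Quotient.sound (s := cuspSetoid N) r)
  have hFγ : ∀ (γ : Gamma0 N) {v : Vec}, v ≠ 0 →
      F (mat (γ : SL(2, ℤ)) *ᵥ v) = h (Additive.ofMul γ) + F v := by
    intro γ v hv
    rw [hFv v hv _ _ _ (ha v hv) (hb v hv) (he v hv), ← map_add, ← ofMul_mul]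
    refine hFv _ (mat_mulVec_ne_zero _ hv) _ _ _ (ha v hv) (hb v hv) ?_
    rw [← hout hv (mat_mulVec_ne_zero _ hv) ⟨γ, γ.2, 1, 1, one_ne_zero, one_ne_zero, rfl⟩,
      ← mulVec_smul, he v hv, mulVec_smul, mulVec_mulVec]
    rfl
  have hFs : ∀ {c : ℤ} {v : Vec}, c ≠ 0 → v ≠ 0 → F (c • v) = F v := by
    intro c v hc hv
    rw [hFv v hv _ _ _ (ha v hv) (hb v hv) (he v hv)]
    refine hFv _ (smul_ne_zero hc hv) _ (a v hv) (c * b v hv) (ha v hv)
      (mul_ne_zero hc (hb v hv)) ?_
    rw [← hout hv (smul_ne_zero hc hv) ⟨1, one_mem _, 1, c, one_ne_zero, hc, by simp⟩,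
      smul_comm, he v hv, smul_smul]
  have hsym : IsSymbol N (fun v w => if v = 0 ∨ w = 0 then 0 else F w - F v) := by
    refine ⟨fun w => by simp, fun v => by simp, fun u v w hu hv hw => by simp [hu, hv, hw],
      fun c hc v w => ?_, fun γ hγ v w => ?_⟩
    · by_cases hv : v = 0
      · simp [hv]
      simp only [hv, smul_ne_zero hc hv, false_or, hFs hc hv]
    · by_cases hv : v = 0
      · simp [hv]
      by_cases hw : w = 0
      · simp [hw]
      simp [hv, hw, mat_mulVec_ne_zero γ hv, mat_mulVec_ne_zero γ hw, hFγ ⟨γ, hγ⟩ hv,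
        hFγ ⟨γ, hγ⟩ hw]
  refine ⟨lift _ hsym, AddMonoidHom.ext fun x => ?_⟩
  obtain ⟨γ, rfl⟩ : ∃ γ, Additive.ofMul γ = x := ⟨Additive.toMul x, rfl⟩
  rw [AddMonoidHom.comp_apply, cycleHom_apply, lift_symb]
  simp [vecInfty_ne_zero, mat_mulVec_ne_zero _ vecInfty_ne_zero, hFγ γ vecInfty_ne_zero]

end Parabolic

end Fermat.Agent.LevelRaising
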