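import Mathlib.RingTheory.Finiteness.Basic
import Mathlib.RingTheory.Coprime.Lemmas
import Mathlib.LinearAlgebra.Finsupp.LinearCombination
import Mathlib.NumberTheory.Modular
import Mathlib.NumberTheory.ModularForms.ArithmeticSubgroups
import Fermat.Agent.LevelRaising.ModSym

/-!
# Manin's trick

Modular symbols are generated by the finitely many unimodular symbols `g {0, ∞}`; in particular
they form a finitely generated abelian group.
-/

set_option autoImplicit false

open Matrix CongruenceSubgroup
open scoped MatrixGroups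

namespace Fermat.Agent.LevelRaising

/-- The cusp `0`. -/
def vecZero : Vec := ![0, 1]

/-- The vector of the cusp `0` is non zero. -/
theorem vecZero_ne_zero : vecZero ≠ 0 := by
  intro h
  simpa [vecZero] using congrFun h 1

/-- The unimodular symbol `g {0, ∞}`. -/
noncomputable def unimod (N : ℕ) (g : SL(2, ℤ)) : ModSym N :=
  symb N (mat g *ᵥ vecZero) (mat g *ᵥ vecInfty)

variable {N : ℕ}

/-- Unimodular symbols depend only on the right coset. -/
theorem unimod_mul_left {γ : SL(2, ℤ)} (hγ : γ ∈ Gamma0 N) (g : SL(2, ℤ)) :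
    unimod N (γ * g) = unimod N g := by
  rw [unimod, mat_mul, ← mulVec_mulVec, ← mulVec_mulVec, symb_gamma hγ, unimod]

/-- The two term Manin relation. -/
theorem unimod_mul_S (g : SL(2, ℤ)) : unimod N (g * ModularGroup.S) = -unimod N g := by
  have h1 : mat ModularGroup.S *ᵥ vecZero = (-1 : ℤ) • vecInfty := by
    ext i; fin_cases i <;> simp [mat, ModularGroup.coe_S, vecZero, vecInfty]
  have h2 : mat ModularGroup.S *ᵥ vecInfty = vecZero := by
    ext i; fin_cases i <;> simp [mat, ModularGroup.coe_S, vecZero, vecInfty]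
  rw [unimod, mat_mul, ← mulVec_mulVec, ← mulVec_mulVec, h1, h2, mulVec_smul,
    symb_scale_left (by norm_num), symb_swap, unimod]

/-- The element `τ = T S` of order six, fixing `e^{iπ/3}`. -/
def tau : SL(2, ℤ) := ModularGroup.T * ModularGroup.S

/-- The matrix of `τ`. -/
theorem mat_tau : mat tau = !![1, -1; 1, 0] := by
  rw [tau, mat_mul]
  ext i j
  fin_cases i <;> fin_cases j <;> simp [mat, ModularGroup.coe_T, ModularGroup.coe_S,
    Matrix.mul_apply, Fin.sum_univ_two]

/-- The three term Manin relation. -/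
theorem unimod_triangle (g : SL(2, ℤ)) :
    unimod N g + unimod N (g * tau) + unimod N (g * tau * tau) = 0 := by
  have h0 : mat tau *ᵥ vecZero = (-1 : ℤ) • vecInfty := by
    ext i; fin_cases i <;> simp [mat_tau, vecZero, vecInfty]
  have h1 : mat tau *ᵥ vecInfty = ![1, 1] := by
    ext i; fin_cases i <;> simp [mat_tau, vecInfty]
  have h2 : mat tau *ᵥ ![1, 1] = vecZero := by
    ext i; fin_cases i <;> simp [mat_tau, vecZero]
  have e : ∀ g : SL(2, ℤ), mat g *ᵥ ((-1 : ℤ) • vecInfty) = (-1 : ℤ) • (mat g *ᵥ vecInfty) :=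
    fun g => mulVec_smul _ _ _
  have hone : ![(1 : ℤ), 1] ≠ 0 := fun h => by simpa using congrFun h 0
  simp only [unimod, mat_mul, ← mulVec_mulVec, h0, h1, h2, mulVec_smul]
  rw [symb_scale_left (by norm_num), symb_scale_left (by norm_num),
    symb_add (mat_mulVec_ne_zero g vecZero_ne_zero) (mat_mulVec_ne_zero g vecInfty_ne_zero)
      (mat_mulVec_ne_zero g hone),
    symb_swap (mat g *ᵥ vecZero) (mat g *ᵥ ![1, 1])]
  abel

/-- Manin's trick. -/
theorem closure_unimod : AddSubgroup.closure (Set.range (unimod N)) = ⊤ := by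
  set H := AddSubgroup.closure (Set.range (unimod N))
  have key : ∀ (n : ℕ) (a c : ℤ), c.natAbs ≤ n → IsCoprime a c →
      symb N vecInfty ![a, c] ∈ H := by
    intro n
    induction n with
    | zero =>
      intro a c hc h
      obtain rfl : c = 0 := by omega
      have ha : a ≠ 0 := fun ha => by simp [ha, isCoprime_zero_left] at h
      have : ![a, 0] = a • vecInfty := by ext i; fin_cases i <;> simp [vecInfty]
      rw [this, symb_scale_right ha, symb_self]
      exact H.zero_mem
    | succ n ih =>
      intro a c hc h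
      by_cases hc0 : c = 0
      · exact ih a c (by simp [hc0]) h
      obtain ⟨u, v, huv⟩ := h
      -- `a d - b c = 1` with `|d| < |c|`
      set d := u % c with hd
      set b := -(v + a * (u / c)) with hb
      have hdet : a * d - b * c = 1 := by
        rw [hb, hd, Int.emod_def]
        linear_combination huv
      have hdlt : d.natAbs < c.natAbs := by
        rw [hd]
        have h1 := Int.emod_lt u hc0
        have h2 := Int.emod_nonneg u hc0
        omega
      set g : SL(2, ℤ) := ⟨!![a, b; c, d], by rw [det_fin_two_of]; exact hdet⟩ with hg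
      have hgz : mat g *ᵥ vecZero = ![b, d] := by
        ext i; fin_cases i <;> simp [mat, hg, vecZero]
      have hgi : mat g *ᵥ vecInfty = ![a, c] := by
        ext i; fin_cases i <;> simp [mat, hg, vecInfty]
      have hbd : IsCoprime b d := ⟨-c, a, by linear_combination hdet⟩
      rw [← symb_add vecInfty_ne_zero (hgz ▸ mat_mulVec_ne_zero g vecZero_ne_zero)
        (hgi ▸ mat_mulVec_ne_zero g vecInfty_ne_zero)]
      refine H.add_mem (ih b d (by omega) hbd) ?_
      rw [← hgz, ← hgi]
      exact AddSubgroup.subset_closure ⟨g, rfl⟩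
  have key' : ∀ v : Vec, v ≠ 0 → symb N vecInfty v ∈ H := by
    intro v hv
    obtain ⟨g, a, c, hg, hac, ha, hc⟩ : ∃ (g : ℕ) (a c : ℤ), 0 < g ∧ Int.gcd a c = 1 ∧
        v 0 = a * g ∧ v 1 = c * g := by
      refine Int.exists_gcd_one' ?_
      refine Nat.pos_of_ne_zero fun h0 => hv ?_
      obtain ⟨h1, h2⟩ := Int.gcd_eq_zero_iff.mp h0
      ext i; fin_cases i <;> assumption
    have : v = (g : ℤ) • ![a, c] := by
      ext i; fin_cases i <;> simp [ha, hc, mul_comm]
    rw [this, symb_scale_right (by exact_mod_cast hg.ne')]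
    exact key c.natAbs a c le_rfl (Int.isCoprime_iff_gcd_eq_one.mpr hac)
  rw [eq_top_iff]
  intro x _
  suffices h : QuotientAddGroup.mk' H = (0 : ModSym N →+ ModSym N ⧸ H) from
    (QuotientAddGroup.eq_zero_iff x).mp (DFunLike.congr_fun h x)
  refine hom_ext fun v w hv hw => ?_
  refine (QuotientAddGroup.eq_zero_iff _).mpr ?_
  rw [← symb_add hv vecInfty_ne_zero hw, symb_swap vecInfty v]
  exact H.add_mem (H.neg_mem (key' v hv)) (key' w hw)

/-- The coset `Γ₀(N) g`, as an element of `SL(2, ℤ) ⧸ Γ₀(N)`. -/
def rightCoset (N : ℕ) (g : SL(2, ℤ)) : SL(2, ℤ) ⧸ Gamma0 N := QuotientGroup.mk g⁻¹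

/-- A representative of a right coset. -/
noncomputable def cosetRep (Q : SL(2, ℤ) ⧸ Gamma0 N) : SL(2, ℤ) := (Quotient.out Q)⁻¹

/-- `cosetRep` is a section of `rightCoset`. -/
theorem rightCoset_cosetRep (Q : SL(2, ℤ) ⧸ Gamma0 N) : rightCoset N (cosetRep Q) = Q := by
  rw [rightCoset, cosetRep, inv_inv, QuotientGroup.out_eq']

/-- Two elements give the same right coset when they differ by `Γ₀(N)` on the left. -/
theorem rightCoset_eq_iff {g h : SL(2, ℤ)} :
    rightCoset N g = rightCoset N h ↔ g * h⁻¹ ∈ Gamma0 N := by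
  rw [rightCoset, rightCoset, QuotientGroup.eq, inv_inv]

/-- Left multiplication by `Γ₀(N)` fixes the right coset. -/
theorem rightCoset_mul_left {γ : SL(2, ℤ)} (hγ : γ ∈ Gamma0 N) (g : SL(2, ℤ)) :
    rightCoset N (γ * g) = rightCoset N g := by
  rw [rightCoset_eq_iff, mul_inv_cancel_right]; exact hγ

/-- A unimodular symbol is that of its coset representative. -/
theorem unimod_eq_cosetRep (g : SL(2, ℤ)) :
    unimod N g = unimod N (cosetRep (rightCoset N g)) := by
  have h : g * (cosetRep (rightCoset N g))⁻¹ ∈ Gamma0 N := by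
    rw [← rightCoset_eq_iff, rightCoset_cosetRep]
  conv_lhs => rw [← inv_mul_cancel_right g (cosetRep (rightCoset N g))]
  exact unimod_mul_left h _

variable [NeZero N]

/-- The combination of unimodular symbols with given coefficients on the right cosets. -/
noncomputable def maninMap : (SL(2, ℤ) ⧸ Gamma0 N → ℤ) →ₗ[ℤ] ModSym N :=
  letI := Fintype.ofFinite (SL(2, ℤ) ⧸ Gamma0 N)
  Fintype.linearCombination ℤ (fun Q => unimod N (cosetRep Q))

/-- Modular symbols are generated by the coset representatives of unimodular symbols. -/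
theorem maninMap_surjective : Function.Surjective (maninMap (N := N)) := by
  classical
  let := Fintype.ofFinite (SL(2, ℤ) ⧸ Gamma0 N)
  intro x
  have hx : x ∈ AddSubgroup.closure (Set.range (unimod N)) := closure_unimod (N := N) ▸ trivial
  induction hx using AddSubgroup.closure_induction with
  | mem x hx =>
    obtain ⟨g, rfl⟩ := hx
    refine ⟨Pi.single (rightCoset N g) 1, ?_⟩
    rw [maninMap, Fintype.linearCombination_apply_single, one_smul]
    exact (unimod_eq_cosetRep g).symm
  | zero => exact ⟨0, map_zero _⟩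
  | add x y _ _ hx hy =>
    obtain ⟨a, rfl⟩ := hx
    obtain ⟨b, rfl⟩ := hy
    exact ⟨a + b, map_add _ _ _⟩
  | neg x _ hx =>
    obtain ⟨a, rfl⟩ := hx
    exact ⟨-a, map_neg _ _⟩

instance modSym_finite : Module.Finite ℤ (ModSym N) :=
  Module.Finite.of_surjective _ maninMap_surjective

end Fermat.Agent.LevelRaising
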