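import Mathlib.Algebra.BigOperators.GroupWithZero.Action
import Mathlib.Data.Fintype.BigOperators
import Fermat.Agent.LevelRaising.ModSym

/-!
# Correspondences given by lists of integral matrices

A correspondence between two levels is given by a finite family of integral matrices
(`IsCorr`).  It acts on modular symbols (`IsCorr.push`) and, by transfer, on homomorphisms of
`Γ₀` (`IsCorr.transfer`), compatibly with closed symbols.
-/

set_option autoImplicit false

open Matrix CongruenceSubgroup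
open scoped MatrixGroups

namespace Fermat.Agent.LevelRaising

/-- `g` is a system of representatives of a `Γ₀(M)`-`Γ₀(N)` correspondence. -/
structure IsCorr (N M : ℕ) {ι : Type*} (g : ι → Mat) : Prop where
  det_pos : ∀ i, 0 < (g i).det
  perm : ∀ γ ∈ Gamma0 N, ∀ i, ∃ j, ∃ δ ∈ Gamma0 M, g i * mat γ = mat δ * g j
  inj : ∀ i j, ∀ δ ∈ Gamma0 M, g i = mat δ * g j → i = j

namespace IsCorr

variable {N M : ℕ} {ι : Type*} {g : ι → Mat} (hg : IsCorr N M g)

include hg

/-- The matrices of a correspondence have non zero determinant. -/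
theorem det_ne_zero (i : ι) : (g i).det ≠ 0 := (hg.det_pos i).ne'

/-- The permutation of the representatives induced by `γ`. -/
noncomputable def σ (γ : Gamma0 N) (i : ι) : ι := (hg.perm γ γ.2 i).choose

/-- The element of `Γ₀(M)` with `g i * γ = δ * g (σ γ i)`. -/
noncomputable def δ (γ : Gamma0 N) (i : ι) : Gamma0 M :=
  ⟨(hg.perm γ γ.2 i).choose_spec.choose, (hg.perm γ γ.2 i).choose_spec.choose_spec.1⟩

/-- The defining equation `g_i γ = δ(γ, i) g_σ(i)`. -/
theorem spec (γ : Gamma0 N) (i : ι) :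
    g i * mat γ = mat (hg.δ γ i) * g (hg.σ γ i) :=
  (hg.perm γ γ.2 i).choose_spec.choose_spec.2

/-- The pair `(σ, δ)` is determined by its defining equation. -/
theorem unique {γ : Gamma0 N} {i j : ι} {d : Gamma0 M}
    (h : g i * mat γ = mat d * g j) : hg.σ γ i = j ∧ hg.δ γ i = d := by
  have h' := hg.spec γ i
  rw [h] at h'
  have hσ : hg.σ γ i = j := by
    refine hg.inj _ _ ((hg.δ γ i)⁻¹ * d : Gamma0 M) (SetLike.coe_mem _) ?_
    have h2 := congrArg (mat ((hg.δ γ i : SL(2, ℤ)))⁻¹ * ·) h'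
    simp only [← Matrix.mul_assoc, mat_inv_mul, Matrix.one_mul] at h2
    rw [Subgroup.coe_mul, Subgroup.coe_inv, mat_mul]
    exact h2.symm
  refine ⟨hσ, Subtype.ext (mat_inj.mp ?_)⟩
  rw [hσ] at h'
  exact (mul_right_cancel_of_det (hg.det_ne_zero j) h').symm

/-- `σ γ` permutes the indices. -/
theorem σ_bijective [Finite ι] (γ : Gamma0 N) : Function.Bijective (hg.σ γ) := by
  refine Finite.injective_iff_bijective.mp fun i k h => ?_
  refine hg.inj i k (hg.δ γ i * (hg.δ γ k)⁻¹ : Gamma0 M) (SetLike.coe_mem _) ?_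
  have hi := hg.spec γ i
  have hk := hg.spec γ k
  rw [h] at hi
  have hk2 : mat ((hg.δ γ k : SL(2, ℤ)))⁻¹ * (g k * mat γ) = g (hg.σ γ k) := by
    rw [hk, ← Matrix.mul_assoc, mat_inv_mul, Matrix.one_mul]
  rw [← hk2, ← Matrix.mul_assoc, ← Matrix.mul_assoc] at hi
  have := mul_right_cancel_of_det (det_mat_ne_zero γ) hi
  rw [Subgroup.coe_mul, Subgroup.coe_inv, mat_mul]
  exact this

theorem δ_mul (γ γ' : Gamma0 N) (i : ι) :
    hg.δ (γ * γ') i = hg.δ γ i * hg.δ γ' (hg.σ γ i) := by
  refine (hg.unique (j := hg.σ γ' (hg.σ γ i)) ?_).2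
  rw [Subgroup.coe_mul, mat_mul, ← Matrix.mul_assoc, hg.spec, Matrix.mul_assoc, hg.spec,
    Subgroup.coe_mul, mat_mul, Matrix.mul_assoc]

variable [Fintype ι]

theorem isSymbol_push :
    IsSymbol N (fun v w => ∑ i, symb M (g i *ᵥ v) (g i *ᵥ w)) where
  zero_left w := by simp [isSymbol_symb.zero_left]
  zero_right v := by simp [isSymbol_symb.zero_right]
  triangle u v w hu hv hw := by
    rw [← Finset.sum_add_distrib]
    exact Finset.sum_congr rfl fun i _ => symb_add (mulVec_ne_zero (hg.det_ne_zero i) hu)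
      (mulVec_ne_zero (hg.det_ne_zero i) hv) (mulVec_ne_zero (hg.det_ne_zero i) hw)
  scale a ha v w := Finset.sum_congr rfl fun i _ => by
    rw [mulVec_smul, symb_scale_left ha]
  invariant γ hγ v w := by
    refine (Finset.sum_congr rfl fun i _ => ?_).trans ((hg.σ_bijective ⟨γ, hγ⟩).sum_comp
      fun i => symb M (g i *ᵥ v) (g i *ᵥ w))
    rw [mulVec_mulVec, mulVec_mulVec, hg.spec ⟨γ, hγ⟩ i, ← mulVec_mulVec, ← mulVec_mulVec,
      symb_gamma (hg.δ ⟨γ, hγ⟩ i).2]

/-- The operator on modular symbols. -/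
noncomputable def push : ModSym N →+ ModSym M := lift _ hg.isSymbol_push

/-- The push forward of a symbol is the sum of its translates. -/
theorem push_symb (v w : Vec) :
    hg.push (symb N v w) = ∑ i, symb M (g i *ᵥ v) (g i *ᵥ w) := lift_symb _ _ _ _

/-- The push forward of a cycle is the sum of the cycles of the cocycle values. -/
theorem push_cycleHom (γ : Gamma0 N) :
    hg.push (cycleHom N (Additive.ofMul γ)) =
      ∑ i, cycleHom M (Additive.ofMul (hg.δ γ i)) := by
  have he := vecInfty_ne_zero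
  rw [cycleHom_apply, hg.push_symb]
  have key : ∀ i, symb M (g i *ᵥ vecInfty) (g i *ᵥ (mat γ *ᵥ vecInfty)) =
      symb M (g i *ᵥ vecInfty) vecInfty + cycleHom M (Additive.ofMul (hg.δ γ i)) +
        symb M vecInfty (g (hg.σ γ i) *ᵥ vecInfty) := by
    intro i
    have h1 := mulVec_ne_zero (hg.det_ne_zero i) he
    have h2 := mulVec_ne_zero (hg.det_ne_zero (hg.σ γ i)) he
    have h3 := mat_mulVec_ne_zero (hg.δ γ i : SL(2, ℤ)) he
    rw [cycleHom_apply, mulVec_mulVec, hg.spec γ i, ← mulVec_mulVec, symb_add h1 he h3,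
      ← symb_gamma (hg.δ γ i).2 vecInfty, symb_add h1 h3 (mat_mulVec_ne_zero _ h2)]
  rw [Finset.sum_congr rfl fun i _ => key i, Finset.sum_add_distrib, Finset.sum_add_distrib,
    (hg.σ_bijective γ).sum_comp fun i => symb M vecInfty (g i *ᵥ vecInfty),
    Finset.sum_congr rfl fun i _ => symb_swap vecInfty (g i *ᵥ vecInfty), Finset.sum_neg_distrib]
  abel

/-- The transfer of a homomorphism on `Γ₀(M)` to `Γ₀(N)`. -/
noncomputable def transfer {A : Type*} [AddCommGroup A] :
    (Additive (Gamma0 M) →+ A) →+ (Additive (Gamma0 N) →+ A) :=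
  AddMonoidHom.mk' (fun h => AddMonoidHom.mk'
      (fun γ => ∑ i, h (Additive.ofMul (hg.δ (Additive.toMul γ) i)))
      (fun γ γ' => by
        rw [toMul_add]
        simp only [hg.δ_mul, ofMul_mul, map_add, Finset.sum_add_distrib]
        rw [(hg.σ_bijective _).sum_comp fun i => h (Additive.ofMul (hg.δ _ i))]))
    (fun h h' => by
      refine AddMonoidHom.ext fun γ => ?_
      simp [Finset.sum_add_distrib])

/-- The transfer evaluates as the sum over the cocycle values. -/
theorem transfer_apply {A : Type*} [AddCommGroup A] (h : Additive (Gamma0 M) →+ A)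
    (γ : Gamma0 N) :
    hg.transfer h (Additive.ofMul γ) = ∑ i, h (Additive.ofMul (hg.δ γ i)) := rfl

/-- Restriction to closed symbols exchanges `push` and `transfer`. -/
theorem transfer_comp_cycleHom {A : Type*} [AddCommGroup A] (φ : ModSym M →+ A) :
    hg.transfer (φ.comp (cycleHom M)) = (φ.comp hg.push).comp (cycleHom N) := by
  refine AddMonoidHom.ext fun x => ?_
  obtain ⟨γ, rfl⟩ : ∃ γ, Additive.ofMul γ = x := ⟨Additive.toMul x, rfl⟩
  rw [hg.transfer_apply, AddMonoidHom.comp_apply, AddMonoidHom.comp_apply, hg.push_cycleHom,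
    map_sum]
  rfl

end IsCorr

/-- Two families of matrices that agree up to a bijection of indices, left multiplication by
`Γ₀(M)` and scalars give the same sum of symbols. -/
theorem sum_symb_congr {M : ℕ} {ι κ : Type*} [Fintype ι] [Fintype κ] {g : ι → Mat} {h : κ → Mat}
    (e : ι ≃ κ)
    (he : ∀ i, ∃ δ ∈ Gamma0 M, ∃ a b : ℤ, a ≠ 0 ∧ b ≠ 0 ∧ a • h (e i) = b • (mat δ * g i))
    (v w : Vec) :
    ∑ i, symb M (g i *ᵥ v) (g i *ᵥ w) = ∑ j, symb M (h j *ᵥ v) (h j *ᵥ w) := by
  rw [← e.sum_comp fun j => symb M (h j *ᵥ v) (h j *ᵥ w)]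
  refine Finset.sum_congr rfl fun i _ => ?_
  obtain ⟨δ, hδ, a, b, ha, hb, eq⟩ := he i
  rw [← symb_scale_left ha (h (e i) *ᵥ v), ← symb_scale_right ha _ (h (e i) *ᵥ w),
    ← smul_mulVec, ← smul_mulVec, eq, smul_mulVec, smul_mulVec, symb_scale_left hb,
    symb_scale_right hb, ← mulVec_mulVec, ← mulVec_mulVec, symb_gamma hδ]

/-- A composite of push forwards sums over the products of the matrices. -/
theorem IsCorr.push_push_symb {N M L : ℕ} {ι κ : Type*} [Fintype ι] [Fintype κ] {g : ι → Mat}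
    {h : κ → Mat} (hg : IsCorr N M g) (hh : IsCorr M L h) (v w : Vec) :
    hh.push (hg.push (symb N v w)) =
      ∑ p : κ × ι, symb L ((h p.1 * g p.2) *ᵥ v) ((h p.1 * g p.2) *ᵥ w) := by
  rw [hg.push_symb, map_sum, Fintype.sum_prod_type, Finset.sum_comm]
  refine Finset.sum_congr rfl fun i _ => ?_
  rw [hh.push_symb]
  exact Finset.sum_congr rfl fun j _ => by rw [mulVec_mulVec, mulVec_mulVec]

end Fermat.Agent.LevelRaising
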