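import Mathlib.Topology.Order.IntermediateValue
import Mathlib.Analysis.Complex.Convex
import Mathlib.Analysis.SpecialFunctions.Pow.Real
import Fermat.Agent.LevelRaising.ModSym

/-!
# The side of a geodesic

`crossD v w z` is the side of `z` with respect to the geodesic between the cusps `v` and `w`.
Only finitely many translates of a geodesic separate two given points (`finite_crossD_ne`), and
only finitely many points of an orbit lie in an ideal triangle (`finite_triSum_ne`).
-/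

set_option autoImplicit false

noncomputable section

open Matrix CongruenceSubgroup UpperHalfPlane ComplexConjugate
open scoped MatrixGroups

namespace Fermat.Agent.LevelRaising

/-- `v₀ - v₁ z`. -/
def lineVal (v : Vec) (z : ℂ) : ℂ := (v 0 : ℂ) - (v 1 : ℂ) * z

/-- The determinant of two vectors. -/
def vdet (v w : Vec) : ℤ := v 0 * w 1 - v 1 * w 0

/-- Zero exactly on the geodesic joining the two cusps. -/
def pairRe (v w : Vec) (z : ℂ) : ℝ := (lineVal v z * conj (lineVal w z)).re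

/-- The side of `z` with respect to the oriented geodesic from `v` to `w`. -/
def crossD (v w : Vec) (z : ℍ) : ℤ := SignType.sign (pairRe v w z * (vdet v w : ℝ))

theorem im_lineVal_mul_conj (v w : Vec) (z : ℂ) :
    (lineVal v z * conj (lineVal w z)).im = z.im * (vdet v w : ℝ) := by
  simp [lineVal, vdet]
  ring

theorem crossD_of_vdet {v w : Vec} (h : vdet v w = 0) (z : ℍ) : crossD v w z = 0 := by
  simp [crossD, h]

/-- The local crossing vanishes when the first vector is zero. -/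
theorem crossD_zero_left (w : Vec) (z : ℍ) : crossD 0 w z = 0 :=
  crossD_of_vdet (by simp [vdet]) z

/-- The local crossing vanishes when the second vector is zero. -/
theorem crossD_zero_right (v : Vec) (z : ℍ) : crossD v 0 z = 0 :=
  crossD_of_vdet (by simp [vdet]) z

/-- The local crossing is antisymmetric. -/
theorem crossD_swap (v w : Vec) (z : ℍ) : crossD w v z = -crossD v w z := by
  have h1 : pairRe w v z = pairRe v w z := by simp [pairRe]; ring
  have h2 : vdet w v = -vdet v w := by simp [vdet]; ring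
  rw [crossD, crossD, h1, h2]
  push_cast
  rw [mul_neg, Left.sign_neg]
  simp

/-- The local crossing only depends on the line of the first vector. -/
theorem crossD_scale {a : ℤ} (ha : a ≠ 0) (v w : Vec) (z : ℍ) :
    crossD (a • v) w z = crossD v w z := by
  have h1 : lineVal (a • v) (z : ℂ) = (a : ℂ) * lineVal v z := by simp [lineVal]; ring
  have h2 : vdet (a • v) w = a * vdet v w := by simp [vdet]; ring
  have h3 : pairRe (a • v) w z * ((vdet (a • v) w : ℤ) : ℝ) =
      ((a : ℝ) * a) * (pairRe v w z * (vdet v w : ℝ)) := by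
    rw [pairRe, pairRe, h1, h2, mul_assoc (a : ℂ)]
    push_cast
    simp
    ring
  have hpos : (0 : ℝ) < (a : ℝ) * a := mul_self_pos.mpr (Int.cast_ne_zero.mpr ha)
  rw [crossD, crossD, h3, sign_mul, sign_pos hpos, one_mul]

/-- The determinant of two vectors scales by `det g`. -/
theorem vdet_mulVec (g : Mat) (v w : Vec) : vdet (g *ᵥ v) (g *ᵥ w) = g.det * vdet v w := by
  simp [vdet, det_fin_two, mulVec, dotProduct, Fin.sum_univ_two]
  ring

/-- Equivariance of the local crossing under positive determinant matrices. -/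
theorem crossD_mulVec {g : Mat} (hg : 0 < g.det) (v w : Vec) (z : ℍ) :
    crossD (g *ᵥ v) (g *ᵥ w) z = crossD v w (act g.adjugate z) := by
  have hga : 0 < g.adjugate.det := by rw [det_adjugate']; exact hg
  set k : ℂ := (g 0 0 : ℂ) - (g 1 0 : ℂ) * z with hk
  have hk0 : k ≠ 0 := by
    intro h0
    by_cases hc : g 1 0 = 0
    · rw [hk, hc] at h0
      have : (g 0 0 : ℤ) = 0 := by simpa using h0
      rw [det_fin_two, this, hc] at hg
      simp at hg
    · have := congrArg Complex.im h0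
      simp [hk, hc, z.im_ne_zero] at this
  have hline : ∀ u : Vec, lineVal (g *ᵥ u) z = k * lineVal u (act g.adjugate z : ℂ) := by
    intro u
    have hden : (-(g 1 0 : ℂ)) * z + g 0 0 = k := by rw [hk]; ring
    rw [coe_act hga, adjugate_fin_two]
    simp only [of_apply, cons_val', cons_val_zero, cons_val_one, empty_val', cons_val_fin_one,
      Int.cast_neg, hden, lineVal]
    field_simp
    simp [mulVec, dotProduct, Fin.sum_univ_two, hk]
    ring
  have hp : pairRe (g *ᵥ v) (g *ᵥ w) z * ((vdet (g *ᵥ v) (g *ᵥ w) : ℤ) : ℝ) =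
      (Complex.normSq k * (g.det : ℝ)) *
        (pairRe v w (act g.adjugate z) * (vdet v w : ℝ)) := by
    rw [pairRe, pairRe, hline, hline, vdet_mulVec, map_mul, mul_mul_mul_comm, Complex.mul_conj,
      Complex.re_ofReal_mul]
    push_cast
    ring
  have hpos : (0 : ℝ) < Complex.normSq k * (g.det : ℝ) :=
    mul_pos (Complex.normSq_pos.mpr hk0) (by exact_mod_cast hg)
  rw [crossD, crossD, hp, sign_mul, sign_pos hpos, one_mul]

/-- Equivariance of the local crossing under `SL(2, ℤ)`. -/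
theorem crossD_smul (δ : SL(2, ℤ)) (v w : Vec) (z : ℍ) :
    crossD v w (δ • z) = crossD (mat δ⁻¹ *ᵥ v) (mat δ⁻¹ *ᵥ w) z := by
  rw [crossD_mulVec (by rw [det_mat]; exact one_pos), ← mat_inv, inv_inv, act_mat]

/-- Bound on a vector in terms of its line value. -/
theorem abs_le_of_norm_lineVal_le {v : Vec} {z : ℂ} {B : ℝ} (hz : 0 < z.im)
    (h : ‖lineVal v z‖ ≤ B) :
    |(v 0 : ℝ)| ≤ B + B / z.im * ‖z‖ ∧ |(v 1 : ℝ)| ≤ B / z.im := by
  have h1 : |(v 1 : ℝ)| ≤ B / z.im := by
    rw [le_div_iff₀ hz]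
    have := (Complex.abs_im_le_norm (lineVal v z)).trans h
    simpa [lineVal, abs_mul, abs_of_pos hz] using this
  refine ⟨?_, h1⟩
  have h2 : ‖(v 0 : ℂ)‖ ≤ ‖lineVal v z‖ + ‖(v 1 : ℂ) * z‖ := by
    refine le_trans (le_of_eq ?_) (norm_add_le _ _)
    simp [lineVal]
  rw [Complex.norm_intCast, norm_mul, Complex.norm_intCast] at h2
  refine h2.trans (add_le_add h (mul_le_mul_of_nonneg_right h1 (norm_nonneg z)))

theorem one_le_norm_lineVal {w : Vec} (hw : w ≠ 0) (z : ℂ) :
    min |z.im| 1 ≤ ‖lineVal w z‖ := by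
  by_cases h1 : w 1 = 0
  · have h0 : w 0 ≠ 0 := fun h0 => hw (by ext i; fin_cases i <;> assumption)
    simp only [lineVal, h1, Int.cast_zero, zero_mul, sub_zero, Complex.norm_intCast]
    exact (min_le_right _ _).trans (by exact_mod_cast Int.one_le_abs h0)
  · refine le_trans ?_ (Complex.abs_im_le_norm _)
    have : (1 : ℝ) ≤ |(w 1 : ℝ)| := by exact_mod_cast Int.one_le_abs h1
    simp [lineVal, abs_mul]
    exact Or.inl (le_mul_of_one_le_left (abs_nonneg _) this)

theorem finite_setOf_bounded {v w : Vec} (h : vdet v w ≠ 0) (B : ℝ) :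
    {δ : SL(2, ℤ) | ∀ i, |((mat δ *ᵥ v) i : ℝ)| ≤ B ∧ |((mat δ *ᵥ w) i : ℝ)| ≤ B}.Finite := by
  obtain ⟨n, hn⟩ := exists_nat_ge B
  have hbox : (Set.univ.pi fun _ : Fin 2 => Set.Icc (-(n : ℤ)) (n : ℤ) : Set Vec).Finite :=
    Set.Finite.pi fun _ => Set.finite_Icc _ _
  refine Set.Finite.of_finite_image ((hbox.prod hbox).subset (Set.image_subset_iff.mpr
    fun δ hδ => ?_)) (f := fun δ : SL(2, ℤ) => (mat δ *ᵥ v, mat δ *ᵥ w)) ?_
  · have hi : ∀ x : ℤ, |(x : ℝ)| ≤ B → -(n : ℤ) ≤ x ∧ x ≤ n := fun x hx => by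
      have : |x| ≤ (n : ℤ) := by exact_mod_cast hx.trans hn
      exact abs_le.mp this
    exact ⟨fun i _ => hi _ (hδ i).1, fun i _ => hi _ (hδ i).2⟩
  · intro δ _ δ' _ e
    simp only [Prod.mk.injEq] at e
    set B' : Mat := !![v 0, w 0; v 1, w 1]
    have hB : B'.det ≠ 0 := by
      rw [det_fin_two_of]
      intro h0; apply h
      rw [vdet]; linear_combination h0
    refine mat_inj.mp (mul_right_cancel_of_det hB ?_)
    ext i j
    have e1 := congrFun e.1 i
    have e2 := congrFun e.2 i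
    simp [mulVec, dotProduct, Fin.sum_univ_two] at e1 e2
    fin_cases j <;> simp [B', Matrix.mul_apply, Fin.sum_univ_two] <;> assumption

/-- Only finitely many translates of a geodesic separate two given points. -/
theorem finite_crossD_ne (v w : Vec) (z₁ z₂ : ℍ) :
    {δ : SL(2, ℤ) | crossD v w (δ • z₁) ≠ crossD v w (δ • z₂)}.Finite := by
  by_cases h : vdet v w = 0
  · simp [crossD_of_vdet h]
  set y₀ := min z₁.im z₂.im
  set Y := max z₁.im z₂.im
  have hy₀ : 0 < y₀ := lt_min z₁.im_pos z₂.im_pos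
  set c₀ := min y₀ 1 with hc₀def
  have hc₀ : 0 < c₀ := lt_min hy₀ one_pos
  set M := |(vdet v w : ℝ)| * Y / c₀
  set R := ‖(z₁ : ℂ)‖ + ‖(z₂ : ℂ)‖
  set B := M + M / y₀ * R + M / y₀
  refine ((finite_setOf_bounded h B).image (·⁻¹)).subset fun δ hδ => ?_
  refine ⟨δ⁻¹, ?_, inv_inv δ⟩
  set v' := mat δ⁻¹ *ᵥ v with hv'
  set w' := mat δ⁻¹ *ᵥ w with hw'
  have hd : vdet v' w' = vdet v w := by rw [hv', hw', vdet_mulVec, det_mat, one_mul]
  simp only [Set.mem_ofPred_eq, crossD_smul, ← hv', ← hw'] at hδ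
  set f : ℝ → ℝ := fun t => pairRe v' w' (((1 - t : ℝ) : ℂ) * z₁ + (t : ℂ) * z₂) with hf
  have hcont : Continuous f := by
    simp only [hf, pairRe, lineVal]
    fun_prop
  have hf0 : f 0 = pairRe v' w' z₁ := by simp [hf]
  have hf1 : f 1 = pairRe v' w' z₂ := by simp [hf]
  obtain ⟨t, ht, hzero⟩ : ∃ t ∈ Set.Icc (0 : ℝ) 1, f t = 0 := by
    by_contra hne
    push Not at hne
    apply hδ
    have h0 := hne 0 (by simp)
    have h1 := hne 1 (by simp)
    have hs : SignType.sign (f 0) = SignType.sign (f 1) := by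
      rcases lt_or_gt_of_ne h0 with a | a <;> rcases lt_or_gt_of_ne h1 with b | b
      · rw [sign_neg a, sign_neg b]
      · obtain ⟨t, ht, e⟩ := intermediate_value_Icc zero_le_one hcont.continuousOn ⟨a.le, b.le⟩
        exact absurd e (hne t ht)
      · obtain ⟨t, ht, e⟩ := intermediate_value_Icc' zero_le_one hcont.continuousOn ⟨b.le, a.le⟩
        exact absurd e (hne t ht)
      · rw [sign_pos a, sign_pos b]
    rw [crossD, crossD, sign_mul, sign_mul, ← hf0, ← hf1, hs]
  set z : ℂ := ((1 - t : ℝ) : ℂ) * z₁ + (t : ℂ) * z₂ with hz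
  have h1t : 0 ≤ 1 - t := by linarith [ht.2]
  have him : z.im = (1 - t) * z₁.im + t * z₂.im := by simp [hz]
  have hlo : y₀ ≤ z.im := by
    rw [him]
    nlinarith [min_le_left z₁.im z₂.im, min_le_right z₁.im z₂.im, ht.1]
  have hhi : z.im ≤ Y := by
    rw [him]
    nlinarith [le_max_left z₁.im z₂.im, le_max_right z₁.im z₂.im, ht.1]
  have hnorm : ‖z‖ ≤ R := by
    refine (norm_add_le _ _).trans ?_
    simp only [norm_mul, Complex.norm_real, Real.norm_eq_abs, abs_of_nonneg h1t,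
      abs_of_nonneg ht.1]
    exact add_le_add (mul_le_of_le_one_left (norm_nonneg _) (by linarith [ht.1]))
      (mul_le_of_le_one_left (norm_nonneg _) ht.2)
  have hzpos : 0 < z.im := hy₀.trans_le hlo
  have hprod : ‖lineVal v' z‖ * ‖lineVal w' z‖ = z.im * |(vdet v w : ℝ)| := by
    rw [← Complex.norm_conj (lineVal w' z), ← norm_mul]
    have hre : (lineVal v' z * conj (lineVal w' z)).re = 0 := hzero
    have him' := im_lineVal_mul_conj v' w' z
    rw [hd] at him'
    rw [← Complex.re_add_im (lineVal v' z * conj (lineVal w' z)), hre, him', Complex.ofReal_zero,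
      zero_add, norm_mul, Complex.norm_I, mul_one, Complex.norm_real, Real.norm_eq_abs, abs_mul,
      abs_of_pos hzpos]
  have hbound : ∀ a b : Vec, b ≠ 0 → ‖lineVal a z‖ * ‖lineVal b z‖ = z.im * |(vdet v w : ℝ)| →
      ∀ i, |(a i : ℝ)| ≤ B := by
    intro a b hb e i
    have hb' : c₀ ≤ ‖lineVal b z‖ := by
      refine le_trans ?_ (one_le_norm_lineVal hb z)
      rw [abs_of_pos hzpos]
      exact min_le_min_right _ hlo
    have hA : ‖lineVal a z‖ ≤ M := by
      rw [le_div_iff₀ hc₀]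
      calc ‖lineVal a z‖ * c₀ ≤ ‖lineVal a z‖ * ‖lineVal b z‖ := by gcongr
        _ = z.im * |(vdet v w : ℝ)| := e
        _ ≤ |(vdet v w : ℝ)| * Y := by rw [mul_comm]; gcongr
    obtain ⟨b0, b1⟩ := abs_le_of_norm_lineVal_le hzpos hA
    have hM : 0 ≤ M := (norm_nonneg _).trans hA
    have hq : M / z.im ≤ M / y₀ := by gcongr
    have hq0 : 0 ≤ M / y₀ := by positivity
    have hq1 : M / z.im * ‖z‖ ≤ M / y₀ * R := by gcongr
    have hR : 0 ≤ M / y₀ * R := by positivity
    fin_cases i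
    · show |(a 0 : ℝ)| ≤ B
      linarith
    · show |(a 1 : ℝ)| ≤ B
      linarith
  have hv0 : v' ≠ 0 := mat_mulVec_ne_zero _ fun h0 => h (by simp [h0, vdet])
  have hw0 : w' ≠ 0 := mat_mulVec_ne_zero _ fun h0 => h (by simp [h0, vdet])
  exact fun i => ⟨hbound v' w' hw0 hprod i, hbound w' v' hv0 (by rw [mul_comm, hprod]) i⟩

/-- The value of the triangle sum outside the triangle. -/
def triConst (u v w : Vec) : ℤ :=
  -SignType.sign ((vdet u v * vdet v w * vdet w u : ℤ) : ℝ)

/-- The sum over the three sides of an ideal triangle. -/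
def triSum (u v w : Vec) (z : ℍ) : ℤ := crossD u v z + crossD v w z + crossD w u z

theorem triSum_eq_of_vdet {u v w : Vec} (hu : u ≠ 0) (hv : v ≠ 0) (h : vdet u v = 0) (z : ℍ) :
    triSum u v w z = 0 := by
  obtain ⟨a, b, ha, hb, e⟩ : ∃ a b : ℤ, a ≠ 0 ∧ b ≠ 0 ∧ a • u = b • v := by
    have h' : u 0 * v 1 = u 1 * v 0 := by rw [vdet] at h; linear_combination h
    by_cases hv1 : v 1 = 0
    · have hv0 : v 0 ≠ 0 := fun h0 => hv (by ext i; fin_cases i <;> assumption)
      have hu1 : u 1 = 0 := by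
        rw [hv1, mul_zero] at h'
        exact (mul_eq_zero.mp h'.symm).resolve_right hv0
      have hu0 : u 0 ≠ 0 := fun h0 => hu (by ext i; fin_cases i <;> assumption)
      refine ⟨v 0, u 0, hv0, hu0, ?_⟩
      ext i; fin_cases i
      · simp; ring
      · simp [hu1, hv1]
    · have hu1 : u 1 ≠ 0 := fun h0 => hu (by
        have : u 0 = 0 := by
          rw [h0, zero_mul] at h'
          exact (mul_eq_zero.mp h').resolve_right hv1
        ext i; fin_cases i <;> assumption)
      refine ⟨v 1, u 1, hv1, hu1, ?_⟩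
      ext i; fin_cases i
      · simp; linear_combination h'
      · simp; ring
  have key : crossD w u z = crossD w v z := by
    rw [crossD_swap u w, crossD_swap v w, ← crossD_scale ha u, e, crossD_scale hb]
  rw [triSum, crossD_of_vdet h, key, crossD_swap v w]
  ring

theorem pairRe_mul_nonpos_of_triSum_ne {u v w : Vec} {z : ℍ} (h1 : vdet u v ≠ 0)
    (h2 : vdet v w ≠ 0) (h3 : vdet w u ≠ 0) (h : triSum u v w z ≠ triConst u v w) :
    pairRe u v z * pairRe v w z * pairRe w u z ≤ 0 := by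
  by_contra hpos
  push Not at hpos
  apply h
  set X := pairRe u v z with hX
  set Y := pairRe v w z with hY
  set Z := pairRe w u z with hZ
  set I := (z : ℂ).im * (vdet u v : ℝ) with hI
  set J := (z : ℂ).im * (vdet v w : ℝ) with hJ
  set K := (z : ℂ).im * (vdet w u : ℝ) with hK
  have hxyz : X ≠ 0 ∧ Y ≠ 0 ∧ Z ≠ 0 := by
    refine ⟨fun h0 => ?_, fun h0 => ?_, fun h0 => ?_⟩ <;> simp [h0] at hpos
  obtain ⟨hX0, hY0, hZ0⟩ := hxyz
  have e : ((X : ℂ) + I * Complex.I) * ((Y : ℂ) + J * Complex.I) * ((Z : ℂ) + K * Complex.I) =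
      ((Complex.normSq (lineVal u z) * Complex.normSq (lineVal v z) *
        Complex.normSq (lineVal w z) : ℝ) : ℂ) := by
    rw [hX, hI, ← im_lineVal_mul_conj u v, hY, hJ, ← im_lineVal_mul_conj v w, hZ, hK,
      ← im_lineVal_mul_conj w u]
    simp only [pairRe, Complex.re_add_im]
    push_cast
    rw [← Complex.mul_conj, ← Complex.mul_conj, ← Complex.mul_conj]
    ring
  have heim : I * Y * Z + X * J * Z + X * Y * K - I * J * K = 0 := by
    have := congrArg Complex.im e
    simp at this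
    linear_combination this
  have here : 0 ≤ X * Y * Z - X * J * K - I * Y * K - I * J * Z := by
    have := congrArg Complex.re e
    simp at this
    nlinarith [mul_nonneg (mul_nonneg (Complex.normSq_nonneg (lineVal u z))
      (Complex.normSq_nonneg (lineVal v z))) (Complex.normSq_nonneg (lineVal w z))]
  set a := I / X with ha
  set b := J / Y with hb
  set c := K / Z with hc
  have hsum : a + b + c = a * b * c := by
    rw [ha, hb, hc]; field_simp; linear_combination heim
  have hpair : a * b + b * c + c * a ≤ 1 := by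
    have e' : 1 - (a * b + b * c + c * a) =
        (X * Y * Z - X * J * K - I * Y * K - I * J * Z) / (X * Y * Z) := by
      rw [ha, hb, hc]; field_simp; ring
    have : (0 : ℝ) ≤ 1 - (a * b + b * c + c * a) := by rw [e']; exact div_nonneg here hpos.le
    linarith
  have hy : (0 : ℝ) < (z : ℂ).im := z.im_pos
  have r1 : (vdet u v : ℝ) ≠ 0 := by exact_mod_cast h1
  have r2 : (vdet v w : ℝ) ≠ 0 := by exact_mod_cast h2
  have r3 : (vdet w u : ℝ) ≠ 0 := by exact_mod_cast h3
  have hne : a ≠ 0 ∧ b ≠ 0 ∧ c ≠ 0 := by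
    refine ⟨?_, ?_, ?_⟩ <;> simp [ha, hb, hc, hI, hJ, hK, hX0, hY0, hZ0, r1, r2, r3, z.im_ne_zero]
  have hsign : ∀ {P Δ : ℝ}, P ≠ 0 →
      SignType.sign (P * Δ) = SignType.sign ((z : ℂ).im * Δ / P) := by
    intro P Δ hP
    have e2 : (z : ℂ).im * Δ / P = ((z : ℂ).im / (P * P)) * (P * Δ) := by field_simp
    rw [e2, sign_mul ((z : ℂ).im / (P * P)), sign_pos (div_pos hy (mul_self_pos.mpr hP)), one_mul]
  have hconst : triConst u v w = -(SignType.sign (a * b * c) : ℤ) := by
    rw [triConst]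
    congr 2
    have e3 : a * b * c = ((z : ℂ).im ^ 3 / (X * Y * Z)) *
        ((vdet u v * vdet v w * vdet w u : ℤ) : ℝ) := by
      rw [ha, hb, hc, hI, hJ, hK]; push_cast; field_simp
    rw [e3, sign_mul, sign_pos (div_pos (pow_pos hy 3) hpos), one_mul]
  have htri : triSum u v w z =
      (SignType.sign a : ℤ) + SignType.sign b + SignType.sign c := by
    rw [triSum, crossD, crossD, crossD, ← hX, ← hY, ← hZ, hsign hX0, hsign hY0, hsign hZ0]
  rw [htri, hconst]
  obtain ⟨ha0, hb0, hc0⟩ := hne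
  rcases lt_or_gt_of_ne ha0 with p | p <;> rcases lt_or_gt_of_ne hb0 with q | q <;>
    rcases lt_or_gt_of_ne hc0 with r | r
  · exfalso
    nlinarith [mul_pos_of_neg_of_neg p q, mul_pos_of_neg_of_neg q r, mul_pos_of_neg_of_neg r p]
  all_goals first
    | (simp [sign_mul, sign_pos, sign_neg, p, q, r]; done)
    | (exfalso; nlinarith [mul_pos p q, mul_pos q r, mul_pos r p])

theorem norm_le_of_pairRe {u v w : Vec} {z : ℂ} (hz : 0 < z.im) (hu : u ≠ 0) (hw : w ≠ 0)
    (h : pairRe u v z * pairRe v w z * pairRe w u z ≤ 0) :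
    ‖lineVal v z‖ ≤ 2 * z.im * (|(vdet u v : ℝ)| + |(vdet v w : ℝ)|) / min z.im 1 := by
  set X := pairRe u v z
  set Y := pairRe v w z
  set Z := pairRe w u z
  set I := z.im * (vdet u v : ℝ)
  set J := z.im * (vdet v w : ℝ)
  have hc : 0 < min z.im 1 := lt_min hz one_pos
  have e : X * Y - I * J = Complex.normSq (lineVal v z) * Z := by
    simp only [X, Y, Z, I, J, ← im_lineVal_mul_conj, pairRe]
    simp [Complex.normSq_apply]
    ring
  have hle : X ^ 2 * Y ^ 2 ≤ I * J * (X * Y) := by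
    have h0 : (X * Y - I * J) * (X * Y) ≤ 0 := by
      rw [e, show Complex.normSq (lineVal v z) * Z * (X * Y) =
        Complex.normSq (lineVal v z) * (X * Y * Z) by ring]
      exact mul_nonpos_of_nonneg_of_nonpos (Complex.normSq_nonneg _) h
    nlinarith
  have hor : X ^ 2 ≤ I ^ 2 ∨ Y ^ 2 ≤ J ^ 2 := by
    by_contra hcon
    push Not at hcon
    nlinarith [mul_lt_mul'' hcon.1 hcon.2 (sq_nonneg I) (sq_nonneg J),
      sq_nonneg (X * Y - I * J)]
  have hv' : 0 ≤ ‖lineVal v z‖ := norm_nonneg _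
  have main : ∀ {a : Vec} {P Q : ℝ}, a ≠ 0 → P ^ 2 ≤ Q ^ 2 →
      (‖lineVal v z‖ * ‖lineVal a z‖) ^ 2 = P ^ 2 + Q ^ 2 →
      ‖lineVal v z‖ ≤ 2 * |Q| / min z.im 1 := by
    intro a P Q ha hPQ e2
    have ha' := one_le_norm_lineVal ha z
    rw [abs_of_pos hz] at ha'
    rw [le_div_iff₀ hc]
    have h4 : ‖lineVal v z‖ * ‖lineVal a z‖ ≤ 2 * |Q| := by
      refine le_of_sq_le_sq ?_ (by positivity)
      rw [e2, mul_pow, sq_abs]
      nlinarith [sq_nonneg Q]
    calc ‖lineVal v z‖ * min z.im 1 ≤ ‖lineVal v z‖ * ‖lineVal a z‖ := by gcongr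
      _ ≤ 2 * |Q| := h4
  have hsq : ∀ a b : Vec, (‖lineVal a z‖ * ‖lineVal b z‖) ^ 2 =
      pairRe a b z ^ 2 + (z.im * (vdet a b : ℝ)) ^ 2 := by
    intro a b
    rw [mul_pow, Complex.sq_norm, Complex.sq_norm, ← im_lineVal_mul_conj, pairRe,
      ← Complex.normSq_conj (lineVal b z), ← map_mul, Complex.normSq_apply]
    ring
  rcases hor with hX | hY
  · refine (main hu hX (by rw [mul_comm ‖lineVal v z‖]; exact hsq u v)).trans ?_
    simp only [I, abs_mul, abs_of_pos hz]
    refine div_le_div_of_nonneg_right ?_ hc.le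
    nlinarith [abs_nonneg (vdet v w : ℝ), abs_nonneg (vdet u v : ℝ)]
  · refine (main hw hY (hsq v w)).trans ?_
    simp only [J, abs_mul, abs_of_pos hz]
    refine div_le_div_of_nonneg_right ?_ hc.le
    nlinarith [abs_nonneg (vdet v w : ℝ), abs_nonneg (vdet u v : ℝ)]

/-- An ideal triangle contains finitely many points of an orbit. -/
theorem finite_triSum_ne {u v w : Vec} (hu : u ≠ 0) (hv : v ≠ 0) (hw : w ≠ 0) (z : ℍ) :
    {δ : SL(2, ℤ) | triSum u v w (δ • z) ≠ triConst u v w}.Finite := by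
  by_cases h : vdet u v = 0 ∨ vdet v w = 0 ∨ vdet w u = 0
  · refine Set.Finite.subset Set.finite_empty fun δ hδ => hδ ?_
    have hc : triConst u v w = 0 := by
      rcases h with h | h | h <;> simp [triConst, h]
    rw [hc]
    rcases h with h | h | h
    · exact triSum_eq_of_vdet hu hv h _
    · rw [← triSum_eq_of_vdet (w := u) hv hw h (δ • z)]; simp only [triSum]; ring
    · rw [← triSum_eq_of_vdet (w := v) hw hu h (δ • z)]; simp only [triSum]; ring
  push Not at h
  obtain ⟨h1, h2, h3⟩ := h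
  set S := |(vdet u v : ℝ)| + |(vdet v w : ℝ)| + |(vdet w u : ℝ)|
  set M := 2 * z.im * S / min z.im 1
  set B := M + M / z.im * ‖(z : ℂ)‖ + M / z.im
  refine ((finite_setOf_bounded h1 B).image (·⁻¹)).subset fun δ hδ => ⟨δ⁻¹, ?_, inv_inv δ⟩
  have hd : ∀ a b : Vec, vdet (mat δ⁻¹ *ᵥ a) (mat δ⁻¹ *ᵥ b) = vdet a b := fun a b => by
    rw [vdet_mulVec, det_mat, one_mul]
  have hpair : pairRe (mat δ⁻¹ *ᵥ u) (mat δ⁻¹ *ᵥ v) z *
      pairRe (mat δ⁻¹ *ᵥ v) (mat δ⁻¹ *ᵥ w) z * pairRe (mat δ⁻¹ *ᵥ w) (mat δ⁻¹ *ᵥ u) z ≤ 0 := by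
    refine pairRe_mul_nonpos_of_triSum_ne (by rwa [hd]) (by rwa [hd]) (by rwa [hd]) ?_
    simp only [Set.mem_ofPred_eq, triSum, crossD_smul] at hδ
    simp only [triSum, triConst, hd] at hδ ⊢
    exact hδ
  have nz : ∀ {a : Vec}, a ≠ 0 → mat δ⁻¹ *ᵥ a ≠ 0 := fun ha => mat_mulVec_ne_zero _ ha
  have hvu : ∀ a b c : Vec, a ≠ 0 → c ≠ 0 →
      pairRe (mat δ⁻¹ *ᵥ a) (mat δ⁻¹ *ᵥ b) z * pairRe (mat δ⁻¹ *ᵥ b) (mat δ⁻¹ *ᵥ c) z *
        pairRe (mat δ⁻¹ *ᵥ c) (mat δ⁻¹ *ᵥ a) z ≤ 0 →
      |(vdet a b : ℝ)| + |(vdet b c : ℝ)| ≤ S → ∀ i, |((mat δ⁻¹ *ᵥ b) i : ℝ)| ≤ B := by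
    intro a b c ha hc hp hS i
    have hn := norm_le_of_pairRe (z := (z : ℂ)) z.im_pos (nz ha) (nz hc) hp
    rw [hd, hd] at hn
    have hz : (0 : ℝ) < (z : ℂ).im := z.im_pos
    have hA : ‖lineVal (mat δ⁻¹ *ᵥ b) z‖ ≤ M := hn.trans (by
      show _ ≤ 2 * (z : ℂ).im * S / min (z : ℂ).im 1
      gcongr)
    obtain ⟨b0, b1⟩ := abs_le_of_norm_lineVal_le (z := (z : ℂ)) z.im_pos hA
    have hM : 0 ≤ M := (norm_nonneg _).trans hA
    have : 0 ≤ M / z.im := div_nonneg hM z.im_pos.le
    have : 0 ≤ M / z.im * ‖(z : ℂ)‖ := mul_nonneg this (norm_nonneg _)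
    fin_cases i
    · exact b0.trans (show M + M / z.im * ‖(z : ℂ)‖ ≤ B by simp only [B]; linarith)
    · exact b1.trans (show M / z.im ≤ B by simp only [B]; linarith)
  intro i
  refine ⟨hvu w u v hw hv ?_ (by simp only [S]; linarith [abs_nonneg (vdet v w : ℝ)]) i,
    hvu u v w hu hw hpair (by simp only [S]; linarith [abs_nonneg (vdet w u : ℝ)]) i⟩
  linarith [hpair]

end Fermat.Agent.LevelRaising

end
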