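import Mathlib.Algebra.BigOperators.Finprod
import Fermat.Agent.LevelRaising.Corr
import Fermat.Agent.LevelRaising.CrossingLocal

/-!
# The crossing map

The crossing numbers of paths with translates of a geodesic give a map `psi` from modular
symbols to homomorphisms of `Γ₀(N)`, which exchanges a correspondence with the transfer of its
adjoint (`psi_push`).
-/

set_option autoImplicit false

noncomputable section

open Matrix CongruenceSubgroup UpperHalfPlane
open scoped MatrixGroups

namespace Fermat.Agent.LevelRaising

variable (N : ℕ)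

/-- The signed number of translates of the geodesic `v → w` separating `z₁` from `z₂`. -/
def crossCount (v w : Vec) (z₁ z₂ : ℍ) : ℤ :=
  ∑ᶠ η : Gamma0 N, (crossD v w (η • z₂) - crossD v w (η • z₁))

variable {N}

theorem smul_sub_finite (v w : Vec) (z₁ z₂ : ℍ) :
    (Function.support fun η : Gamma0 N => crossD v w (η • z₂) - crossD v w (η • z₁)).Finite :=
  ((finite_crossD_ne v w z₂ z₁).preimage Subtype.val_injective.injOn).subset fun η hη => by
    rw [Function.mem_support, sub_ne_zero] at hη
    exact hη

theorem crossCount_self (v w : Vec) (z : ℍ) : crossCount N v w z z = 0 := by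
  simp [crossCount]

/-- Crossing counts add along consecutive paths. -/
theorem crossCount_add (v w : Vec) (z₁ z₂ z₃ : ℍ) :
    crossCount N v w z₁ z₂ + crossCount N v w z₂ z₃ = crossCount N v w z₁ z₃ := by
  rw [crossCount, crossCount, ← finsum_add_distrib (smul_sub_finite v w z₁ z₂)
    (smul_sub_finite v w z₂ z₃), crossCount]
  exact finsum_congr fun η => by ring

theorem crossCount_smul (v w : Vec) (γ : Gamma0 N) (z₁ z₂ : ℍ) :
    crossCount N v w (γ • z₁) (γ • z₂) = crossCount N v w z₁ z₂ := by
  rw [crossCount, crossCount, ← finsum_comp_equiv (Equiv.mulRight γ)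
    (f := fun η : Gamma0 N => crossD v w (η • z₂) - crossD v w (η • z₁))]
  exact finsum_congr fun η => by simp [mul_smul]

theorem crossCount_base (v w : Vec) (γ : Gamma0 N) (z z' : ℍ) :
    crossCount N v w z (γ • z) = crossCount N v w z' (γ • z') := by
  rw [← crossCount_add v w z z' (γ • z), ← crossCount_add v w z' (γ • z') (γ • z),
    crossCount_smul v w γ z' z]
  linarith [crossCount_add (N := N) v w z z' z, crossCount_self (N := N) v w z]

variable (N)

/-- The homomorphism `γ ↦` crossings of the path `z → γ z` with the translates of `v → w`. -/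
def crossHom (v w : Vec) : Additive (Gamma0 N) →+ ℤ :=
  AddMonoidHom.mk'
    (fun γ => crossCount N v w UpperHalfPlane.I (Additive.toMul γ • UpperHalfPlane.I)) fun γ δ => by
    rw [toMul_add, mul_smul, ← crossCount_add v w _ (Additive.toMul γ • UpperHalfPlane.I),
      crossCount_smul]

variable {N}

/-- The crossing homomorphism can be computed from any base point. -/
theorem crossHom_apply (v w : Vec) (γ : Gamma0 N) (z : ℍ) :
    crossHom N v w (Additive.ofMul γ) = crossCount N v w z (γ • z) :=
  crossCount_base v w γ _ z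

theorem finite_triSum_gamma {u v w : Vec} (hu : u ≠ 0) (hv : v ≠ 0) (hw : w ≠ 0) (z : ℍ) :
    (Function.support fun η : Gamma0 N =>
      triSum u v w (η • z) - triConst u v w).Finite :=
  ((finite_triSum_ne hu hv hw z).preimage Subtype.val_injective.injOn).subset fun η hη => by
    rw [Function.mem_support, sub_ne_zero] at hη
    exact hη

theorem isSymbol_crossHom : IsSymbol N (crossHom N) where
  zero_left w := by
    refine AddMonoidHom.ext fun x => ?_
    simp [crossHom, crossCount, crossD_zero_left]
  zero_right v := by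
    refine AddMonoidHom.ext fun x => ?_
    simp [crossHom, crossCount, crossD_zero_right]
  triangle u v w hu hv hw := by
    refine AddMonoidHom.ext fun x => ?_
    obtain ⟨γ, rfl⟩ : ∃ γ, Additive.ofMul γ = x := ⟨Additive.toMul x, rfl⟩
    set z := UpperHalfPlane.I
    have h1 : crossHom N u v (Additive.ofMul γ) + crossHom N v w (Additive.ofMul γ) +
        crossHom N w u (Additive.ofMul γ) = 0 := by
      show crossCount N u v z (γ • z) + crossCount N v w z (γ • z) + crossCount N w u z (γ • z) = 0
      rw [crossCount, crossCount, crossCount, ← finsum_add_distrib (smul_sub_finite u v z (γ • z))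
        (smul_sub_finite v w z (γ • z)), ← finsum_add_distrib _ (smul_sub_finite w u z (γ • z))]
      · calc (∑ᶠ η : Gamma0 N, (crossD u v (η • γ • z) - crossD u v (η • z) +
              (crossD v w (η • γ • z) - crossD v w (η • z)) +
              (crossD w u (η • γ • z) - crossD w u (η • z))))
            = ∑ᶠ η : Gamma0 N, ((triSum u v w (η • γ • z) - triConst u v w) -
                (triSum u v w (η • z) - triConst u v w)) :=
              finsum_congr fun η => by simp only [triSum]; ring
          _ = (∑ᶠ η : Gamma0 N, (triSum u v w (η • γ • z) - triConst u v w)) -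
                ∑ᶠ η : Gamma0 N, (triSum u v w (η • z) - triConst u v w) :=
              finsum_sub_distrib (finite_triSum_gamma hu hv hw _)
                (finite_triSum_gamma hu hv hw _)
          _ = 0 := by
              rw [sub_eq_zero, ← finsum_comp_equiv (Equiv.mulRight γ)
                (f := fun η : Gamma0 N => triSum u v w (η • z) - triConst u v w)]
              exact finsum_congr fun η => by simp [mul_smul]
      · exact ((smul_sub_finite u v z (γ • z)).union (smul_sub_finite v w z (γ • z))).subset
          (Function.support_add _ _)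
    have h2 : crossHom N u w (Additive.ofMul γ) = -crossHom N w u (Additive.ofMul γ) := by
      show crossCount N u w z (γ • z) = -crossCount N w u z (γ • z)
      rw [crossCount, crossCount, ← finsum_neg_distrib]
      exact finsum_congr fun η => by rw [crossD_swap w u, crossD_swap w u]; ring
    rw [AddMonoidHom.add_apply, h2]
    linarith [h1]
  scale a ha v w := by
    refine AddMonoidHom.ext fun x => ?_
    simp [crossHom, crossCount, crossD_scale ha, -zsmul_eq_mul]
  invariant δ hδ v w := by
    refine AddMonoidHom.ext fun x => ?_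
    show crossCount N (mat δ *ᵥ v) (mat δ *ᵥ w) _ _ = crossCount N v w _ _
    have hmap : ∀ z : ℍ, crossD (mat δ *ᵥ v) (mat δ *ᵥ w) z = crossD v w (δ⁻¹ • z) := fun z => by
      rw [crossD_mulVec (by rw [det_mat]; exact one_pos), ← mat_inv, act_mat]
    rw [crossCount, crossCount, ← finsum_comp_equiv (Equiv.mulLeft (⟨δ, hδ⟩ : Gamma0 N))]
    refine finsum_congr fun η => ?_
    simp [hmap, Subgroup.smul_def, mul_smul]

variable (N)

/-- The crossing-number map. -/
def psi : ModSym N →+ (Additive (Gamma0 N) →+ ℤ) := lift _ isSymbol_crossHom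

/-- `psi` of a symbol is its crossing homomorphism. -/
theorem psi_symb (v w : Vec) : psi N (symb N v w) = crossHom N v w := lift_symb _ _ _ _

variable {N}

/-- If `g` and `h` are representatives of mutually adjoint correspondences, the crossing map
exchanges `push g` and the transfer of `h`. -/
theorem psi_push {M : ℕ} {ι κ : Type*} [Fintype ι] [Fintype κ] {g : ι → Mat} {h : κ → Mat}
    (hg : IsCorr N M g) (hh : IsCorr M N h)
    (h1 : ∀ i, ∀ δ ∈ Gamma0 M, ∃ j, ∃ η ∈ Gamma0 N, (g i).adjugate * mat δ = mat η * h j)
    (h2 : ∀ j, ∀ η ∈ Gamma0 N, ∃ i, ∃ δ ∈ Gamma0 M, (g i).adjugate * mat δ = mat η * h j)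
    (x : ModSym N) : psi M (hg.push x) = hh.transfer (psi N x) := by
  suffices (psi M).comp hg.push = (hh.transfer).comp (psi N) from DFunLike.congr_fun this x
  refine hom_ext fun v w hv hw => ?_
  rw [AddMonoidHom.comp_apply, AddMonoidHom.comp_apply, hg.push_symb, map_sum, psi_symb]
  refine AddMonoidHom.ext fun x => ?_
  obtain ⟨γ, rfl⟩ : ∃ γ, Additive.ofMul γ = x := ⟨Additive.toMul x, rfl⟩
  rw [AddMonoidHom.finsetSum_apply, hh.transfer_apply]
  set z := UpperHalfPlane.I
  choose j1 η1 hη1 e1 using fun p : ι × Gamma0 M => h1 p.1 p.2.1 p.2.2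
  choose i2 δ2 hδ2 e2 using fun p : κ × Gamma0 N => h2 p.1 p.2.1 p.2.2
  set E : ι × Gamma0 M → κ × Gamma0 N := fun p => (j1 p, ⟨η1 p, hη1 p⟩)
  have hE : Function.Bijective E := by
    refine ⟨fun p p' e => ?_, fun p => ⟨(i2 p, ⟨δ2 p, hδ2 p⟩), ?_⟩⟩
    · simp only [E, Prod.mk.injEq, Subtype.mk.injEq] at e
      have a := e1 p
      rw [e.1, e.2, ← e1 p'] at a
      have a' := congrArg Matrix.adjugate a
      rw [adjugate_mul_distrib, adjugate_mul_distrib, adjugate_adjugate', adjugate_adjugate',
        ← mat_inv, ← mat_inv] at a'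
      have hij : p.1 = p'.1 := by
        refine hg.inj _ _ ((p.2 : SL(2, ℤ)) * (p'.2 : SL(2, ℤ))⁻¹)
          (mul_mem p.2.2 (inv_mem p'.2.2)) ?_
        have a'' := congrArg (mat (p.2 : SL(2, ℤ)) * ·) a'
        simp only [← Matrix.mul_assoc] at a''
        rw [← mat_mul, mul_inv_cancel, mat_one, Matrix.one_mul] at a''
        rw [mat_mul]; exact a''
      refine Prod.ext hij ?_
      rw [hij] at a
      exact Subtype.ext (mat_inj.mp (mul_left_cancel_of_det
        (by rw [det_adjugate']; exact hg.det_ne_zero _) a))
    · have a := e1 (i2 p, ⟨δ2 p, hδ2 p⟩)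
      rw [e2 p] at a
      have hj : j1 (i2 p, ⟨δ2 p, hδ2 p⟩) = p.1 := by
        refine hh.inj _ _ ((η1 (i2 p, ⟨δ2 p, hδ2 p⟩))⁻¹ * p.2) (mul_mem (inv_mem (hη1 _)) p.2.2) ?_
        have a' := congrArg (mat (η1 (i2 p, ⟨δ2 p, hδ2 p⟩))⁻¹ * ·) a
        simp only [← Matrix.mul_assoc, mat_inv_mul, Matrix.one_mul] at a'
        rw [mat_mul]; exact a'.symm
      refine Prod.ext hj (Subtype.ext (mat_inj.mp ?_))
      rw [hj] at a
      exact (mul_right_cancel_of_det (hh.det_ne_zero _) a).symm
  set z' := γ • z with hz'
  set F : κ × Gamma0 N → ℤ := fun p =>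
    crossD v w (p.2 • act (h p.1) z') - crossD v w (p.2 • act (h p.1) z)
  have hfinF : (Function.support F).Finite := by
    refine Set.Finite.subset (Set.Finite.biUnion (Set.finite_univ (α := κ)) fun j _ =>
      (smul_sub_finite v w (act (h j) z) (act (h j) z')).image (Prod.mk j)) fun p hp => ?_
    exact Set.mem_biUnion (Set.mem_univ p.1) ⟨p.2, hp, rfl⟩
  have lhs : ∀ i, psi M (symb M (g i *ᵥ v) (g i *ᵥ w)) (Additive.ofMul γ) =
      ∑ᶠ δ : Gamma0 M, F (E (i, δ)) := by
    intro i
    rw [psi_symb, crossHom_apply _ _ γ z]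
    refine finsum_congr fun δ => ?_
    have key : ∀ u : ℍ, crossD (g i *ᵥ v) (g i *ᵥ w) (δ • u) =
        crossD v w ((E (i, δ)).2 • act (h (E (i, δ)).1) u) := fun u => by
      rw [crossD_mulVec (hg.det_pos i), Subgroup.smul_def δ u,
        ← act_mul_mat (by rw [det_adjugate']; exact hg.det_pos i), e1 (i, δ),
        act_mat_mul (hh.det_pos _)]
      rfl
    simp only [key, F, hz']
  rw [Finset.sum_congr rfl fun i _ => lhs i, ← finsum_eq_sum_of_fintype,
    ← finsum_curry (fun p => F (E p)) (hfinF.preimage hE.1.injOn),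
    finsum_comp E hE, finsum_curry F hfinF, finsum_eq_sum_of_fintype]
  have step : ∀ j, (∑ᶠ η : Gamma0 N, F (j, η)) =
      crossHom N v w (Additive.ofMul (hh.δ γ j)) +
        (crossCount N v w (act (h j) z) z - crossCount N v w (act (h (hh.σ γ j)) z) z) := by
    intro j
    show crossCount N v w (act (h j) z) (act (h j) z') = _
    rw [hz', Subgroup.smul_def γ z, ← act_mul_mat (hh.det_pos j), hh.spec γ j,
      act_mat_mul (hh.det_pos _), ← Subgroup.smul_def,
      crossHom_apply _ _ _ (act (h (hh.σ γ j)) z)]
    linarith [crossCount_add (N := N) v w (act (h (hh.σ γ j)) z) z (act (h j) z),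
      crossCount_add (N := N) v w (act (h j) z) (act (h (hh.σ γ j)) z)
        (hh.δ γ j • act (h (hh.σ γ j)) z),
      crossCount_add (N := N) v w (act (h j) z) (act (h (hh.σ γ j)) z) z]
  rw [Finset.sum_congr rfl fun j _ => step j, Finset.sum_add_distrib, Finset.sum_sub_distrib,
    (hh.σ_bijective γ).sum_comp fun j => crossCount N v w (act (h j) z) z, sub_self, add_zero]

end Fermat.Agent.LevelRaising

end
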