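import Mathlib.Algebra.Field.ZMod
import Mathlib.Data.Nat.Prime.Int
import Mathlib.Data.Fintype.Option
import Mathlib.Data.Fintype.Sum
import Fermat.Agent.LevelRaising.Corr
import Fermat.Agent.LevelRaising.Crossing

/-!
# Hecke correspondences at one prime

The correspondences `T_ℓ`, `U_q`, the degeneracy maps between levels `N` and `N q` and the
Atkin–Lehner involution at `q` on modular symbols, their relations, and their compatibility with
the crossing map `psi`.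
-/

set_option autoImplicit false

open Matrix CongruenceSubgroup
open scoped MatrixGroups

namespace Fermat.Agent.LevelRaising

section T

/-- Representatives for `T_ℓ`. -/
def tMat (ℓ : ℕ) : Fin ℓ ⊕ Unit → Mat
  | .inl b => !![1, (b : ℤ); 0, (ℓ : ℤ)]
  | .inr _ => !![(ℓ : ℤ), 0; 0, 1]

/-- The matrices of `T_ℓ` have determinant `ℓ`. -/
theorem det_tMat (ℓ : ℕ) (i : Fin ℓ ⊕ Unit) : (tMat ℓ i).det = ℓ := by
  cases i <;> simp [tMat, det_fin_two_of]

theorem mat2_ext {a b c d a' b' c' d' : ℤ} (h : !![a, b; c, d] = !![a', b'; c', d']) :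
    a = a' ∧ b = b' ∧ c = c' ∧ d = d' :=
  ⟨by simpa using congrFun (congrFun h 0) 0, by simpa using congrFun (congrFun h 0) 1,
    by simpa using congrFun (congrFun h 1) 0, by simpa using congrFun (congrFun h 1) 1⟩

theorem tMat_index_eq {ℓ : ℕ} (hℓ : ℓ.Prime) {i j : Fin ℓ ⊕ Unit} {k : ℤ} (hk : ¬ (ℓ : ℤ) ∣ k)
    {X : Mat} (h : k • tMat ℓ i = X * tMat ℓ j) : i = j := by
  rw [eta_fin_two X] at h
  have hℓ' : Prime (ℓ : ℤ) := Nat.prime_iff_prime_int.mp hℓ
  rcases i with b | u <;> rcases j with b' | u' <;>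
    simp only [tMat, mul_fin_two, smul_of, smul_cons, smul_eq_mul, smul_empty] at h <;>
    obtain ⟨h00, h01, h10, h11⟩ := mat2_ext h
  · have hd : (ℓ : ℤ) ∣ k * ((b : ℤ) - (b' : ℤ)) :=
      ⟨X 0 1, by linear_combination h01 - (b' : ℤ) * h00⟩
    have hb := (hℓ'.dvd_mul.mp hd).resolve_left hk
    have := Int.eq_zero_of_abs_lt_dvd hb (by
      rw [abs_lt]; constructor <;> have := b.isLt <;> have := b'.isLt <;> omega)
    exact congrArg Sum.inl (Fin.ext (by omega))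
  · exact absurd ⟨X 0 0, by linear_combination h00⟩ hk
  · refine absurd ?_ hk
    have hX : X 1 0 = 0 := by linear_combination -h10
    rw [hX] at h11
    exact ⟨X 1 1, by linear_combination h11⟩
  · rfl

/-- A matrix of determinant divisible by `ℓ` factors through one of the matrices of `T_ℓ`. -/
theorem exists_tMat_factor {N ℓ : ℕ} (hℓ : ℓ.Prime) (hℓN : ¬ ℓ ∣ N) {m : Mat}
    (hdet : (ℓ : ℤ) ∣ m.det) (hc : (N : ℤ) ∣ m 1 0) :
    ∃ i, ∃ m' : Mat, (N : ℤ) ∣ m' 1 0 ∧ m = m' * tMat ℓ i := by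
  have hℓ' : Prime (ℓ : ℤ) := Nat.prime_iff_prime_int.mp hℓ
  have : Fact ℓ.Prime := ⟨hℓ⟩
  have dvd_iff : ∀ x : ℤ, (ℓ : ℤ) ∣ x ↔ (x : ZMod ℓ) = 0 := fun x =>
    (ZMod.intCast_zmod_eq_zero_iff_dvd _ _).symm
  by_cases hcol : (ℓ : ℤ) ∣ m 0 0 ∧ (ℓ : ℤ) ∣ m 1 0
  · obtain ⟨⟨a, ha⟩, ⟨c, hc'⟩⟩ := hcol
    refine ⟨.inr (), !![a, m 0 1; c, m 1 1], ?_, ?_⟩
    · have hcop : IsCoprime (N : ℤ) (ℓ : ℤ) :=
        Nat.Coprime.isCoprime ((Nat.Prime.coprime_iff_not_dvd hℓ).mpr hℓN).symm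
      rw [hc'] at hc
      simpa using hcop.dvd_of_dvd_mul_left hc
    · rw [tMat, mul_fin_two]
      conv_lhs => rw [eta_fin_two m, ha, hc']
      simp [mul_comm]
  · obtain ⟨b, hb0, hb1⟩ : ∃ b : ZMod ℓ, (m 0 1 : ZMod ℓ) = b * (m 0 0 : ZMod ℓ) ∧
        (m 1 1 : ZMod ℓ) = b * (m 1 0 : ZMod ℓ) := by
      have hd := (dvd_iff _).mp hdet
      rw [det_fin_two] at hd
      push_cast at hd
      rw [dvd_iff, dvd_iff, not_and_or] at hcol
      rcases hcol with h | h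
      · refine ⟨(m 0 1 : ZMod ℓ) / m 0 0, by field_simp, ?_⟩
        field_simp
        linear_combination hd
      · refine ⟨(m 1 1 : ZMod ℓ) / m 1 0, ?_, by field_simp⟩
        field_simp
        linear_combination -hd
    obtain ⟨bv, hbv, rfl⟩ : ∃ bv : ℕ, bv < ℓ ∧ (bv : ZMod ℓ) = b :=
      ⟨b.val, ZMod.val_lt b, ZMod.natCast_zmod_val b⟩
    obtain ⟨r, hr⟩ : (ℓ : ℤ) ∣ m 0 1 - (bv : ℤ) * m 0 0 := by
      rw [dvd_iff]; push_cast; simp [hb0]
    obtain ⟨s, hs⟩ : (ℓ : ℤ) ∣ m 1 1 - (bv : ℤ) * m 1 0 := by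
      rw [dvd_iff]; push_cast; simp [hb1]
    refine ⟨.inl ⟨bv, hbv⟩, !![m 0 0, r; m 1 0, s], by simpa using hc, ?_⟩
    rw [tMat, mul_fin_two]
    ext i j
    fin_cases i <;> fin_cases j <;> simp
    · linear_combination hr
    · linear_combination hs

/-- An integral matrix of determinant one with `N ∣ c` lies in `Γ₀(N)`. -/
theorem exists_Gamma0_of_det_one {N : ℕ} {m : Mat} (hdet : m.det = 1) (hc : (N : ℤ) ∣ m 1 0) :
    ∃ δ ∈ Gamma0 N, mat δ = m := ⟨⟨m, hdet⟩, mem_Gamma0.mpr hc, rfl⟩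

theorem dvd_mul_mat_10 {N : ℕ} {a b : Mat} (ha : (N : ℤ) ∣ a 1 0) (hb : (N : ℤ) ∣ b 1 0) :
    (N : ℤ) ∣ (a * b) 1 0 := by
  rw [Matrix.mul_apply, Fin.sum_univ_two]
  exact dvd_add (dvd_mul_of_dvd_left ha _) (dvd_mul_of_dvd_right hb _)

/-- The matrices of `T_ℓ` are upper triangular. -/
theorem tMat_10 (ℓ : ℕ) (i : Fin ℓ ⊕ Unit) : tMat ℓ i 1 0 = 0 := by cases i <;> simp [tMat]

theorem dvd_mat_10 {N : ℕ} {γ : SL(2, ℤ)} (hγ : γ ∈ Gamma0 N) : (N : ℤ) ∣ mat γ 1 0 :=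
  mem_Gamma0.mp hγ

/-- A matrix of determinant `ℓ` in the `T_ℓ` double coset factors through a representative. -/
theorem exists_tMat_eq {N ℓ : ℕ} (hℓ : ℓ.Prime) (hℓN : ¬ ℓ ∣ N) {m : Mat} (hdet : m.det = ℓ)
    (hc : (N : ℤ) ∣ m 1 0) : ∃ i, ∃ δ ∈ Gamma0 N, m = mat δ * tMat ℓ i := by
  obtain ⟨i, m', hm', rfl⟩ := exists_tMat_factor hℓ hℓN (hdet ▸ dvd_rfl) hc
  have h1 : m'.det = 1 := by
    rw [det_mul, det_tMat] at hdet
    exact (mul_eq_right₀ (by exact_mod_cast hℓ.ne_zero)).mp hdet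
  obtain ⟨δ, hδ, e⟩ := exists_Gamma0_of_det_one h1 hm'
  exact ⟨i, δ, hδ, by rw [e]⟩

theorem one_not_dvd {ℓ : ℕ} (hℓ : ℓ.Prime) : ¬ (ℓ : ℤ) ∣ 1 := by
  exact_mod_cast hℓ.not_dvd_one

/-- The matrices of `T_ℓ` form a correspondence. -/
theorem isCorr_T {N ℓ : ℕ} (hℓ : ℓ.Prime) (hℓN : ¬ ℓ ∣ N) : IsCorr N N (tMat ℓ) where
  det_pos i := by rw [det_tMat]; exact_mod_cast hℓ.pos
  perm γ hγ i := exists_tMat_eq hℓ hℓN (by rw [det_mul, det_tMat, det_mat, mul_one])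
    (dvd_mul_mat_10 (by rw [tMat_10]; exact dvd_zero _) (dvd_mat_10 hγ))
  inj i j δ _ h := tMat_index_eq hℓ (one_not_dvd hℓ) (X := mat δ) (by rw [one_smul]; exact h)

/-- `T_ℓ` on modular symbols. -/
noncomputable def symT (N : ℕ) {ℓ : ℕ} (hℓ : ℓ.Prime) (hℓN : ¬ ℓ ∣ N) : ModSym N →+ ModSym N :=
  (isCorr_T hℓ hℓN).push

/-- The crossing map turns `T_ℓ` into its transfer. -/
theorem psi_symT {N ℓ : ℕ} (hℓ : ℓ.Prime) (hℓN : ¬ ℓ ∣ N) (x : ModSym N) :
    psi N (symT N hℓ hℓN x) = (isCorr_T hℓ hℓN).transfer (psi N x) := by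
  refine psi_push _ _ (fun i δ hδ => ?_) (fun j η hη => ?_) x
  · refine exists_tMat_eq hℓ hℓN ?_ (dvd_mul_mat_10 ?_ (dvd_mat_10 hδ))
    · rw [det_mul, det_adjugate', det_tMat, det_mat, mul_one]
    · simp [adjugate_fin_two, tMat_10]
  · obtain ⟨i, δ, hδ, e⟩ := exists_tMat_eq (N := N) hℓ hℓN (m := (mat η * tMat ℓ j).adjugate)
      (by rw [det_adjugate', det_mul, det_mat, det_tMat, one_mul])
      (by
        rw [adjugate_fin_two]
        simpa using dvd_mul_mat_10 (dvd_mat_10 hη) (b := tMat ℓ j)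
          (by rw [tMat_10]; exact dvd_zero _))
    refine ⟨i, δ⁻¹, inv_mem hδ, ?_⟩
    have := congrArg Matrix.adjugate e
    rw [adjugate_adjugate', adjugate_mul_distrib, ← mat_inv] at this
    exact this.symm

/-- `T_ℓ` and `T_ℓ'` commute. -/
theorem symT_comm {N ℓ ℓ' : ℕ} (hℓ : ℓ.Prime) (hℓN : ¬ ℓ ∣ N) (hℓ' : ℓ'.Prime)
    (hℓ'N : ¬ ℓ' ∣ N) (x : ModSym N) :
    symT N hℓ hℓN (symT N hℓ' hℓ'N x) = symT N hℓ' hℓ'N (symT N hℓ hℓN x) := by
  rcases eq_or_ne ℓ ℓ' with rfl | hne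
  · rfl
  suffices (symT N hℓ hℓN).comp (symT N hℓ' hℓ'N) = (symT N hℓ' hℓ'N).comp (symT N hℓ hℓN) from
    DFunLike.congr_fun this x
  refine hom_ext fun v w _ _ => ?_
  simp only [AddMonoidHom.comp_apply, symT, IsCorr.push_push_symb]
  have hex : ∀ p : (Fin ℓ ⊕ Unit) × (Fin ℓ' ⊕ Unit), ∃ p' : (Fin ℓ' ⊕ Unit) × (Fin ℓ ⊕ Unit),
      ∃ δ ∈ Gamma0 N, tMat ℓ p.1 * tMat ℓ' p.2 = mat δ * (tMat ℓ' p'.1 * tMat ℓ p'.2) := by
    intro p
    obtain ⟨i, m', hm', e⟩ := exists_tMat_factor (N := N) hℓ hℓN (m := tMat ℓ p.1 * tMat ℓ' p.2)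
      (by rw [det_mul, det_tMat]; exact dvd_mul_right _ _)
      (dvd_mul_mat_10 (by rw [tMat_10]; exact dvd_zero _) (by rw [tMat_10]; exact dvd_zero _))
    have hm : m'.det = ℓ' := by
      have h2 := congrArg Matrix.det e
      rw [det_mul, det_mul, det_tMat, det_tMat, det_tMat, mul_comm] at h2
      exact (mul_right_cancel₀ (by exact_mod_cast hℓ.ne_zero) h2).symm
    obtain ⟨j, δ, hδ, rfl⟩ := exists_tMat_eq hℓ' hℓ'N hm hm'
    exact ⟨(j, i), δ, hδ, by rw [e, Matrix.mul_assoc]⟩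
  choose e δ hδ he using hex
  have hinj : Function.Injective e := by
    intro p p' h
    have h1 := he p
    have h2 := he p'
    rw [h] at h1
    have h3 : tMat ℓ p.1 * tMat ℓ' p.2 =
        mat (δ p * (δ p')⁻¹) * (tMat ℓ p'.1 * tMat ℓ' p'.2) := by
      rw [h1, h2, ← Matrix.mul_assoc (mat (δ p * (δ p')⁻¹)), ← mat_mul, inv_mul_cancel_right]
    have hndvd : ¬ (ℓ' : ℤ) ∣ (ℓ : ℤ) := by
      exact_mod_cast fun hd => hne ((Nat.prime_dvd_prime_iff_eq hℓ' hℓ).mp hd).symm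
    have h4 : (ℓ : ℤ) • tMat ℓ' p.2 =
        ((tMat ℓ p.1).adjugate * mat (δ p * (δ p')⁻¹) * tMat ℓ p'.1) * tMat ℓ' p'.2 := by
      rw [← det_tMat ℓ p.1, Matrix.mul_assoc, Matrix.mul_assoc, ← h3, ← Matrix.mul_assoc,
        adjugate_mul, Matrix.smul_mul, Matrix.one_mul]
    have hp2 : p.2 = p'.2 := tMat_index_eq hℓ' hndvd h4
    refine Prod.ext ((isCorr_T hℓ hℓN).inj _ _ (δ p * (δ p')⁻¹)
      (mul_mem (hδ p) (inv_mem (hδ p'))) ?_) hp2
    rw [hp2, ← Matrix.mul_assoc] at h3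
    exact mul_right_cancel_of_det (by rw [det_tMat]; exact_mod_cast hℓ'.ne_zero) h3
  have hbij : Function.Bijective e :=
    (Fintype.bijective_iff_injective_and_card e).mpr
      ⟨hinj, by rw [Fintype.card_prod, Fintype.card_prod, Nat.mul_comm]⟩
  refine sum_symb_congr (Equiv.ofBijective e hbij) (fun p => ?_) v w
  refine ⟨(δ p)⁻¹, inv_mem (hδ p), 1, 1, one_ne_zero, one_ne_zero, ?_⟩
  rw [one_smul, one_smul, Equiv.ofBijective_apply, he p, ← Matrix.mul_assoc, ← Matrix.mul_assoc,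
    mat_inv_mul, Matrix.one_mul]

end T

section U

/-- Representatives for `U_q`. -/
def uMat (q : ℕ) (b : Fin q) : Mat := !![1, (b : ℤ); 0, (q : ℤ)]

/-- The matrices of `U_q` are the upper ones of `T_q`. -/
theorem uMat_eq (q : ℕ) (b : Fin q) : uMat q b = tMat q (.inl b) := rfl

/-- The matrices of `U_q` form a correspondence. -/
theorem isCorr_U {M q : ℕ} (hq : q.Prime) (hqM : q ∣ M) : IsCorr M M (uMat q) where
  det_pos b := by rw [uMat_eq, det_tMat]; exact_mod_cast hq.pos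
  inj b b' δ _ h :=
    Sum.inl_injective (tMat_index_eq hq (one_not_dvd hq) (X := mat δ) (by rw [one_smul]; exact h))
  perm γ hγ b := by
    have : Fact q.Prime := ⟨hq⟩
    set m := uMat q b * mat γ with hm
    have h00 : m 0 0 = γ 0 0 + (b : ℤ) * γ 1 0 := by
      rw [hm, Matrix.mul_apply, Fin.sum_univ_two]; simp [uMat]
    have h10 : m 1 0 = (q : ℤ) * γ 1 0 := by
      rw [hm, Matrix.mul_apply, Fin.sum_univ_two]; simp [uMat]
    have hdet : m.det = q := by rw [hm, det_mul, uMat_eq, det_tMat, det_mat, mul_one]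
    have hc : (M : ℤ) ∣ m 1 0 := h10 ▸ dvd_mul_of_dvd_right (dvd_mat_10 hγ) _
    have hcq : ((γ 1 0 : ℤ) : ZMod q) = 0 :=
      (ZMod.intCast_zmod_eq_zero_iff_dvd _ _).mpr
        ((Int.natCast_dvd_natCast.mpr hqM).trans (mem_Gamma0.mp hγ))
    have ha : (m 0 0 : ZMod q) ≠ 0 := by
      rw [h00]
      push_cast
      rw [hcq, mul_zero, add_zero]
      intro h0
      have hd := congrArg (Int.cast : ℤ → ZMod q) γ.det_coe
      rw [det_fin_two] at hd
      push_cast at hd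
      simp [h0, hcq] at hd
    obtain ⟨bv, hbv, hb'⟩ : ∃ bv : ℕ, bv < q ∧ (bv : ZMod q) = (m 0 1 : ZMod q) / m 0 0 :=
      ⟨_, ZMod.val_lt _, ZMod.natCast_zmod_val _⟩
    obtain ⟨r, hr⟩ : (q : ℤ) ∣ m 0 1 - (bv : ℤ) * m 0 0 := by
      rw [← ZMod.intCast_zmod_eq_zero_iff_dvd]
      push_cast
      simp [hb', ha]
    set s : ℤ := γ 1 1 - (bv : ℤ) * γ 1 0
    have hmeq : m = !![m 0 0, r; m 1 0, s] * uMat q ⟨bv, hbv⟩ := by
      rw [uMat, mul_fin_two]
      ext i j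
      fin_cases i <;> fin_cases j <;> simp
      · linear_combination hr
      · rw [h10]
        have : m 1 1 = (q : ℤ) * γ 1 1 := by
          rw [hm, Matrix.mul_apply, Fin.sum_univ_two]; simp [uMat]
        simp only [s, this]
        ring
    have h1 : (!![m 0 0, r; m 1 0, s] : Mat).det = 1 := by
      rw [hmeq, det_mul, uMat_eq, det_tMat] at hdet
      exact (mul_eq_right₀ (by exact_mod_cast hq.ne_zero)).mp hdet
    obtain ⟨δ, hδ, e⟩ := exists_Gamma0_of_det_one (N := M) h1 (by simpa using hc)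
    exact ⟨_, δ, hδ, by rw [e, ← hmeq]⟩

/-- `U_q` on modular symbols. -/
noncomputable def symU (M : ℕ) {q : ℕ} (hq : q.Prime) (hqM : q ∣ M) : ModSym M →+ ModSym M :=
  (isCorr_U hq hqM).push

end U

section Degeneracy

variable (N q : ℕ)

/-- The Atkin–Lehner matrix at `q` of level `N q`. -/
def wMat : Mat :=
  !![(q : ℤ) * Int.gcdA q N, -Int.gcdB q N; (N : ℤ) * q, (q : ℤ)]

/-- Conjugation by `wMat`. -/
def conjW (g : Mat) : Mat :=
  let x := Int.gcdA q N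
  let y := -Int.gcdB q N
  let c' := g 1 0 / ((N : ℤ) * q)
  !![(q : ℤ) * x * g 0 0 + y * g 1 0 - (N : ℤ) * ((q : ℤ) * x * g 0 1 + y * g 1 1),
    -(x * y * g 0 0) - y ^ 2 * (N : ℤ) * c' + (q : ℤ) * x ^ 2 * g 0 1 + x * y * g 1 1;
    (N : ℤ) * q * g 0 0 + (q : ℤ) * g 1 0 - (N : ℤ) * ((N : ℤ) * q * g 0 1 + (q : ℤ) * g 1 1),
    -(y * ((N : ℤ) * g 0 0 + g 1 0)) + x * ((N : ℤ) * q * g 0 1 + (q : ℤ) * g 1 1)]

variable {N q}

/-- The Bézout identity for `q` and `N`. -/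
theorem bezout (hq : q.Prime) (hqN : ¬ q ∣ N) :
    (q : ℤ) * Int.gcdA q N + (N : ℤ) * Int.gcdB q N = 1 := by
  rw [← Int.gcd_eq_gcd_ab, Int.gcd_natCast_natCast, (Nat.Prime.coprime_iff_not_dvd hq).mpr hqN]
  rfl

/-- The Atkin–Lehner matrix has determinant `q`. -/
theorem det_wMat (hq : q.Prime) (hqN : ¬ q ∣ N) : (wMat N q).det = q := by
  rw [wMat, det_fin_two_of]
  linear_combination (q : ℤ) * bezout hq hqN

theorem conjW_mul (hq : q.Prime) (hqN : ¬ q ∣ N) {g : Mat} (hg : ((N * q : ℕ) : ℤ) ∣ g 1 0) :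
    conjW N q g * wMat N q = wMat N q * g := by
  push_cast at hg
  have hc : g 1 0 = (N : ℤ) * q * (g 1 0 / ((N : ℤ) * q)) := (Int.mul_ediv_cancel' hg).symm
  have hb := bezout hq hqN
  rw [conjW, wMat, mul_fin_two]
  conv_rhs => rw [eta_fin_two g, mul_fin_two]
  set x := Int.gcdA q N
  set y := Int.gcdB q N
  set c' := g 1 0 / ((N : ℤ) * q)
  rw [hc]
  ext i j
  fin_cases i <;> fin_cases j <;> simp only [Fin.zero_eta, Fin.mk_one, Fin.isValue, of_apply,
    cons_val', cons_val_zero, cons_val_one, empty_val', cons_val_fin_one]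
  · linear_combination ((q : ℤ) * x * g 0 0 - (N : ℤ) * q * y * c') * hb
  · linear_combination ((q : ℤ) * x * g 0 1 - y * g 1 1) * hb
  · linear_combination ((N : ℤ) * q * g 0 0 + (N : ℤ) * (q : ℤ) ^ 2 * c') * hb
  · linear_combination ((N : ℤ) * q * g 0 1 + (q : ℤ) * g 1 1) * hb

theorem conjW_10 (g : Mat) (hg : ((N * q : ℕ) : ℤ) ∣ g 1 0) :
    ((N * q : ℕ) : ℤ) ∣ conjW N q g 1 0 := by
  push_cast at hg ⊢
  obtain ⟨c, hc⟩ := hg
  exact ⟨g 0 0 + (q : ℤ) * c - (N : ℤ) * g 0 1 - g 1 1, by simp [conjW, hc]; ring⟩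

theorem exists_conjW (hq : q.Prime) (hqN : ¬ q ∣ N) {γ : SL(2, ℤ)} (hγ : γ ∈ Gamma0 (N * q)) :
    ∃ δ ∈ Gamma0 (N * q), wMat N q * mat γ = mat δ * wMat N q := by
  have h := conjW_mul hq hqN (dvd_mat_10 hγ)
  have h1 : (conjW N q (mat γ)).det = 1 := by
    have h2 := congrArg Matrix.det h
    rw [det_mul, det_mul, det_mat, mul_one] at h2
    exact (mul_eq_right₀ (by rw [det_wMat hq hqN]; exact_mod_cast hq.ne_zero)).mp h2
  obtain ⟨δ, hδ, e⟩ := exists_Gamma0_of_det_one h1 (conjW_10 _ (dvd_mat_10 hγ))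
  exact ⟨δ, hδ, by rw [e, h]⟩

/-- `W²` is `q` times an element of `Γ₀(N q)`. -/
theorem exists_wMat_sq (hq : q.Prime) (hqN : ¬ q ∣ N) :
    ∃ δ ∈ Gamma0 (N * q), wMat N q * wMat N q = (q : ℤ) • mat δ := by
  have hb := bezout hq hqN
  set x := Int.gcdA q N
  set y := Int.gcdB q N
  refine ⟨⟨!![(q : ℤ) * x ^ 2 - y * N, -(x * y) - y; (N : ℤ) * q * x + N * q, -((N : ℤ) * y) + q],
    ?_⟩, mem_Gamma0.mpr ?_, ?_⟩
  · rw [det_fin_two_of]
    linear_combination ((q : ℤ) * x + (N : ℤ) * y + 1) * hb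
  · exact ⟨x + 1, by simp; ring⟩
  · rw [wMat, mul_fin_two]
    ext i j
    fin_cases i <;> fin_cases j <;> simp [mat] <;> ring

/-- The Atkin–Lehner matrix forms a correspondence. -/
theorem isCorr_W (hq : q.Prime) (hqN : ¬ q ∣ N) :
    IsCorr (N * q) (N * q) (fun _ : Unit => wMat N q) where
  det_pos _ := by rw [det_wMat hq hqN]; exact_mod_cast hq.pos
  perm γ hγ _ := by
    obtain ⟨δ, hδ, e⟩ := exists_conjW hq hqN hγ
    exact ⟨(), δ, hδ, e⟩
  inj _ _ _ _ _ := rfl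

theorem exists_conjW_symm (hq : q.Prime) (hqN : ¬ q ∣ N) {ζ : SL(2, ℤ)}
    (hζ : ζ ∈ Gamma0 (N * q)) :
    ∃ δ ∈ Gamma0 (N * q), wMat N q * mat δ = mat ζ * wMat N q := by
  obtain ⟨d, hd, e⟩ := exists_wMat_sq hq hqN
  obtain ⟨δ, hδ, eδ⟩ := exists_conjW hq hqN hζ
  have hq0 : (q : ℤ) ≠ 0 := by exact_mod_cast hq.ne_zero
  have hW : (wMat N q).det ≠ 0 := by rw [det_wMat hq hqN]; exact hq0
  have hWd : wMat N q * mat d = mat d * wMat N q := by
    apply smul_right_injective _ hq0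
    show (q : ℤ) • (wMat N q * mat d) = (q : ℤ) • (mat d * wMat N q)
    rw [← Matrix.mul_smul, ← Matrix.smul_mul, ← e, Matrix.mul_assoc]
  have hWd' : wMat N q * mat d⁻¹ = mat d⁻¹ * wMat N q := by
    apply mul_left_cancel_of_det (det_mat_ne_zero d)
    rw [← Matrix.mul_assoc, ← Matrix.mul_assoc (mat d) (mat d⁻¹), ← mat_mul, mul_inv_cancel,
      mat_one, Matrix.one_mul, ← hWd, Matrix.mul_assoc, ← mat_mul, mul_inv_cancel, mat_one,
      Matrix.mul_one]
  refine ⟨d⁻¹ * δ * d, mul_mem (mul_mem (inv_mem hd) hδ) hd, ?_⟩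
  apply mul_right_cancel_of_det hW
  apply mul_left_cancel_of_det (det_mat_ne_zero d)
  have key : wMat N q * mat δ * mat d = mat d * (mat ζ * wMat N q) := by
    apply smul_right_injective _ hq0
    show (q : ℤ) • (wMat N q * mat δ * mat d) = (q : ℤ) • (mat d * (mat ζ * wMat N q))
    rw [← Matrix.mul_smul, ← Matrix.smul_mul, ← e]
    simp only [Matrix.mul_assoc]
    rw [← Matrix.mul_assoc (mat δ), ← eδ, Matrix.mul_assoc]
  rw [mat_mul, mat_mul, ← Matrix.mul_assoc (wMat N q), ← Matrix.mul_assoc (wMat N q), hWd']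
  have key' := congrArg (· * wMat N q) key
  simp only [← Matrix.mul_assoc] at key' ⊢
  rw [← mat_mul, mul_inv_cancel, mat_one, Matrix.one_mul]
  exact key'

/-- Representatives of `Γ₀(N q) \ Γ₀(N)`. -/
def trMat (N q : ℕ) : Option (Fin q) → Mat
  | none => 1
  | some b => !![Int.gcdA q N, Int.gcdA q N * (b : ℤ) - Int.gcdB q N;
      (N : ℤ), (N : ℤ) * (b : ℤ) + q]

theorem det_trMat (hq : q.Prime) (hqN : ¬ q ∣ N) (i : Option (Fin q)) :
    (trMat N q i).det = 1 := by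
  rcases i with _ | b
  · simp [trMat]
  · rw [trMat, det_fin_two_of]
    linear_combination bezout hq hqN

theorem trMat_10 (i : Option (Fin q)) : (N : ℤ) ∣ trMat N q i 1 0 := by
  cases i <;> simp [trMat]

theorem wMat_mul_uMat (b : Fin q) :
    wMat N q * uMat q b = (q : ℤ) • trMat N q (some b) := by
  rw [wMat, uMat, mul_fin_two, trMat]
  ext i j
  fin_cases i <;> fin_cases j <;> simp <;> ring

theorem exists_trMat_dvd (hq : q.Prime) (hqN : ¬ q ∣ N) {m : Mat} (hm : (N : ℤ) ∣ m 1 0) :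
    ∃ i, ((N * q : ℕ) : ℤ) ∣ (m * (trMat N q i).adjugate) 1 0 := by
  have : Fact q.Prime := ⟨hq⟩
  obtain ⟨c, hc⟩ := hm
  push_cast
  by_cases h : (q : ℤ) ∣ c
  · refine ⟨none, ?_⟩
    obtain ⟨c', rfl⟩ := h
    exact ⟨c', by simp [trMat, hc]; ring⟩
  · have hcN : ((c * N : ℤ) : ZMod q) ≠ 0 := by
      push_cast
      refine mul_ne_zero (fun h0 => h ((ZMod.intCast_zmod_eq_zero_iff_dvd _ _).mp h0)) ?_
      exact_mod_cast fun h0 => hqN ((ZMod.natCast_eq_zero_iff _ _).mp h0)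
    obtain ⟨bv, hbv, hb'⟩ : ∃ bv : ℕ, bv < q ∧
        (bv : ZMod q) = (m 1 1 : ZMod q) / ((c * N : ℤ) : ZMod q) :=
      ⟨_, ZMod.val_lt _, ZMod.natCast_zmod_val _⟩
    refine ⟨some ⟨bv, hbv⟩, ?_⟩
    obtain ⟨k, hk⟩ : (q : ℤ) ∣ c * N * (bv : ℤ) - m 1 1 := by
      rw [← ZMod.intCast_zmod_eq_zero_iff_dvd, Int.cast_sub, Int.cast_mul,
        Int.cast_natCast (R := ZMod q) bv,
        hb', mul_div_cancel₀ _ hcN, sub_self]
    refine ⟨k + c, ?_⟩
    simp [trMat, adjugate_fin_two, Matrix.mul_apply, Fin.sum_univ_two, hc]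
    linear_combination (N : ℤ) * hk

theorem isCorr_Tr (hq : q.Prime) (hqN : ¬ q ∣ N) : IsCorr N (N * q) (trMat N q) where
  det_pos i := by rw [det_trMat hq hqN]; exact one_pos
  perm γ hγ i := by
    obtain ⟨j, hj⟩ := exists_trMat_dvd hq hqN (m := trMat N q i * mat γ)
      (dvd_mul_mat_10 (trMat_10 i) (dvd_mat_10 hγ))
    obtain ⟨δ, hδ, e⟩ := exists_Gamma0_of_det_one (N := N * q)
      (m := trMat N q i * mat γ * (trMat N q j).adjugate)
      (by rw [det_mul, det_mul, det_mat, det_adjugate', det_trMat hq hqN, det_trMat hq hqN]; ring)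
      hj
    refine ⟨j, δ, hδ, ?_⟩
    rw [e, Matrix.mul_assoc, adjugate_mul, det_trMat hq hqN, one_smul, Matrix.mul_one]
  inj i j δ hδ h := by
    have he : mat δ = trMat N q i * (trMat N q j).adjugate := by
      rw [h, Matrix.mul_assoc, mul_adjugate, det_trMat hq hqN, one_smul, Matrix.mul_one]
    obtain ⟨k, hk⟩ : ((N * q : ℕ) : ℤ) ∣ (trMat N q i * (trMat N q j).adjugate) 1 0 :=
      he ▸ dvd_mat_10 hδ
    push_cast at hk
    have hN0 : (N : ℤ) ≠ 0 := by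
      exact_mod_cast fun h0 : N = 0 => hqN (h0 ▸ dvd_zero q)
    have hq1 : ¬ (q : ℤ) ∣ 1 := one_not_dvd hq
    rcases i with _ | b <;> rcases j with _ | b'
    · rfl
    · simp [trMat, adjugate_fin_two, Matrix.mul_apply, Fin.sum_univ_two] at hk
      exact absurd ⟨-k, mul_left_cancel₀ hN0 (by linear_combination -hk)⟩ hq1
    · simp [trMat, Matrix.mul_apply, Fin.sum_univ_two] at hk
      exact absurd ⟨k, mul_left_cancel₀ hN0 (by linear_combination hk)⟩ hq1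
    · simp [trMat, adjugate_fin_two, Matrix.mul_apply, Fin.sum_univ_two] at hk
      have hd : (q : ℤ) ∣ (N : ℤ) * ((b' : ℤ) - (b : ℤ)) :=
        ⟨k, mul_left_cancel₀ hN0 (by linear_combination hk)⟩
      have hb := ((Nat.prime_iff_prime_int.mp hq).dvd_mul.mp hd).resolve_left
        (by exact_mod_cast hqN)
      have := Int.eq_zero_of_abs_lt_dvd hb (by
        rw [abs_lt]; constructor <;> have := b.isLt <;> have := b'.isLt <;> omega)
      exact congrArg some (Fin.ext (by omega))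

/-- The identity forms a correspondence from level `N q` to level `N`. -/
theorem isCorr_Res : IsCorr (N * q) N (fun _ : Unit => (1 : Mat)) where
  det_pos _ := by simp
  perm γ hγ _ := ⟨(), γ, Gamma0_le_of_dvd (dvd_mul_right N q) hγ, by simp⟩
  inj _ _ _ _ _ := rfl

variable (N q)

/-- Push forward along `X₀(N q) → X₀(N)`. -/
noncomputable def symRes : ModSym (N * q) →+ ModSym N := (isCorr_Res (N := N) (q := q)).push

variable {N q}

/-- The transfer from level `N` to level `N q`. -/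
noncomputable def symTr (hq : q.Prime) (hqN : ¬ q ∣ N) : ModSym N →+ ModSym (N * q) :=
  (isCorr_Tr hq hqN).push

/-- The Atkin–Lehner involution. -/
noncomputable def symW (hq : q.Prime) (hqN : ¬ q ∣ N) : ModSym (N * q) →+ ModSym (N * q) :=
  (isCorr_W hq hqN).push

/-- Restriction sends a symbol to the same symbol. -/
theorem symRes_symb (v w : Vec) : symRes N q (symb (N * q) v w) = symb N v w := by
  rw [symRes, IsCorr.push_symb]; simp

/-- The Atkin–Lehner map translates symbols by its matrix. -/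
theorem symW_symb (hq : q.Prime) (hqN : ¬ q ∣ N) (v w : Vec) :
    symW hq hqN (symb (N * q) v w) = symb (N * q) (wMat N q *ᵥ v) (wMat N q *ᵥ w) := by
  rw [symW, IsCorr.push_symb]; simp

/-- The Atkin–Lehner map is an involution. -/
theorem symW_symW (hq : q.Prime) (hqN : ¬ q ∣ N) (x : ModSym (N * q)) :
    symW hq hqN (symW hq hqN x) = x := by
  suffices (symW hq hqN).comp (symW hq hqN) = AddMonoidHom.id _ from DFunLike.congr_fun this x
  refine hom_ext fun v w _ _ => ?_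
  obtain ⟨δ, hδ, e⟩ := exists_wMat_sq hq hqN
  have hq0 : (q : ℤ) ≠ 0 := by exact_mod_cast hq.ne_zero
  rw [AddMonoidHom.comp_apply, symW_symb, symW_symb, mulVec_mulVec, mulVec_mulVec, e, smul_mulVec,
    smul_mulVec, symb_scale_left hq0, symb_scale_right hq0, symb_gamma hδ]
  rfl

/-- `Res ∘ Tr = q + 1`. -/
theorem symRes_symTr (hq : q.Prime) (hqN : ¬ q ∣ N) (x : ModSym N) :
    symRes N q (symTr hq hqN x) = ((q : ℤ) + 1) • x := by
  suffices (symRes N q).comp (symTr hq hqN) = ((q : ℤ) + 1) • AddMonoidHom.id _ from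
    DFunLike.congr_fun this x
  refine hom_ext fun v w _ _ => ?_
  rw [AddMonoidHom.comp_apply, symTr, IsCorr.push_symb, map_sum]
  simp only [symRes_symb]
  have : ∀ i, symb N (trMat N q i *ᵥ v) (trMat N q i *ᵥ w) = symb N v w := fun i => by
    obtain ⟨δ, hδ, e⟩ := exists_Gamma0_of_det_one (det_trMat hq hqN i) (trMat_10 i)
    rw [← e, symb_gamma hδ]
  simp [this, add_smul]

/-- `Res ∘ W ∘ Tr = T_q`. -/
theorem symRes_symW_symTr (hq : q.Prime) (hqN : ¬ q ∣ N) (x : ModSym N) :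
    symRes N q (symW hq hqN (symTr hq hqN x)) = symT N hq hqN x := by
  suffices (symRes N q).comp ((symW hq hqN).comp (symTr hq hqN)) = symT N hq hqN from
    DFunLike.congr_fun this x
  refine hom_ext fun v w _ _ => ?_
  simp only [AddMonoidHom.comp_apply, symTr, IsCorr.push_symb, map_sum, symW_symb, symRes_symb,
    mulVec_mulVec, symT]
  have hq0 : (q : ℤ) ≠ 0 := by exact_mod_cast hq.ne_zero
  obtain ⟨d, hd, ed⟩ := exists_wMat_sq hq hqN
  refine sum_symb_congr (g := fun i => wMat N q * trMat N q i) (h := tMat q)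
    ((Equiv.optionEquivSumPUnit (Fin q)).trans (Equiv.sumCongr (Equiv.refl _) (Equiv.refl _)))
    (fun i => ?_) v w
  rcases i with _ | b
  · obtain ⟨γ, hγ, eγ⟩ := exists_Gamma0_of_det_one (N := N)
      (m := !![Int.gcdA q N, -Int.gcdB q N; (N : ℤ), (q : ℤ)])
      (by rw [det_fin_two_of]; linear_combination bezout hq hqN) (by simp)
    refine ⟨γ⁻¹, inv_mem hγ, 1, 1, one_ne_zero, one_ne_zero, ?_⟩
    have hW : wMat N q = mat γ * tMat q (.inr ()) := by
      rw [eγ, tMat, mul_fin_two, wMat]; simp [mul_comm]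
    simp only [trMat, Matrix.mul_one, one_smul]
    rw [hW, ← Matrix.mul_assoc, mat_inv_mul, Matrix.one_mul]
    rfl
  · refine ⟨d⁻¹, inv_mem (Gamma0_le_of_dvd (dvd_mul_right N q) hd), 1, 1, one_ne_zero,
      one_ne_zero, ?_⟩
    simp only [one_smul]
    apply smul_right_injective _ hq0
    show (q : ℤ) • tMat q (.inl b) = (q : ℤ) • (mat d⁻¹ * (wMat N q * trMat N q (some b)))
    rw [← Matrix.mul_smul, ← Matrix.mul_smul, ← wMat_mul_uMat, ← Matrix.mul_assoc (wMat N q), ed,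
      ← Matrix.mul_assoc, Matrix.mul_smul, mat_inv_mul, Matrix.smul_mul, Matrix.one_mul, uMat_eq]

/-- `Tr ∘ Res = 1 + W ∘ U_q`. -/
theorem symTr_symRes (hq : q.Prime) (hqN : ¬ q ∣ N) (x : ModSym (N * q)) :
    symTr hq hqN (symRes N q x) =
      x + symW hq hqN (symU (N * q) hq (dvd_mul_left q N) x) := by
  suffices (symTr hq hqN).comp (symRes N q) =
      AddMonoidHom.id _ + (symW hq hqN).comp (symU (N * q) hq (dvd_mul_left q N)) from
    DFunLike.congr_fun this x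
  refine hom_ext fun v w _ _ => ?_
  have hq0 : (q : ℤ) ≠ 0 := by exact_mod_cast hq.ne_zero
  rw [AddMonoidHom.comp_apply, symRes_symb, symTr, IsCorr.push_symb, AddMonoidHom.add_apply,
    AddMonoidHom.comp_apply, symU, IsCorr.push_symb, map_sum, Fintype.sum_option]
  refine congrArg₂ (· + ·) (by simp [trMat]) (Finset.sum_congr rfl fun b _ => ?_)
  rw [symW_symb, mulVec_mulVec, mulVec_mulVec, wMat_mul_uMat, smul_mulVec, smul_mulVec,
    symb_scale_left hq0, symb_scale_right hq0]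

/-- The crossing map turns the trace into restriction. -/
theorem psi_symTr (hq : q.Prime) (hqN : ¬ q ∣ N) (x : ModSym N) :
    psi (N * q) (symTr hq hqN x) = (isCorr_Res (N := N) (q := q)).transfer (psi N x) := by
  refine psi_push _ _ (fun i δ hδ => ?_) (fun _ η hη => ?_) x
  · obtain ⟨r, hr, er⟩ := exists_Gamma0_of_det_one (det_trMat hq hqN i) (trMat_10 (N := N) i)
    exact ⟨(), r⁻¹ * δ, mul_mem (inv_mem hr) (Gamma0_le_of_dvd (dvd_mul_right N q) hδ), by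
      rw [← er, ← mat_inv, mat_mul, Matrix.mul_one]⟩
  · obtain ⟨i, hi⟩ := exists_trMat_dvd hq hqN (m := mat η⁻¹) (dvd_mat_10 (inv_mem hη))
    obtain ⟨r, hr, er⟩ := exists_Gamma0_of_det_one (det_trMat hq hqN i) (trMat_10 (N := N) i)
    rw [← er, ← mat_inv, ← mat_mul] at hi
    refine ⟨i, (η⁻¹ * r⁻¹)⁻¹, inv_mem (mem_Gamma0.mpr hi), ?_⟩
    rw [← er, ← mat_inv, Matrix.mul_one, ← mat_mul, mat_inj]
    group

/-- The crossing map turns `W` into its transfer. -/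
theorem psi_symW (hq : q.Prime) (hqN : ¬ q ∣ N) (x : ModSym (N * q)) :
    psi (N * q) (symW hq hqN x) = (isCorr_W hq hqN).transfer (psi (N * q) x) := by
  obtain ⟨d, hd, ed⟩ := exists_wMat_sq hq hqN
  have hq0 : (q : ℤ) ≠ 0 := by exact_mod_cast hq.ne_zero
  have hadj : (wMat N q).adjugate = mat d⁻¹ * wMat N q := by
    apply mul_right_cancel_of_det (g := wMat N q) (by rw [det_wMat hq hqN]; exact hq0)
    rw [adjugate_mul, det_wMat hq hqN, Matrix.mul_assoc, ed, Matrix.mul_smul, mat_inv_mul]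
  refine psi_push _ _ (fun _ δ hδ => ?_) (fun _ η hη => ?_) x
  · obtain ⟨δ', hδ', e⟩ := exists_conjW hq hqN hδ
    exact ⟨(), d⁻¹ * δ', mul_mem (inv_mem hd) hδ', by
      rw [hadj, Matrix.mul_assoc, e, mat_mul, Matrix.mul_assoc]⟩
  · obtain ⟨δ, hδ, e⟩ := exists_conjW_symm hq hqN (mul_mem hd hη)
    exact ⟨(), δ, hδ, by
      rw [hadj, Matrix.mul_assoc, e, mat_mul, ← Matrix.mul_assoc, ← Matrix.mul_assoc, mat_inv_mul,
        Matrix.one_mul]⟩

/-- `T_ℓ` commutes with `W`. -/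
theorem symT_symW (hq : q.Prime) (hqN : ¬ q ∣ N) {ℓ : ℕ} (hℓ : ℓ.Prime) (hℓM : ¬ ℓ ∣ N * q)
    (x : ModSym (N * q)) :
    symT (N * q) hℓ hℓM (symW hq hqN x) = symW hq hqN (symT (N * q) hℓ hℓM x) := by
  suffices (symT (N * q) hℓ hℓM).comp (symW hq hqN) =
      (symW hq hqN).comp (symT (N * q) hℓ hℓM) from DFunLike.congr_fun this x
  refine hom_ext fun v w _ _ => ?_
  simp only [AddMonoidHom.comp_apply, symT, IsCorr.push_symb, map_sum, symW_symb, mulVec_mulVec]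
  have hq0 : (q : ℤ) ≠ 0 := by exact_mod_cast hq.ne_zero
  have hex : ∀ i, ∃ j, ∃ δ ∈ Gamma0 (N * q),
      wMat N q * tMat ℓ i = mat δ * (tMat ℓ j * wMat N q) := by
    intro i
    have h10 : ((N * q : ℕ) : ℤ) ∣ tMat ℓ i 1 0 := by rw [tMat_10]; exact dvd_zero _
    have h := conjW_mul hq hqN h10
    have hdet : (conjW N q (tMat ℓ i)).det = ℓ := by
      have h2 := congrArg Matrix.det h
      rw [det_mul, det_mul, det_tMat, det_wMat hq hqN, mul_comm (q : ℤ)] at h2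
      exact mul_right_cancel₀ hq0 h2
    obtain ⟨j, δ, hδ, e⟩ := exists_tMat_eq hℓ hℓM hdet (conjW_10 _ h10)
    exact ⟨j, δ, hδ, by rw [← h, e, Matrix.mul_assoc]⟩
  choose e δ hδ he using hex
  have hinj : Function.Injective e := by
    intro i k h
    obtain ⟨γ, hγ, eγ⟩ := exists_conjW_symm hq hqN (mul_mem (hδ i) (inv_mem (hδ k)))
    refine (isCorr_T hℓ hℓM).inj i k γ hγ ?_
    apply mul_left_cancel_of_det (g := wMat N q) (by rw [det_wMat hq hqN]; exact hq0)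
    rw [← Matrix.mul_assoc, eγ, he i, h, Matrix.mul_assoc, he k, ← Matrix.mul_assoc (mat (δ i * _)),
      ← mat_mul, inv_mul_cancel_right]
  refine (sum_symb_congr (g := fun i => wMat N q * tMat ℓ i)
    (h := fun i => tMat ℓ i * wMat N q)
    (Equiv.ofBijective e (Finite.injective_iff_bijective.mp hinj))
    (fun i => ⟨(δ i)⁻¹, inv_mem (hδ i), 1, 1, one_ne_zero, one_ne_zero, ?_⟩) v w).symm
  rw [one_smul, one_smul, Equiv.ofBijective_apply, he i, ← Matrix.mul_assoc, mat_inv_mul,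
    Matrix.one_mul]

/-- `T_ℓ` commutes with the trace. -/
theorem symT_symTr (hq : q.Prime) (hqN : ¬ q ∣ N) {ℓ : ℕ} (hℓ : ℓ.Prime) (hℓM : ¬ ℓ ∣ N * q)
    (hℓN : ¬ ℓ ∣ N) (x : ModSym N) :
    symT (N * q) hℓ hℓM (symTr hq hqN x) = symTr hq hqN (symT N hℓ hℓN x) := by
  suffices (symT (N * q) hℓ hℓM).comp (symTr hq hqN) = (symTr hq hqN).comp (symT N hℓ hℓN) from
    DFunLike.congr_fun this x
  refine hom_ext fun v w _ _ => ?_
  simp only [AddMonoidHom.comp_apply, symT, symTr, IsCorr.push_push_symb]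
  have hex : ∀ p : Option (Fin q) × (Fin ℓ ⊕ Unit), ∃ p' : (Fin ℓ ⊕ Unit) × Option (Fin q),
      ∃ δ ∈ Gamma0 (N * q),
        trMat N q p.1 * tMat ℓ p.2 = mat δ * (tMat ℓ p'.1 * trMat N q p'.2) := by
    intro p
    obtain ⟨j, hj⟩ := exists_trMat_dvd hq hqN (m := trMat N q p.1 * tMat ℓ p.2)
      (dvd_mul_mat_10 (trMat_10 _) (by rw [tMat_10]; exact dvd_zero _))
    obtain ⟨i, δ, hδ, e⟩ := exists_tMat_eq hℓ hℓM
      (m := trMat N q p.1 * tMat ℓ p.2 * (trMat N q j).adjugate)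
      (by
        rw [det_mul, det_mul, det_tMat, det_adjugate', det_trMat hq hqN, det_trMat hq hqN,
          one_mul, mul_one])
      hj
    refine ⟨(i, j), δ, hδ, ?_⟩
    rw [← Matrix.mul_assoc, ← e, Matrix.mul_assoc, adjugate_mul, det_trMat hq hqN, one_smul,
      Matrix.mul_one]
  choose e δ hδ he using hex
  have hinj : Function.Injective e := by
    intro p p' h
    have h1 := he p
    have h2 := he p'
    rw [h] at h1
    have h3 : trMat N q p.1 * tMat ℓ p.2 =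
        mat (δ p * (δ p')⁻¹) * (trMat N q p'.1 * tMat ℓ p'.2) := by
      rw [h1, h2, ← Matrix.mul_assoc (mat (δ p * (δ p')⁻¹)), ← mat_mul, inv_mul_cancel_right]
    obtain ⟨r, hr, er⟩ := exists_Gamma0_of_det_one (det_trMat hq hqN p.1) (trMat_10 (N := N) p.1)
    obtain ⟨r', hr', er'⟩ :=
      exists_Gamma0_of_det_one (det_trMat hq hqN p'.1) (trMat_10 (N := N) p'.1)
    have hp2 : p.2 = p'.2 := by
      refine (isCorr_T hℓ hℓN).inj _ _ (r⁻¹ * (δ p * (δ p')⁻¹) * r') (mul_mem (mul_mem (inv_mem hr)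
        (Gamma0_le_of_dvd (dvd_mul_right N q) (mul_mem (hδ p) (inv_mem (hδ p'))))) hr') ?_
      have h4 := congrArg (mat r⁻¹ * ·) h3
      simp only [← er, ← er', ← Matrix.mul_assoc, mat_inv_mul, Matrix.one_mul] at h4
      rw [mat_mul, mat_mul]
      exact h4
    refine Prod.ext ((isCorr_Tr hq hqN).inj _ _ (δ p * (δ p')⁻¹)
      (mul_mem (hδ p) (inv_mem (hδ p'))) ?_) hp2
    rw [hp2, ← Matrix.mul_assoc] at h3
    exact mul_right_cancel_of_det (by rw [det_tMat]; exact_mod_cast hℓ.ne_zero) h3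
  have hbij : Function.Bijective e :=
    (Fintype.bijective_iff_injective_and_card e).mpr
      ⟨hinj, by rw [Fintype.card_prod, Fintype.card_prod, Nat.mul_comm]⟩
  refine (sum_symb_congr (Equiv.ofBijective e hbij) (fun p => ?_) v w).symm
  refine ⟨(δ p)⁻¹, inv_mem (hδ p), 1, 1, one_ne_zero, one_ne_zero, ?_⟩
  rw [one_smul, one_smul, Equiv.ofBijective_apply, he p, ← Matrix.mul_assoc, mat_inv_mul,
    Matrix.one_mul]

/-- `T_ℓ` commutes with the push forward to level `N`. -/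
theorem symRes_symT {ℓ : ℕ} (hℓ : ℓ.Prime) (hℓM : ¬ ℓ ∣ N * q) (hℓN : ¬ ℓ ∣ N)
    (x : ModSym (N * q)) :
    symRes N q (symT (N * q) hℓ hℓM x) = symT N hℓ hℓN (symRes N q x) := by
  suffices (symRes N q).comp (symT (N * q) hℓ hℓM) = (symT N hℓ hℓN).comp (symRes N q) from
    DFunLike.congr_fun this x
  refine hom_ext fun v w _ _ => ?_
  simp only [AddMonoidHom.comp_apply, symT, IsCorr.push_symb, map_sum, symRes_symb]

end Degeneracy

end Fermat.Agent.LevelRaising
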