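import Mathlib.Analysis.Real.Sqrt
import Mathlib.Data.ZMod.Basic
import Mathlib.GroupTheory.GroupAction.Quotient
import Mathlib.RingTheory.Coprime.Lemmas
import Mathlib.Tactic.LinearCombination
import Fermat.Agent.LevelRaising.Crossing
import Fermat.Agent.LevelRaising.Manin

/-!
# The crossing map is injective modulo `p` up to torsion

A symbol whose crossing homomorphism is divisible by an odd prime `p` is a multiple of `p` up to
torsion (`eq_smul_add_torsion_of_psi`).
-/

set_option autoImplicit false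

noncomputable section

open Matrix CongruenceSubgroup UpperHalfPlane
open scoped MatrixGroups

namespace Fermat.Agent.LevelRaising

/-- The point `e^{iπ/3}`. -/
def rho : ℍ := ⟨⟨1 / 2, Real.sqrt 3 / 2⟩, by simp⟩

theorem rho_re : (rho : ℂ).re = 1 / 2 := rfl

theorem rho_im : (rho : ℂ).im = Real.sqrt 3 / 2 := rfl

theorem normSq_rho : Complex.normSq (rho : ℂ) = 1 := by
  rw [Complex.normSq_apply, rho_re, rho_im]
  nlinarith [Real.mul_self_sqrt (show (0 : ℝ) ≤ 3 by norm_num)]

theorem re_smul (g : SL(2, ℤ)) (z : ℍ) :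
    ((g • z : ℍ) : ℂ).re =
      ((g 0 0 : ℝ) * g 1 0 * Complex.normSq z +
          ((g 0 0 : ℝ) * g 1 1 + g 0 1 * g 1 0) * (z : ℂ).re + g 0 1 * g 1 1) /
        Complex.normSq ((g 1 0 : ℂ) * z + g 1 1) := by
  rw [← act_mat, coe_act (by rw [det_mat]; exact one_pos)]
  simp only [Complex.div_re, mat, Complex.normSq_apply]
  simp
  ring

theorem crossD_base (z : ℍ) : crossD vecZero vecInfty z = SignType.sign (z : ℂ).re := by
  simp [crossD, pairRe, lineVal, vdet, vecZero, vecInfty]

theorem S_smul_I : (ModularGroup.S • UpperHalfPlane.I : ℍ) = UpperHalfPlane.I := by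
  apply UpperHalfPlane.ext
  rw [modular_S_smul]
  simp [Complex.inv_I]

theorem tau_smul_rho : tau • rho = rho := by
  apply UpperHalfPlane.ext
  rw [← act_mat, coe_act (by rw [det_mat]; exact one_pos), mat_tau]
  simp only [of_apply, cons_val', cons_val_zero, cons_val_one, empty_val', cons_val_fin_one,
    Int.cast_one, Int.cast_neg, Int.cast_zero, one_mul, add_zero]
  rw [div_eq_iff (ne_zero rho)]
  apply Complex.ext <;> simp [rho] <;>
    nlinarith [Real.mul_self_sqrt (show (0 : ℝ) ≤ 3 by norm_num)]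

/-- The jump of the potential of the base geodesic along `g i → g ρ`. -/
theorem crossD_jump (g : SL(2, ℤ)) :
    crossD vecZero vecInfty (g • rho) - crossD vecZero vecInfty (g • UpperHalfPlane.I) =
      (if g = 1 ∨ g = -1 then 1 else 0) -
        (if g = ModularGroup.S ∨ g = -ModularGroup.S then 1 else 0) := by
  have hden : ∀ z : ℍ, 0 < Complex.normSq ((g 1 0 : ℂ) * z + g 1 1) := fun z => by
    refine Complex.normSq_pos.mpr ?_
    intro h0
    by_cases hc : g 1 0 = 0
    · rw [hc] at h0
      have : g 1 1 = 0 := by simpa using h0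
      have hd := g.det_coe
      rw [det_fin_two, this, hc] at hd
      simp at hd
    · have := congrArg Complex.im h0
      simp [hc, z.im_ne_zero] at this
  have hd : g 0 0 * g 1 1 - g 0 1 * g 1 0 = 1 := by
    have := g.det_coe
    rwa [det_fin_two] at this
  have hsign : ∀ z : ℍ, crossD vecZero vecInfty (g • z) = SignType.sign
      ((g 0 0 : ℝ) * g 1 0 * Complex.normSq z +
        ((g 0 0 : ℝ) * g 1 1 + g 0 1 * g 1 0) * (z : ℂ).re + g 0 1 * g 1 1) := fun z => by
    rw [crossD_base, re_smul, div_eq_mul_inv, sign_mul, sign_pos (inv_pos.mpr (hden z)), mul_one]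
  rw [hsign, hsign, normSq_rho, rho_re]
  simp only [UpperHalfPlane.coe_I, Complex.normSq_I, Complex.I_re, mul_zero, add_zero, mul_one]
  set n : ℤ := g 0 0 * g 1 0 + g 0 1 * g 1 1 with hn
  set s : ℤ := g 0 0 * g 1 1 + g 0 1 * g 1 0 with hs
  have en : (g 0 0 : ℝ) * g 1 0 + g 0 1 * g 1 1 = (n : ℝ) := by rw [hn]; push_cast; ring
  have er : (g 0 0 : ℝ) * g 1 0 + ((g 0 0 : ℝ) * g 1 1 + g 0 1 * g 1 0) * (1 / 2) +
      g 0 1 * g 1 1 = (1 / 2 : ℝ) * ((2 * n + s : ℤ) : ℝ) := by rw [hn, hs]; push_cast; ring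
  have hhalf : SignType.sign (1 / 2 : ℝ) = 1 := sign_pos (by norm_num)
  rw [er, en, sign_mul, hhalf, one_mul]
  by_cases h0 : n = 0
  · have habcd : g 0 0 * g 1 0 = 0 ∧ g 0 1 * g 1 1 = 0 := by
      have hnn : 0 ≤ (g 0 1 * g 1 0 + 1) * (g 0 1 * g 1 0) := by
        rcases lt_or_ge (g 0 1 * g 1 0) 0 with h | h
        · exact mul_nonneg_of_nonpos_of_nonpos (by omega) h.le
        · positivity
      have e : (g 0 0 * g 1 0) * (g 0 1 * g 1 1) = (g 0 1 * g 1 0 + 1) * (g 0 1 * g 1 0) := by
        linear_combination (g 0 1 * g 1 0) * hd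
      have hx : g 0 1 * g 1 1 = -(g 0 0 * g 1 0) := by omega
      rw [hx] at e
      constructor <;> nlinarith [mul_self_nonneg (g 0 0 * g 1 0)]
    rcases mul_eq_zero.mp habcd.1 with ha | hc
    · have hbc : g 0 1 * g 1 0 = -1 := by rw [ha] at hd; linear_combination -hd
      have hd0 : g 1 1 = 0 := by
        refine (mul_eq_zero.mp habcd.2).resolve_left fun hb => ?_
        simp [hb] at hbc
      have hg : g = ModularGroup.S ∨ g = -ModularGroup.S := by
        rcases Int.eq_one_or_neg_one_of_mul_eq_neg_one' hbc with ⟨hb, hc⟩ | ⟨hb, hc⟩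
        · right; ext i j; fin_cases i <;> fin_cases j <;> simp [ModularGroup.coe_S, ha, hb, hc, hd0]
        · left; ext i j; fin_cases i <;> fin_cases j <;> simp [ModularGroup.coe_S, ha, hb, hc, hd0]
      have hne : ¬ (g = 1 ∨ g = -1) := by
        rintro (h | h) <;> simp [h] at ha
      have hs' : s = -1 := by rw [hs, ha, hbc]; ring
      simp [h0, hs', hg, hne]
    · have had : g 0 0 * g 1 1 = 1 := by rw [hc] at hd; linear_combination hd
      have hb0 : g 0 1 = 0 := by
        refine (mul_eq_zero.mp habcd.2).resolve_right fun hd0 => ?_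
        simp [hd0] at had
      have hg : g = 1 ∨ g = -1 := by
        rcases Int.eq_one_or_neg_one_of_mul_eq_one' had with ⟨ha, hd'⟩ | ⟨ha, hd'⟩
        · left; ext i j; fin_cases i <;> fin_cases j <;> simp [ha, hb0, hc, hd']
        · right; ext i j; fin_cases i <;> fin_cases j <;> simp [ha, hb0, hc, hd']
      have hne : ¬ (g = ModularGroup.S ∨ g = -ModularGroup.S) := by
        rintro (h | h) <;> simp [h, ModularGroup.coe_S] at hc
      have hs' : s = 1 := by rw [hs, had, hb0]; ring
      simp [h0, hs', hg, hne]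
  · have hne : ¬ (g = 1 ∨ g = -1) := by
      rintro (h | h) <;> simp [hn, h] at h0
    have hne' : ¬ (g = ModularGroup.S ∨ g = -ModularGroup.S) := by
      rintro (h | h) <;> simp [hn, h, ModularGroup.coe_S] at h0
    rw [if_neg hne, if_neg hne', sub_zero, sub_eq_zero]
    have hlt : s ^ 2 < (2 * n) ^ 2 := by
      have e1 : s ^ 2 = 4 * (g 0 0 * g 1 1) * (g 0 1 * g 1 0) + 1 := by
        rw [hs]; linear_combination (g 0 0 * g 1 1 - g 0 1 * g 1 0 + 1) * hd
      have e2 : 0 ≤ (g 0 0 * g 1 1) * (g 0 1 * g 1 0) := by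
        rcases lt_or_ge (g 0 1 * g 1 0) 0 with h | h
        · exact mul_nonneg_of_nonpos_of_nonpos (by omega) h.le
        · exact mul_nonneg (by omega) h
      have e3 : 1 ≤ (g 0 0 * g 1 0) ^ 2 + (g 0 1 * g 1 1) ^ 2 := by
        by_contra hlt
        push Not at hlt
        have z1 : g 0 0 * g 1 0 = 0 := by nlinarith [sq_nonneg (g 0 1 * g 1 1)]
        have z2 : g 0 1 * g 1 1 = 0 := by nlinarith [sq_nonneg (g 0 0 * g 1 0)]
        exact h0 (by rw [hn, z1, z2]; rfl)
      rw [hn]; nlinarith
    have habs := sq_lt_sq.mp hlt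
    rcases lt_or_gt_of_ne h0 with hlt0 | hgt0
    · have h3 : 2 * n + s < 0 := by
        rw [abs_of_neg (show 2 * n < 0 by omega)] at habs
        have := (abs_lt.mp habs).2; omega
      rw [sign_neg (by exact_mod_cast h3), sign_neg (by exact_mod_cast hlt0)]
    · have h3 : 0 < 2 * n + s := by
        rw [abs_of_pos (show 0 < 2 * n by omega)] at habs
        have := (abs_lt.mp habs).1; omega
      rw [sign_pos (by exact_mod_cast h3), sign_pos (by exact_mod_cast hgt0)]

variable {N : ℕ}

theorem neg_one_mem_Gamma0 : (-1 : SL(2, ℤ)) ∈ Gamma0 N := by rw [mem_Gamma0]; simp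

theorem rightCoset_neg (g : SL(2, ℤ)) : rightCoset N (-g) = rightCoset N g := by
  rw [show -g = (-1 : SL(2, ℤ)) * g by simp]
  exact rightCoset_mul_left neg_one_mem_Gamma0 g

open scoped Classical in
theorem sum_fiber_pm (h g k : SL(2, ℤ)) :
    (∑ᶠ η : Gamma0 N, if h⁻¹ * η * g = k ∨ h⁻¹ * η * g = -k then (1 : ℤ) else 0) =
      if rightCoset N g = rightCoset N (h * k) then 2 else 0 := by
  classical
  have hiff : ∀ η : SL(2, ℤ), ∀ k : SL(2, ℤ), h⁻¹ * η * g = k ↔ η = h * k * g⁻¹ := fun η k => by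
    constructor
    · rintro rfl; group
    · rintro rfl; group
  by_cases hQ : rightCoset N g = rightCoset N (h * k)
  · rw [if_pos hQ]
    have hmem : h * k * g⁻¹ ∈ Gamma0 N := by rw [← rightCoset_eq_iff]; exact hQ.symm
    have hmem' : h * (-k) * g⁻¹ ∈ Gamma0 N := by
      rw [← rightCoset_eq_iff, show h * -k = -(h * k) by simp, rightCoset_neg]; exact hQ.symm
    have hne : (⟨_, hmem⟩ : Gamma0 N) ≠ ⟨_, hmem'⟩ := fun e => by
      have := mul_left_cancel (mul_right_cancel (congrArg Subtype.val e))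
      have h00 := congrFun (congrFun (congrArg Subtype.val this) 0) 0
      have h10 := congrFun (congrFun (congrArg Subtype.val this) 1) 0
      have hd := k.det_coe
      simp at h00 h10
      rw [det_fin_two] at hd
      have ha : k 0 0 = 0 := by omega
      have hc : k 1 0 = 0 := by omega
      rw [ha, hc] at hd; simp at hd
    rw [finsum_eq_finsetSum_of_support_subset _
      (s := {(⟨_, hmem⟩ : Gamma0 N), ⟨_, hmem'⟩}) ?_]
    · rw [Finset.sum_pair hne]
      simp [mul_assoc]
    · intro η hη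
      simp only [Function.mem_support, ne_eq, ite_eq_right_iff, one_ne_zero, imp_false,
        not_not, hiff] at hη
      rcases hη with e | e <;> simp [Subtype.ext_iff, e]
  · rw [if_neg hQ]
    refine (finsum_congr fun η => if_neg ?_).trans finsum_zero
    rintro (e | e) <;> apply hQ
    · have : g = (η : SL(2, ℤ))⁻¹ * (h * k) := by rw [(hiff _ _).mp e]; group
      rw [this, rightCoset_mul_left (inv_mem η.2)]
    · have : g = (η : SL(2, ℤ))⁻¹ * (h * -k) := by rw [(hiff _ _).mp e]; group
      rw [this, rightCoset_mul_left (inv_mem η.2), show h * -k = -(h * k) by simp, rightCoset_neg]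

open scoped Classical in
theorem crossCount_jump (h g : SL(2, ℤ)) :
    crossCount N (mat h *ᵥ vecZero) (mat h *ᵥ vecInfty) (g • UpperHalfPlane.I) (g • rho) =
      (if rightCoset N g = rightCoset N h then 2 else 0) -
        (if rightCoset N g = rightCoset N (h * ModularGroup.S) then 2 else 0) := by
  classical
  have key : ∀ (η : Gamma0 N) (z : ℍ),
      crossD (mat h *ᵥ vecZero) (mat h *ᵥ vecInfty) (η • g • z) =
        crossD vecZero vecInfty ((h⁻¹ * η * g) • z) := fun η z => by
    rw [crossD_mulVec (by rw [det_mat]; exact one_pos), ← mat_inv, act_mat, Subgroup.smul_def,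
      mul_smul, mul_smul]
  rw [crossCount]
  simp only [key, crossD_jump]
  rw [finsum_sub_distrib, sum_fiber_pm, sum_fiber_pm, mul_one]
  all_goals
    refine Set.Finite.subset (Set.Finite.preimage (Subtype.val_injective.injOn)
      (Set.toFinite {h * (1 : SL(2, ℤ)) * g⁻¹, h * -1 * g⁻¹, h * ModularGroup.S * g⁻¹,
        h * -ModularGroup.S * g⁻¹})) fun η hη => ?_
    simp only [Function.mem_support, ne_eq, ite_eq_right_iff, one_ne_zero, imp_false,
      not_not] at hη
    rcases hη with e | e <;>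
      simp only [Set.mem_preimage, Set.mem_insert_iff, Set.mem_singleton_iff] <;>
      rw [show (η : SL(2, ℤ)) = h * (h⁻¹ * η * g) * g⁻¹ by group, e] <;> simp

/-- Right multiplication of the representatives is the inverse left action on cosets. -/
theorem rightCoset_mul_right (g k : SL(2, ℤ)) :
    rightCoset N (g * k) = k⁻¹ • rightCoset N g := by
  simp [rightCoset, _root_.mul_inv_rev]

/-- Right multiplication by `S` is an involution of the cosets. -/
theorem rightCoset_mul_S_mul_S (g : SL(2, ℤ)) :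
    rightCoset N (g * ModularGroup.S * ModularGroup.S) = rightCoset N g := by
  rw [mul_assoc, show ModularGroup.S * ModularGroup.S = -1 by
    ext i j; fin_cases i <;> fin_cases j <;> simp [ModularGroup.coe_S],
    show g * (-1) = -g by simp, rightCoset_neg]

/-- The Manin map is the sum of the unimodular symbols of the coset representatives. -/
theorem maninMap_apply_sum [NeZero N] [Fintype (SL(2, ℤ) ⧸ Gamma0 N)]
    (d : SL(2, ℤ) ⧸ Gamma0 N → ℤ) : maninMap d = ∑ Q, d Q • unimod N (cosetRep Q) := by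
  simp only [maninMap, Fintype.linearCombination_apply]
  exact Finset.sum_congr (by ext; simp) fun _ _ => rfl

/-- Along `g i → g ρ`, a combination of crossing counts jumps by twice its coefficient at the coset
of `g` minus twice its coefficient at the coset of `g S`. -/
theorem sum_crossCount_jump [Fintype (SL(2, ℤ) ⧸ Gamma0 N)] (c : SL(2, ℤ) ⧸ Gamma0 N → ℤ)
    (g : SL(2, ℤ)) :
    ∑ Q, c Q * crossCount N (mat (cosetRep Q) *ᵥ vecZero) (mat (cosetRep Q) *ᵥ vecInfty)
        (g • UpperHalfPlane.I) (g • rho) =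
      2 * c (rightCoset N g) - 2 * c (rightCoset N (g * ModularGroup.S)) := by
  classical
  simp only [crossCount_jump, rightCoset_cosetRep]
  have hS : ∀ Q : SL(2, ℤ) ⧸ Gamma0 N,
      rightCoset N g = rightCoset N (cosetRep Q * ModularGroup.S) ↔
        Q = rightCoset N (g * ModularGroup.S) := by
    intro Q
    rw [rightCoset_mul_right, rightCoset_cosetRep]
    constructor
    · intro he
      rw [← rightCoset_mul_S_mul_S g, rightCoset_mul_right] at he
      exact ((MulAction.injective _) he).symm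
    · rintro rfl
      rw [← rightCoset_mul_right, rightCoset_mul_S_mul_S]
  simp only [hS, mul_sub, Finset.sum_sub_distrib, mul_ite, mul_zero]
  simp [mul_comm]

/-- If the crossing map of a combination of unimodular symbols vanishes modulo `p`, its potential
at the points `g i` and `g ρ` descends modulo `p` to functions on the cosets, invariant under `S`
and `τ` respectively, whose difference is twice the jump of the coefficients. -/
theorem exists_potential_mod [NeZero N] {p : ℕ} (c : SL(2, ℤ) ⧸ Gamma0 N → ℤ)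
    (h : ∀ γ, (p : ℤ) ∣ psi N (maninMap c) γ) :
    ∃ a b : SL(2, ℤ) ⧸ Gamma0 N → ZMod p,
      (∀ g, a (rightCoset N (g * ModularGroup.S)) = a (rightCoset N g)) ∧
      (∀ g, b (rightCoset N (g * tau)) = b (rightCoset N g)) ∧
      ∀ g, b (rightCoset N g) - a (rightCoset N g) =
        2 * (c (rightCoset N g) : ZMod p) -
          2 * (c (rightCoset N (g * ModularGroup.S)) : ZMod p) := by
  let _ := Fintype.ofFinite (SL(2, ℤ) ⧸ Gamma0 N)
  set pot : ℍ → ℤ := fun z => ∑ Q, c Q *
    crossCount N (mat (cosetRep Q) *ᵥ vecZero) (mat (cosetRep Q) *ᵥ vecInfty) UpperHalfPlane.I z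
  have hpsi : ∀ (γ : Gamma0 N) (z : ℍ), pot (γ • z) - pot z =
      psi N (maninMap c) (Additive.ofMul γ) := by
    intro γ z
    simp only [pot, maninMap_apply_sum, map_sum, map_zsmul, AddMonoidHom.finsetSum_apply,
      AddMonoidHom.smul_apply, ← Finset.sum_sub_distrib, unimod, psi_symb, smul_eq_mul]
    refine Finset.sum_congr rfl fun Q _ => ?_
    rw [crossHom_apply _ _ γ z, ← crossCount_add _ _ UpperHalfPlane.I z (γ • z)]
    ring
  have hinv : ∀ (z : ℍ) (g : SL(2, ℤ)),
      (pot (g • z) : ZMod p) = (pot (cosetRep (rightCoset N g) • z) : ZMod p) := by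
    intro z g
    set r := cosetRep (rightCoset N g)
    have hmem : g * r⁻¹ ∈ Gamma0 N := by rw [← rightCoset_eq_iff, rightCoset_cosetRep]
    have e : g • z = (⟨_, hmem⟩ : Gamma0 N) • (r • z) := by
      rw [Subgroup.smul_def, ← mul_smul, inv_mul_cancel_right]
    have h2 := hpsi ⟨_, hmem⟩ (r • z)
    rw [← e] at h2
    rw [← sub_eq_zero, ← Int.cast_sub, h2, ZMod.intCast_zmod_eq_zero_iff_dvd]
    exact h _
  refine ⟨fun Q => (pot (cosetRep Q • UpperHalfPlane.I) : ZMod p),
    fun Q => (pot (cosetRep Q • rho) : ZMod p), fun g => ?_, fun g => ?_, fun g => ?_⟩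
  · simp only [← hinv, mul_smul, S_smul_I]
  · simp only [← hinv, mul_smul, tau_smul_rho]
  · simp only [← hinv]
    have hd : pot (g • rho) - pot (g • UpperHalfPlane.I) = ∑ Q, c Q *
        crossCount N (mat (cosetRep Q) *ᵥ vecZero) (mat (cosetRep Q) *ᵥ vecInfty)
          (g • UpperHalfPlane.I) (g • rho) := by
      simp only [pot, ← Finset.sum_sub_distrib]
      refine Finset.sum_congr rfl fun Q _ => ?_
      rw [← crossCount_add _ _ UpperHalfPlane.I (g • UpperHalfPlane.I) (g • rho)]
      ring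
    rw [← Int.cast_sub, hd, sum_crossCount_jump]
    push_cast
    ring

/-- An `S`-invariant combination of unimodular symbols is killed by `2`. -/
theorem two_smul_maninMap_eq_zero [NeZero N] (E : SL(2, ℤ) ⧸ Gamma0 N → ℤ)
    (hE : ∀ g, E (rightCoset N (g * ModularGroup.S)) = E (rightCoset N g)) :
    (2 : ℤ) • maninMap E = 0 := by
  let _ := Fintype.ofFinite (SL(2, ℤ) ⧸ Gamma0 N)
  set π := MulAction.toPerm (α := SL(2, ℤ)) (β := SL(2, ℤ) ⧸ Gamma0 N) ModularGroup.S⁻¹
  have hπ : ∀ Q, π Q = rightCoset N (cosetRep Q * ModularGroup.S) := fun Q => by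
    rw [rightCoset_mul_right, rightCoset_cosetRep]; rfl
  have : maninMap E = -maninMap E := by
    conv_lhs => rw [maninMap_apply_sum, ← Equiv.sum_comp π (fun Q => E Q • unimod N (cosetRep Q))]
    rw [maninMap_apply_sum, ← Finset.sum_neg_distrib]
    refine Finset.sum_congr rfl fun Q _ => ?_
    rw [hπ, ← unimod_eq_cosetRep, unimod_mul_S, smul_neg, hE, rightCoset_cosetRep]
  rw [two_zsmul]; exact eq_neg_iff_add_eq_zero.mp this

/-- A `τ`-invariant combination of unimodular symbols is killed by `3`. -/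
theorem three_smul_maninMap_eq_zero [NeZero N] (B : SL(2, ℤ) ⧸ Gamma0 N → ℤ)
    (hB : ∀ g, B (rightCoset N (g * tau)) = B (rightCoset N g)) :
    (3 : ℤ) • maninMap B = 0 := by
  let _ := Fintype.ofFinite (SL(2, ℤ) ⧸ Gamma0 N)
  set π := MulAction.toPerm (α := SL(2, ℤ)) (β := SL(2, ℤ) ⧸ Gamma0 N) tau⁻¹
  have hπ : ∀ Q, π Q = rightCoset N (cosetRep Q * tau) := fun Q => by
    rw [rightCoset_mul_right, rightCoset_cosetRep]; rfl
  have hBπ : ∀ Q, B (π Q) = B Q := fun Q => by rw [hπ, hB, rightCoset_cosetRep]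
  have h1 : maninMap B = ∑ Q, B Q • unimod N (cosetRep Q * tau) := by
    rw [maninMap_apply_sum, ← Equiv.sum_comp π (fun Q => B Q • unimod N (cosetRep Q))]
    refine Finset.sum_congr rfl fun Q _ => ?_
    rw [hBπ, hπ, ← unimod_eq_cosetRep]
  have h2 : maninMap B = ∑ Q, B Q • unimod N (cosetRep Q * tau * tau) := by
    rw [h1, ← Equiv.sum_comp π (fun Q => B Q • unimod N (cosetRep Q * tau))]
    refine Finset.sum_congr rfl fun Q _ => ?_
    have hmem : cosetRep (π Q) * (cosetRep Q * tau)⁻¹ ∈ Gamma0 N := by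
      rw [← rightCoset_eq_iff, rightCoset_cosetRep, hπ]
    rw [hBπ, ← unimod_mul_left hmem (cosetRep Q * tau * tau)]
    congr 2
    group
  rw [show (3 : ℤ) • maninMap B = maninMap B + maninMap B + maninMap B by
    rw [show (3 : ℤ) = 1 + 1 + 1 by norm_num, add_smul, add_smul, one_smul]]
  nth_rewrite 1 [maninMap_apply_sum B]
  nth_rewrite 1 [h1]
  rw [h2, ← Finset.sum_add_distrib, ← Finset.sum_add_distrib]
  refine Finset.sum_eq_zero fun Q _ => ?_
  rw [← smul_add, ← smul_add, unimod_triangle, smul_zero]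

/-- Modulo `p`, a symbol killed by the crossing map is a multiple of `p` up to torsion. -/
theorem eq_smul_add_torsion_of_psi [NeZero N] {p : ℕ} (hp : p.Prime) (hp2 : p ≠ 2) (x : ModSym N)
    (h : ∀ γ, (p : ℤ) ∣ psi N x γ) :
    ∃ y : ModSym N, ∃ k : ℤ, k ≠ 0 ∧ k • (x - (p : ℤ) • y) = 0 := by
  have := Fact.mk hp
  obtain ⟨c, rfl⟩ := maninMap_surjective x
  obtain ⟨a, b, haS, hbτ, hjump⟩ := exists_potential_mod c h
  set e : SL(2, ℤ) ⧸ Gamma0 N → ZMod p := fun Q => 4 * (c Q : ZMod p) - b Q with he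
  have heS : ∀ g, e (rightCoset N (g * ModularGroup.S)) = e (rightCoset N g) := fun g => by
    have h1 := hjump g
    have h2 := hjump (g * ModularGroup.S)
    rw [haS, rightCoset_mul_S_mul_S] at h2
    simp only [he]
    linear_combination h1 - h2
  set B : SL(2, ℤ) ⧸ Gamma0 N → ℤ := fun Q => ((b Q).val : ℤ) with hBdef
  set E : SL(2, ℤ) ⧸ Gamma0 N → ℤ := fun Q => ((e Q).val : ℤ) with hEdef
  have hdvd : ∀ Q, (p : ℤ) ∣ 4 * c Q - B Q - E Q := fun Q => by
    rw [← ZMod.intCast_zmod_eq_zero_iff_dvd]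
    simp [hBdef, hEdef, he]
  choose R hR using hdvd
  have hE0 : (2 : ℤ) • maninMap E = 0 :=
    two_smul_maninMap_eq_zero E fun g => by simp [hEdef, heS]
  have hB0 : (3 : ℤ) • maninMap B = 0 :=
    three_smul_maninMap_eq_zero B fun g => by simp [hBdef, hbτ]
  have h4 : (4 : ℤ) • maninMap c - (p : ℤ) • maninMap R = maninMap B + maninMap E := by
    rw [← map_smul, ← map_smul, ← map_sub, ← map_add]
    congr 1
    funext Q
    simp only [Pi.sub_apply, Pi.smul_apply, Pi.add_apply, smul_eq_mul]
    linear_combination hR Q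
  obtain ⟨u, v, huv⟩ : IsCoprime (4 : ℤ) (p : ℤ) := by
    have h2 : IsCoprime ((2 : ℕ) : ℤ) (p : ℤ) :=
      Nat.Coprime.isCoprime ((Nat.coprime_primes Nat.prime_two hp).mpr fun e => hp2 e.symm)
    simpa using h2.pow_left (m := 2)
  refine ⟨v • maninMap c + u • maninMap R, 6, by norm_num, ?_⟩
  have e : maninMap c - (p : ℤ) • (v • maninMap c + u • maninMap R) =
      u • (maninMap B + maninMap E) := by
    rw [← h4]
    conv_lhs => enter [1]; rw [← one_smul ℤ (maninMap c), ← huv]
    module
  rw [e]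
  calc (6 : ℤ) • u • (maninMap B + maninMap E)
      = (2 * u) • ((3 : ℤ) • maninMap B) + (3 * u) • ((2 : ℤ) • maninMap E) := by module
    _ = 0 := by rw [hB0, hE0, smul_zero, smul_zero, add_zero]

end Fermat.Agent.LevelRaising

end
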