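import Mathlib.Algebra.Module.Torsion.Free
import Mathlib.Algebra.Module.Torsion.Basic
import Mathlib.Algebra.Field.ZMod
import Mathlib.LinearAlgebra.Basis.VectorSpace
import Mathlib.LinearAlgebra.FreeModule.PID
import Mathlib.LinearAlgebra.Dual.Lemmas
import Mathlib.LinearAlgebra.Dimension.Finite
import Mathlib.Algebra.Module.ZMod
import Fermat.Agent.LevelRaising.Manin

/-!
# The lattice of integral functionals on modular symbols

The integral functionals form a finitely generated group with a dual system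
(`exists_dual_system`), so that every `ZMod p`-valued functional on them is evaluation at a symbol
(`exists_eq_eval`).
-/

set_option autoImplicit false

namespace Fermat.Agent.LevelRaising

open scoped MatrixGroups

/-- `x` is divisible by `p` in the lattice of modular symbols modulo torsion. -/
def DvdModTorsion (p : ℕ) {M : ℕ} (x : ModSym M) : Prop :=
  ∀ φ : ModSym M →+ ℤ, (p : ℤ) ∣ φ x

/-- Divisibility up to torsion is preserved by homomorphisms. -/
theorem DvdModTorsion.map {p M L : ℕ} {x : ModSym M} (hx : DvdModTorsion p x)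
    (f : ModSym M →+ ModSym L) : DvdModTorsion p (f x) := fun φ => hx (φ.comp f)

variable {N : ℕ} [NeZero N]

/-- A dual basis of the lattice of modular symbols modulo torsion. -/
theorem exists_dual_system :
    ∃ (n : ℕ) (m : Fin n → ModSym N) (c : Fin n → (ModSym N →+ ℤ)),
      ∀ Z : ModSym N →+ ℤ, Z = ∑ i, Z (m i) • c i := by
  set T := Submodule.torsion ℤ (ModSym N)
  have b := Module.finBasis ℤ (ModSym N ⧸ T)
  choose m hm using fun i => Submodule.mkQ_surjective T (b i)
  refine ⟨_, m, fun i => ((b.coord i).comp T.mkQ).toAddMonoidHom, fun Z => ?_⟩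
  have hT : T ≤ LinearMap.ker Z.toIntLinearMap := by
    intro x hx
    obtain ⟨a, ha⟩ := (Submodule.mem_torsion_iff x).mp hx
    have h2 := congrArg Z ha
    rw [Submonoid.smul_def, map_zsmul, map_zero, smul_eq_mul] at h2
    exact (mul_eq_zero.mp h2).resolve_left (nonZeroDivisors.coe_ne_zero a)
  set Z' := T.liftQ Z.toIntLinearMap hT
  refine AddMonoidHom.ext fun x => ?_
  rw [AddMonoidHom.finsetSum_apply]
  calc Z x = Z' (T.mkQ x) := rfl
    _ = Z' (∑ i, b.repr (T.mkQ x) i • b i) := by rw [b.sum_repr]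
    _ = ∑ i, b.repr (T.mkQ x) i * Z' (b i) := by simp only [map_sum, map_smul, smul_eq_mul]
    _ = _ := Finset.sum_congr rfl fun i _ => by
      rw [mul_comm, ← hm i]; rfl

/-- A `ZMod p`-valued functional on the lattice of functionals is evaluation at a symbol. -/
theorem exists_eq_eval (p : ℕ) (Λ : (ModSym N →+ ℤ) →+ ZMod p) :
    ∃ x : ModSym N, ∀ Z, Λ Z = (Z x : ZMod p) := by
  obtain ⟨n, m, c, hc⟩ := exists_dual_system (N := N)
  refine ⟨∑ i, ((Λ (c i)).cast : ℤ) • m i, fun Z => ?_⟩
  conv_lhs => rw [hc Z]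
  simp [map_sum, map_zsmul, zsmul_eq_mul, mul_comm]

instance finite_functionals : Module.Finite ℤ (ModSym N →+ ℤ) := by
  obtain ⟨n, m, c, hc⟩ := exists_dual_system (N := N)
  refine Module.Finite.of_surjective (Fintype.linearCombination ℤ c) fun Z =>
    ⟨fun i => Z (m i), ?_⟩
  rw [Fintype.linearCombination_apply, ← hc Z]

/-- A `ZMod p`-functional separating a point from a subgroup containing `p` times everything. -/
theorem exists_functional_ne_zero {p : ℕ} [Fact p.Prime] {V : Type*} [AddCommGroup V]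
    (S : AddSubgroup V) (hS : ∀ v : V, p • v ∈ S) {v : V} (hv : v ∉ S) :
    ∃ f : V →+ ZMod p, (∀ s ∈ S, f s = 0) ∧ f v ≠ 0 := by
  suffices key : ∀ (W : Type _) [AddCommGroup W] [Module (ZMod p) W] (π : V →+ W),
      π v ≠ 0 → (∀ s ∈ S, π s = 0) → ∃ f : V →+ ZMod p, (∀ s ∈ S, f s = 0) ∧ f v ≠ 0 by
    let _ : Module (ZMod p) (V ⧸ S) := AddCommGroup.zmodModule fun x => by
      obtain ⟨w, rfl⟩ := QuotientAddGroup.mk_surjective x
      rw [← QuotientAddGroup.mk_nsmul]
      exact (QuotientAddGroup.eq_zero_iff _).mpr (hS w)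
    exact key (V ⧸ S) (QuotientAddGroup.mk' S)
      (fun h => hv ((QuotientAddGroup.eq_zero_iff v).mp h))
      (fun s hs => (QuotientAddGroup.eq_zero_iff s).mpr hs)
  intro W _ _ π hπ hπS
  obtain ⟨g, hg⟩ := Module.Projective.exists_dual_ne_zero (ZMod p) hπ
  exact ⟨g.toAddMonoidHom.comp π, fun s hs => by simp [hπS s hs], hg⟩

end Fermat.Agent.LevelRaising
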