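import Mathlib.Algebra.Algebra.Subalgebra.Lattice
import Mathlib.RingTheory.Finiteness.Basic
import Mathlib.Data.Complex.Basic
import Fermat.Agent.LevelRaising.Dual
import Fermat.Agent.LevelRaising.Hecke

/-!
# The Hecke algebra on integral functionals

The commutative algebra `heckeSub` generated by the `T_ℓ` on integral functionals, and its
faithful finite module of functionals on functionals, spanned by the evaluations at symbols.
-/

set_option autoImplicit false

open Matrix CongruenceSubgroup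
open scoped MatrixGroups

namespace Fermat.Agent.LevelRaising

variable (M : ℕ)

/-- Pull back of integral functionals by `T_ℓ`. -/
noncomputable def pullT {ℓ : ℕ} (hℓ : ℓ.Prime) (hℓM : ¬ ℓ ∣ M) :
    Module.End ℤ (ModSym M →+ ℤ) :=
  (AddMonoidHom.mk' (fun Z : ModSym M →+ ℤ => Z.comp (symT M hℓ hℓM))
    fun _ _ => rfl).toIntLinearMap

/-- `pullT` precomposes with `symT`. -/
theorem pullT_apply {ℓ : ℕ} (hℓ : ℓ.Prime) (hℓM : ¬ ℓ ∣ M) (Z : ModSym M →+ ℤ) (z : ModSym M) :
    pullT M hℓ hℓM Z z = Z (symT M hℓ hℓM z) := rfl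

/-- The generators of the Hecke algebra on integral functionals. -/
def heckeGens : Set (Module.End ℤ (ModSym M →+ ℤ)) :=
  {t | ∃ (ℓ : ℕ) (hℓ : ℓ.Prime) (hℓM : ¬ ℓ ∣ M), t = pullT M hℓ hℓM}

/-- The Hecke algebra on integral functionals. -/
noncomputable def heckeSub : Subalgebra ℤ (Module.End ℤ (ModSym M →+ ℤ)) :=
  Algebra.adjoin ℤ (heckeGens M)

theorem heckeSub_comm (r s : heckeSub M) : r * s = s * r := by
  have : IsMulCommutative (Algebra.adjoin ℤ (heckeGens M)) := by
    refine Algebra.isMulCommutative_adjoin ℤ ?_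
    rintro _ ⟨ℓ, hℓ, hℓM, rfl⟩ _ ⟨ℓ', hℓ', hℓM', rfl⟩
    refine LinearMap.ext fun Z => AddMonoidHom.ext fun z => ?_
    simp only [Module.End.mul_apply, pullT_apply, symT_comm hℓ hℓM hℓ' hℓM']
  exact this.is_comm.comm r s

noncomputable instance heckeSubCommRing : CommRing (heckeSub M) :=
  { (inferInstance : Ring (heckeSub M)) with mul_comm := heckeSub_comm M }

variable {M}

/-- `T_ℓ` in the Hecke algebra. -/
noncomputable def heckeT' {ℓ : ℕ} (hℓ : ℓ.Prime) (hℓM : ¬ ℓ ∣ M) : heckeSub M :=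
  ⟨pullT M hℓ hℓM, Algebra.subset_adjoin ⟨ℓ, hℓ, hℓM, rfl⟩⟩

/-- `heckeT'` precomposes with `symT`. -/
theorem heckeT'_apply {ℓ : ℕ} (hℓ : ℓ.Prime) (hℓM : ¬ ℓ ∣ M) (Z : ModSym M →+ ℤ) (z : ModSym M) :
    (heckeT' hℓ hℓM : Module.End ℤ (ModSym M →+ ℤ)) Z z = Z (symT M hℓ hℓM z) := rfl

/-- An integer of the Hecke algebra multiplies values by that integer. -/
theorem intCast_heckeSub_apply (a : ℤ) (Z : ModSym M →+ ℤ) (z : ModSym M) :
    ((a : heckeSub M) : Module.End ℤ (ModSym M →+ ℤ)) Z z = a * Z z := by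
  rw [show ((a : heckeSub M) : Module.End ℤ (ModSym M →+ ℤ)) = (a : Module.End ℤ _) from
    map_intCast (heckeSub M).val a]
  simp [Module.End.intCast_apply]

/-- Integral functionals on the lattice of functionals. -/
noncomputable instance dualModule : Module (heckeSub M) ((ModSym M →+ ℤ) →+ ℤ) where
  smul r d := d.comp ((r : Module.End ℤ (ModSym M →+ ℤ))).toAddMonoidHom
  one_smul d := AddMonoidHom.ext fun Z => rfl
  mul_smul r s d := AddMonoidHom.ext fun Z => by
    show d ((r * s : heckeSub M).1 Z) = d (s.1 (r.1 Z))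
    rw [heckeSub_comm M r s]; rfl
  smul_zero r := AddMonoidHom.ext fun Z => rfl
  smul_add r d e := AddMonoidHom.ext fun Z => rfl
  add_smul r s d := AddMonoidHom.ext fun Z => map_add d (r.1 Z) (s.1 Z)
  zero_smul d := AddMonoidHom.ext fun Z => map_zero d

/-- The action on the double dual is precomposition. -/
theorem dual_smul_apply (r : heckeSub M) (d : (ModSym M →+ ℤ) →+ ℤ) (Z : ModSym M →+ ℤ) :
    (r • d) Z = d (r.1 Z) := rfl

/-- Evaluation at a symbol. -/
noncomputable def evalSym (M : ℕ) : ModSym M →+ ((ModSym M →+ ℤ) →+ ℤ) :=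
  AddMonoidHom.eval

@[simp] theorem evalSym_apply (z : ModSym M) (Z : ModSym M →+ ℤ) : evalSym M z Z = Z z := rfl

/-- `T_ℓ` moves an evaluation to the image of the symbol. -/
theorem heckeT'_smul_eval {ℓ : ℕ} (hℓ : ℓ.Prime) (hℓM : ¬ ℓ ∣ M) (z : ModSym M) :
    heckeT' hℓ hℓM • evalSym M z = evalSym M (symT M hℓ hℓM z) := rfl

/-- An element of the Hecke algebra killing all evaluations is zero. -/
theorem eq_zero_of_smul_eval {r : heckeSub M} (h : ∀ z, r • evalSym M z = 0) : r = 0 :=
  Subtype.ext (LinearMap.ext fun Z => AddMonoidHom.ext fun z => DFunLike.congr_fun (h z) Z)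

variable [NeZero M]

/-- Functionals and double functionals have finite expansions in evaluations at symbols. -/
theorem exists_dual_expansion :
    ∃ (n : ℕ) (m : Fin n → ModSym M) (c : Fin n → (ModSym M →+ ℤ)),
      (∀ Z : ModSym M →+ ℤ, Z = ∑ i, Z (m i) • c i) ∧
      ∀ d : (ModSym M →+ ℤ) →+ ℤ, d = ∑ i, d (c i) • evalSym M (m i) := by
  obtain ⟨n, m, c, hc⟩ := exists_dual_system (N := M)
  refine ⟨n, m, c, hc, fun d => AddMonoidHom.ext fun Z => ?_⟩
  conv_lhs => rw [hc Z]
  simp [map_sum, map_zsmul, mul_comm]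

/-- The evaluations at symbols span the dual module. -/
theorem span_evalSym : Submodule.span (heckeSub M) (Set.range (evalSym M)) = ⊤ := by
  refine Submodule.eq_top_iff'.mpr fun d => ?_
  obtain ⟨n, m, c, -, hd⟩ := exists_dual_expansion (M := M)
  rw [hd d]
  exact Submodule.sum_mem _ fun i _ =>
    zsmul_mem (Submodule.subset_span (Set.mem_range_self (m i))) _

instance finite_dual : Module.Finite (heckeSub M) ((ModSym M →+ ℤ) →+ ℤ) := by
  obtain ⟨n, m, c, -, hd⟩ := exists_dual_expansion (M := M)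
  refine ⟨Submodule.fg_def.mpr ⟨Set.range fun i => evalSym M (m i), Set.finite_range _, ?_⟩⟩
  refine Submodule.eq_top_iff'.mpr fun d => ?_
  rw [hd d]
  exact Submodule.sum_mem _ fun i _ => zsmul_mem (Submodule.subset_span (Set.mem_range_self i)) _

/-- A complex functional on modular symbols is determined by its values on a dual system. -/
theorem apply_eq_sum_of_dual {n : ℕ} {m : Fin n → ModSym M} {c : Fin n → (ModSym M →+ ℤ)}
    (hc : ∀ Z : ModSym M →+ ℤ, Z = ∑ i, Z (m i) • c i) (φ : ModSym M →+ ℂ) (z : ModSym M) :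
    φ z = ∑ i, φ (m i) * (c i z : ℂ) := by
  set T := Submodule.torsion ℤ (ModSym M)
  have hz : ∀ Z : ModSym M →+ ℤ, Z (z - ∑ i, c i z • m i) = 0 := fun Z => by
    conv_lhs => rw [hc Z]
    have e := congrArg (fun W : ModSym M →+ ℤ => W z) (hc Z)
    have e' := fun j => congrArg (fun W : ModSym M →+ ℤ => W (m j)) (hc Z)
    simp only [AddMonoidHom.finsetSum_apply, AddMonoidHom.smul_apply, smul_eq_mul] at e e'
    simp only [map_sub, map_sum, map_zsmul, AddMonoidHom.finsetSum_apply, AddMonoidHom.smul_apply,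
      smul_eq_mul, ← e, ← e']
    rw [sub_eq_zero, e]
    exact Finset.sum_congr rfl fun i _ => mul_comm _ _
  have hmem : T.mkQ (z - ∑ i, c i z • m i) = 0 :=
    (Module.forall_dual_apply_eq_zero_iff ℤ _).mp fun g => hz (g.comp T.mkQ).toAddMonoidHom
  obtain ⟨a, ha⟩ :=
    (Submodule.mem_torsion_iff _).mp ((Submodule.Quotient.mk_eq_zero T).mp hmem)
  have h2 := congrArg φ ha
  rw [Submonoid.smul_def, map_zsmul, map_zero, zsmul_eq_mul] at h2
  have h3 := (mul_eq_zero.mp h2).resolve_left (Int.cast_ne_zero.mpr (nonZeroDivisors.coe_ne_zero a))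
  rw [map_sub, map_sum, sub_eq_zero] at h3
  rw [h3]
  exact Finset.sum_congr rfl fun i _ => by rw [map_zsmul, zsmul_eq_mul, mul_comm]

end Fermat.Agent.LevelRaising
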