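import Fermat.Agent.HeckeCohom.Systems
import Fermat.Agent.LevelRaising.Hecke

/-!
# Comparison with the coset systems of periods

The transfers of `T_ℓ` and `U_q` agree with the coset systems used for periods of cusp forms.
-/

set_option autoImplicit false

noncomputable section

open Matrix CongruenceSubgroup ModularCurve
open scoped MatrixGroups OnePoint

namespace Fermat.Agent.LevelRaising

open HeckeLattice (CosetSystem)

theorem transfer_eq_system {M : ℕ} {ι κ : Type*} [Fintype ι] [Fintype κ] {g : ι → Mat}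
    (hg : IsCorr M M g) (D : CosetSystem (Gamma0 M) κ) (e : ι ≃ κ)
    (he : ∀ i, D.β (e i) = toGL (g i)) {B : Type*} [AddCommGroup B]
    (φ : Additive (Gamma0 M) →+ B) : hg.transfer φ = D.transfer φ := by
  refine AddMonoidHom.ext fun x => ?_
  obtain ⟨γ, rfl⟩ : ∃ γ, Additive.ofMul γ = x := ⟨Additive.toMul x, rfl⟩
  rw [IsCorr.transfer_apply, CosetSystem.transfer_apply,
    ← e.sum_comp fun x => φ (Additive.ofMul (D.cocycle γ x))]
  refine Finset.sum_congr rfl fun i _ => ?_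
  have h1 : ∀ d : Gamma0 M, HeckeLattice.toGL d = toGL (mat (d : SL(2, ℤ))) := fun d => by
    rw [toGL_mat]; rfl
  rw [(D.eq_of_rep_mul (γ := γ) (g := hg.δ γ i) (x := e i) (y := e (hg.σ γ i)) ?_).2]
  have hd : ∀ d : Gamma0 M, 0 < (mat (d : SL(2, ℤ))).det := fun d => by
    rw [det_mat]; exact one_pos
  rw [he, he, h1, h1, ← toGL_mul (hg.det_pos _) (hd _), ← toGL_mul (hd _) (hg.det_pos _), hg.spec]

/-- The index equivalence for `T_ℓ`. -/
def idxEquiv (ℓ : ℕ) [NeZero ℓ] : Fin ℓ ⊕ Unit ≃ HeckeLattice.Idx ℓ where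
  toFun := Sum.elim (fun b => (((b : ℕ) : ZMod ℓ) : HeckeLattice.Idx ℓ)) fun _ => ∞
  invFun x := x.elim (Sum.inr ()) fun j => Sum.inl ⟨j.val, ZMod.val_lt j⟩
  left_inv i := by
    rcases i with b | u
    · show Sum.inl _ = Sum.inl _
      exact congrArg Sum.inl (Fin.ext (ZMod.val_natCast_of_lt b.isLt))
    · rfl
  right_inv x := by
    cases x using OnePoint.rec with
    | infty => rfl
    | coe j =>
      show (((j.val : ℕ) : ZMod ℓ) : HeckeLattice.Idx ℓ) = _
      rw [ZMod.natCast_zmod_val]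

theorem heckeMatrix_eq_toGL {ℓ : ℕ} (hℓ : ℓ ≠ 0) (b : Fin ℓ) :
    ModularForm.heckeMatrix ℓ (b : ℕ) = toGL (tMat ℓ (.inl b)) := by
  apply Units.ext
  rw [val_toGL (by rw [det_tMat]; exact_mod_cast Nat.pos_of_ne_zero hℓ)]
  ext i j
  fin_cases i <;> fin_cases j <;> simp [tMat, hℓ]

/-- The transfer of `T_ℓ` is the transfer of its coset system. -/
theorem transfer_T_eq {N ℓ : ℕ} [Fact ℓ.Prime] (hℓ : ℓ.Prime) (hℓN : ¬ ℓ ∣ N) {B : Type*}
    [AddCommGroup B] (φ : Additive (Gamma0 N) →+ B) :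
    (isCorr_T hℓ hℓN).transfer φ = HeckeLattice.transfer hℓN φ := by
  have : NeZero ℓ := ⟨hℓ.ne_zero⟩
  refine transfer_eq_system (isCorr_T hℓ hℓN) _ (idxEquiv ℓ) (fun i => ?_) φ
  show HeckeLattice.rep ℓ _ = _
  rcases i with b | u
  · show ModularForm.heckeMatrix ℓ (((b : ℕ) : ZMod ℓ)).val = _
    rw [ZMod.val_natCast_of_lt b.isLt, heckeMatrix_eq_toGL hℓ.ne_zero]
  · show ModularForm.heckeDiagMatrix ℓ = _
    apply Units.ext
    rw [val_toGL (by rw [det_tMat]; exact_mod_cast hℓ.pos)]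
    ext i j
    fin_cases i <;> fin_cases j <;> simp [tMat, hℓ.ne_zero]

/-- The transfer of `U_q` is the transfer of its coset system. -/
theorem transfer_U_eq {M q : ℕ} [NeZero q] (hq : q.Prime) (hqM : q ∣ M) {B : Type*}
    [AddCommGroup B] (φ : Additive (Gamma0 M) →+ B) :
    (isCorr_U hq hqM).transfer φ = HeckeCohom.transferU hqM φ := by
  refine transfer_eq_system (isCorr_U hq hqM) _ (ZMod.finEquiv q).toEquiv (fun b => ?_) φ
  show HeckeCohom.repU q _ = _
  rw [uMat_eq, ← heckeMatrix_eq_toGL hq.ne_zero, HeckeCohom.repU]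
  congr 1
  obtain _ | n := q
  · exact absurd rfl hq.ne_zero
  · rfl

/-- `T_ℓ` on functionals is the transfer on their cycle restrictions. -/
theorem comp_symT_cycleHom {N ℓ : ℕ} [Fact ℓ.Prime] (hℓ : ℓ.Prime) (hℓN : ¬ ℓ ∣ N) {B : Type*}
    [AddCommGroup B] (φ : ModSym N →+ B) :
    HeckeLattice.transfer hℓN (φ.comp (cycleHom N)) =
      (φ.comp (symT N hℓ hℓN)).comp (cycleHom N) := by
  rw [← transfer_T_eq hℓ hℓN, IsCorr.transfer_comp_cycleHom]
  rfl

/-- `U_q` on functionals is the transfer on their cycle restrictions. -/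
theorem comp_symU_cycleHom {M q : ℕ} [NeZero q] (hq : q.Prime) (hqM : q ∣ M) {B : Type*}
    [AddCommGroup B] (φ : ModSym M →+ B) :
    HeckeCohom.transferU hqM (φ.comp (cycleHom M)) =
      (φ.comp (symU M hq hqM)).comp (cycleHom M) := by
  rw [← transfer_U_eq hq hqM, IsCorr.transfer_comp_cycleHom]
  rfl

end Fermat.Agent.LevelRaising
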