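import Mathlib.RingTheory.Finiteness.Nakayama
import Fermat.Prelude.Def_FLTPrelim_ModularRep
import Fermat.Agent.S21
import Fermat.Agent.HeckeEigen.Integral
import Fermat.Agent.CuspIntStr.Main
import Fermat.Agent.LevelRaising.Algebra
import Fermat.Agent.LevelRaising.Bridge

/-!
# Eigenforms as integral functionals modulo `p`

A congruence of an eigenform gives an integral functional on modular symbols that is eigen
modulo `p` with the same eigenvalues (`exists_mod_eigen`).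
-/

set_option autoImplicit false

noncomputable section

open Matrix CongruenceSubgroup ModularCurve ModularFormClass
open scoped MatrixGroups

namespace Fermat.Agent.LevelRaising

/-- Periods give parabolic homomorphisms. -/
theorem periodHomPair_parabolic {N : ℕ} [NeZero N]
    (x : CuspForm (Gamma0 N) 2 × CuspForm (Gamma0 N) 2) :
    ModularCurve.Period.IsParabolicHom (Gamma0 N) (periodHomPair N x) := by
  have h := LinearMap.mem_range_self (periodHomPair N) x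
  rw [(S21.result N).2] at h
  exact h

/-- The eigenvalue homomorphism of an eigenform on the Hecke algebra of functionals. -/
theorem exists_eigenvalueHom {N : ℕ} [NeZero N] {f : CuspForm (Gamma0 N) 2}
    (hf : f.IsNormalizedEigenform) :
    ∃ lam : heckeSub N →+* integralClosure ℤ ℂ, ∀ (ℓ : ℕ) (hℓ : ℓ.Prime) (hℓN : ¬ ℓ ∣ N),
      (lam (heckeT' hℓ hℓN) : ℂ) = qCoeff f ℓ := by
  set v := periodHomPair N (f, 0) with hv
  have hv0 : v ≠ 0 := fun h => hf.ne_zero (by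
    have := (S21.result N).1 (h.trans (map_zero (periodHomPair N)).symm)
    exact (Prod.mk.injEq _ _ _ _ ▸ this : f = 0 ∧ _).1)
  obtain ⟨φ₀, hφ₀⟩ := exists_comp_cycleHom_eq v (periodHomPair_parabolic (f, 0))
  obtain ⟨n, m, c, hc, -⟩ := exists_dual_expansion (M := N)
  let E : heckeSub N → (ModSym N →+ ℂ) → (ModSym N →+ ℂ) := fun r φ =>
    AddMonoidHom.mk' (fun z =>
        ∑ i, φ (m i) * (((r : Module.End ℤ (ModSym N →+ ℤ)) (c i) z : ℤ) : ℂ))
      fun x y => by simp [mul_add, Finset.sum_add_distrib]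
  have hE : ∀ r φ z, E r φ z =
      ∑ i, φ (m i) * (((r : Module.End ℤ (ModSym N →+ ℤ)) (c i) z : ℤ) : ℂ) := fun _ _ _ => rfl
  have hEadd : ∀ r s φ, E (r + s) φ = E r φ + E s φ := fun r s φ => AddMonoidHom.ext fun z => by
    rw [AddMonoidHom.add_apply, hE, hE, hE, ← Finset.sum_add_distrib]
    exact Finset.sum_congr rfl fun i _ => by
      rw [Subalgebra.coe_add, LinearMap.add_apply, AddMonoidHom.add_apply]; push_cast; ring
  have hEmul : ∀ r s φ, E (r * s) φ = E r (E s φ) := fun r s φ => AddMonoidHom.ext fun z => by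
    rw [hE, hE]
    have h1 : ∀ i, (((r * s : heckeSub N) : Module.End ℤ (ModSym N →+ ℤ)) (c i) z : ℂ) =
        ∑ j, (((s : Module.End ℤ (ModSym N →+ ℤ)) (c i) (m j) : ℤ) : ℂ) *
          (((r : Module.End ℤ (ModSym N →+ ℤ)) (c j) z : ℤ) : ℂ) := by
      intro i
      rw [Subalgebra.coe_mul, Module.End.mul_apply]
      conv_lhs => rw [hc ((s : Module.End ℤ (ModSym N →+ ℤ)) (c i))]
      simp [map_sum]
    simp only [h1, hE, Finset.mul_sum, Finset.sum_mul]
    rw [Finset.sum_comm]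
    exact Finset.sum_congr rfl fun j _ => Finset.sum_congr rfl fun i _ => by ring
  have hEint : ∀ (a : ℤ) φ, E (a : heckeSub N) φ = a • φ := fun a φ => AddMonoidHom.ext fun z => by
    rw [hE, AddMonoidHom.smul_apply, zsmul_eq_mul, apply_eq_sum_of_dual hc φ z, Finset.mul_sum]
    exact Finset.sum_congr rfl fun i _ => by rw [intCast_heckeSub_apply]; push_cast; ring
  let P : heckeSub N → ℂ → Prop := fun r α => ∀ φ : ModSym N →+ ℂ, ∀ t : ℂ,
    φ.comp (cycleHom N) = t • v → (E r φ).comp (cycleHom N) = (t * α) • v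
  have hT : ∀ (ℓ : ℕ) (hℓ : ℓ.Prime) (hℓN : ¬ ℓ ∣ N), P (heckeT' hℓ hℓN) (qCoeff f ℓ) := by
    intro ℓ hℓ hℓN φ t h
    have : Fact ℓ.Prime := ⟨hℓ⟩
    have e : E (heckeT' hℓ hℓN) φ = φ.comp (symT N hℓ hℓN) := AddMonoidHom.ext fun z => by
      rw [hE, AddMonoidHom.comp_apply, apply_eq_sum_of_dual hc φ]
      rfl
    rw [e, ← comp_symT_cycleHom hℓ hℓN, h, HeckeCohom.transfer_smul, hv,
      show HeckeLattice.transfer hℓN (periodHomPair N (f, 0)) =
        periodHomPair N (qCoeff f ℓ • (f, 0)) by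
          rw [← HeckeCohom.periodHomPair_heckeTLin hℓ hℓN]
          congr 1
          rw [Prod.smul_mk, smul_zero, map_zero, HeckeEigen.heckeTLin_apply_eigenform hf hℓ hℓN],
      map_smul, smul_smul]
  have hex : ∀ r, ∃ α, IsIntegral ℤ α ∧ P r α := by
    rintro ⟨r, hr⟩
    induction hr using Algebra.adjoin_induction with
    | mem x hx =>
      obtain ⟨ℓ, hℓ, hℓN, rfl⟩ := hx
      exact ⟨qCoeff f ℓ, HeckeEigen.isIntegral_qCoeff (CuspIntStr.hasIntegralStructure N 2) hf ℓ,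
        hT ℓ hℓ hℓN⟩
    | algebraMap a =>
      refine ⟨a, isIntegral_algebraMap, fun φ t h => ?_⟩
      rw [show (⟨algebraMap ℤ _ a, _⟩ : heckeSub N) = (a : heckeSub N) from
        Subtype.ext (by simp), hEint]
      refine AddMonoidHom.ext fun x => ?_
      have := DFunLike.congr_fun h x
      simp only [AddMonoidHom.comp_apply, AddMonoidHom.smul_apply, smul_eq_mul, zsmul_eq_mul]
        at this ⊢
      rw [this]; ring
    | add x y hx hy ihx ihy =>
      obtain ⟨α, iα, pα⟩ := ihx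
      obtain ⟨β, iβ, pβ⟩ := ihy
      refine ⟨α + β, iα.add iβ, fun φ t h => ?_⟩
      rw [show (⟨x + y, _⟩ : heckeSub N) = ⟨x, hx⟩ + ⟨y, hy⟩ from rfl, hEadd,
        AddMonoidHom.add_comp, pα φ t h, pβ φ t h, ← add_smul, mul_add]
    | mul x y hx hy ihx ihy =>
      obtain ⟨α, iα, pα⟩ := ihx
      obtain ⟨β, iβ, pβ⟩ := ihy
      refine ⟨α * β, iα.mul iβ, fun φ t h => ?_⟩
      rw [show (⟨x * y, _⟩ : heckeSub N) = ⟨x, hx⟩ * ⟨y, hy⟩ from rfl, hEmul,
        pα _ _ (pβ φ t h), mul_assoc, mul_comm β α]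
  have huniq : ∀ r α β, P r α → P r β → α = β := fun r α β hα hβ => by
    have h1 := (hα φ₀ 1 (by rw [hφ₀, one_smul])).symm.trans (hβ φ₀ 1 (by rw [hφ₀, one_smul]))
    rw [one_mul, one_mul] at h1
    exact smul_left_injective ℂ hv0 h1
  choose lam hint hP using hex
  have key : ∀ r α, P r α → lam r = α := fun r α h => huniq r _ _ (hP r) h
  have hlam_int : ∀ a : ℤ, lam a = a := fun a => key _ _ fun φ t h => by
    rw [hEint]
    refine AddMonoidHom.ext fun x => ?_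
    have := DFunLike.congr_fun h x
    simp only [AddMonoidHom.comp_apply, AddMonoidHom.smul_apply, smul_eq_mul, zsmul_eq_mul]
      at this ⊢
    rw [this]; ring
  have hadd : ∀ r s, lam (r + s) = lam r + lam s := fun r s => key _ _ fun φ t h => by
    rw [hEadd, AddMonoidHom.add_comp, hP r φ t h, hP s φ t h, ← add_smul, mul_add]
  have hmul : ∀ r s, lam (r * s) = lam r * lam s := fun r s => key _ _ fun φ t h => by
    rw [hEmul, hP r _ _ (hP s φ t h), mul_assoc, mul_comm (lam s)]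
  refine ⟨{ toFun := fun r => ⟨lam r, hint r⟩
            map_one' := Subtype.ext (by simpa using hlam_int 1)
            map_mul' := fun r s => Subtype.ext (hmul r s)
            map_zero' := Subtype.ext (by simpa using hlam_int 0)
            map_add' := fun r s => Subtype.ext (hadd r s) }, fun ℓ hℓ hℓN => ?_⟩
  exact key _ _ (hT ℓ hℓ hℓN)

/-- A functional which is eigen modulo `p`, with the eigenvalues of a prime of the Hecke algebra. -/
theorem exists_functional_of_ideal {N p : ℕ} [NeZero N] [Fact p.Prime] (n : Ideal (heckeSub N))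
    (hn : n ≠ ⊤) (hp : (p : heckeSub N) ∈ n) :
    ∃ x : ModSym N →+ ℤ, (∃ z, ¬ (p : ℤ) ∣ x z) ∧
      ∀ (ℓ : ℕ) (hℓ : ℓ.Prime) (hℓN : ¬ ℓ ∣ N) (a : ℤ),
        heckeT' hℓ hℓN - (a : heckeSub N) ∈ n →
          ∀ z, (p : ℤ) ∣ x (symT N hℓ hℓN z) - a * x z := by
  obtain ⟨k, m, c, hc, hd⟩ := exists_dual_expansion (M := N)
  set D := (ModSym N →+ ℤ) →+ ℤ
  set S : Submodule (heckeSub N) D := n • ⊤ with hS
  have hne : ∃ d : D, d ∉ S := by
    by_contra hall
    push Not at hall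
    obtain ⟨r, hr, hr0⟩ := Submodule.exists_sub_one_mem_and_smul_eq_zero_of_fg_of_le_smul n
      (⊤ : Submodule (heckeSub N) D) Module.Finite.fg_top (fun d _ => hall d)
    have h0 : r = 0 := eq_zero_of_smul_eval fun z => hr0 _ Submodule.mem_top
    rw [h0, zero_sub, neg_mem_iff] at hr
    exact hn ((Ideal.eq_top_iff_one n).mpr hr)
  obtain ⟨d, hd0⟩ := hne
  obtain ⟨f, hfS, hfd⟩ := exists_functional_ne_zero (p := p) S.toAddSubgroup (fun v => by
    have := Submodule.smul_mem_smul hp (Submodule.mem_top (x := v))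
    rwa [Nat.cast_smul_eq_nsmul] at this) hd0
  set x : ModSym N →+ ℤ := ∑ i, ((f (evalSym N (m i))).cast : ℤ) • c i
  have hx : ∀ z, (x z : ZMod p) = f (evalSym N z) := by
    intro z
    have e : evalSym N z = ∑ i, c i z • evalSym N (m i) := hd (evalSym N z)
    rw [e, map_sum]
    simp [x, mul_comm]
  refine ⟨x, ?_, fun ℓ hℓ hℓN a ha z => ?_⟩
  · by_contra hall
    push Not at hall
    refine hfd ?_
    rw [hd d, map_sum]
    refine Finset.sum_eq_zero fun i _ => ?_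
    rw [map_zsmul, ← hx, (ZMod.intCast_zmod_eq_zero_iff_dvd _ _).mpr (hall (m i)), smul_zero]
  · rw [← ZMod.intCast_zmod_eq_zero_iff_dvd, Int.cast_sub, Int.cast_mul, hx, hx]
    have h := hfS _ (Submodule.smul_mem_smul ha (Submodule.mem_top (x := evalSym N z)))
    rw [sub_smul, heckeT'_smul_eval, map_sub, Int.cast_smul_eq_zsmul, map_zsmul,
      zsmul_eq_mul] at h
    exact h

/-- A congruence of an eigenform gives an integral functional which is eigen modulo `p`. -/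
theorem exists_mod_eigen {N q p : ℕ} [NeZero N] [Fact p.Prime] (hq : q.Prime) (hqN : ¬ q ∣ N)
    {f : CuspForm (Gamma0 N) 2} (hf : f.IsNormalizedEigenform)
    {𝔪 : Ideal (integralClosure ℤ ℂ)} (hmax : 𝔪.IsMaximal)
    (hpm : (p : integralClosure ℤ ℂ) ∈ 𝔪) (a : ℕ → ℤ) (good : ℕ → Prop)
    (hcong : ∀ ℓ : ℕ, ℓ.Prime → good ℓ → ¬ ℓ ∣ N → ∃ α : integralClosure ℤ ℂ,
      (α : ℂ) = qCoeff f ℓ ∧ α - (a ℓ : integralClosure ℤ ℂ) ∈ 𝔪)
    (hLR : ∃ α : integralClosure ℤ ℂ, (α : ℂ) = qCoeff f q ∧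
      α ^ 2 - ((q : integralClosure ℤ ℂ) + 1) ^ 2 ∈ 𝔪) :
    ∃ (ε : ℤ) (x : ModSym N →+ ℤ), ε ^ 2 = 1 ∧ (∃ z, ¬ (p : ℤ) ∣ x z) ∧
      (∀ (ℓ : ℕ) (hℓ : ℓ.Prime) (hℓN : ¬ ℓ ∣ N), good ℓ →
        ∀ z, (p : ℤ) ∣ x (symT N hℓ hℓN z) - a ℓ * x z) ∧
      ∀ z, (p : ℤ) ∣ x (symT N hq hqN z) - ε * ((q : ℤ) + 1) * x z := by
  obtain ⟨lam, hlam⟩ := exists_eigenvalueHom hf
  obtain ⟨α, hα, hα2⟩ := hLR
  obtain ⟨ε, hε, hεm⟩ : ∃ ε : ℤ, ε ^ 2 = 1 ∧
      α - ((ε * ((q : ℤ) + 1) : ℤ) : integralClosure ℤ ℂ) ∈ 𝔪 := by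
    rcases hmax.isPrime.mem_or_mem (show (α - ((q : integralClosure ℤ ℂ) + 1)) *
        (α + ((q : integralClosure ℤ ℂ) + 1)) ∈ 𝔪 by convert hα2 using 1; ring) with h | h
    · exact ⟨1, one_pow 2, by push_cast; simpa using h⟩
    · exact ⟨-1, by norm_num, by convert h using 1; push_cast; ring⟩
  obtain ⟨x, hx0, hx⟩ := exists_functional_of_ideal (p := p) (Ideal.comap lam 𝔪)
    (Ideal.comap_ne_top lam hmax.ne_top) (by simpa using hpm)
  have hmem : ∀ (ℓ : ℕ) (hℓ : ℓ.Prime) (hℓN : ¬ ℓ ∣ N) (β : integralClosure ℤ ℂ) (b : ℤ),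
      (β : ℂ) = qCoeff f ℓ → β - (b : integralClosure ℤ ℂ) ∈ 𝔪 →
      heckeT' hℓ hℓN - (b : heckeSub N) ∈ Ideal.comap lam 𝔪 := by
    intro ℓ hℓ hℓN β b hβ hb
    rwa [Ideal.mem_comap, map_sub, map_intCast,
      show lam (heckeT' hℓ hℓN) = β from Subtype.ext ((hlam ℓ hℓ hℓN).trans hβ.symm)]
  refine ⟨ε, x, hε, hx0, fun ℓ hℓ hℓN hg => ?_, hx q hq hqN _ (hmem q hq hqN α _ hα hεm)⟩
  obtain ⟨β, hβ, hb⟩ := hcong ℓ hℓ hg hℓN
  exact hx ℓ hℓ hℓN _ (hmem ℓ hℓ hℓN β _ hβ hb)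

end Fermat.Agent.LevelRaising
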