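import Mathlib.RingTheory.Coprime.Lemmas
import Fermat.Agent.LevelRaising.Crossing
import Fermat.Agent.LevelRaising.Manin

/-!
# The crossing map on closed symbols

The crossing homomorphism of a closed symbol is parabolic
(`isParabolicHom_psi_cycleHom`).
-/

set_option autoImplicit false

noncomputable section

open Matrix CongruenceSubgroup UpperHalfPlane
open scoped MatrixGroups

namespace Fermat.Agent.LevelRaising

variable {N : ℕ}

theorem sign_pairRe_of_lt {v w : Vec} (hv : v 1 ≠ 0) (hw : w 1 ≠ 0) {z : ℂ}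
    (hz : |(vdet v w : ℝ)| < z.im) :
    SignType.sign (pairRe v w z) = SignType.sign ((v 1 * w 1 : ℤ) : ℝ) := by
  set A := (v 0 : ℝ) - v 1 * z.re
  set B := (w 0 : ℝ) - w 1 * z.re
  have hP : pairRe v w z = A * B + (v 1 : ℝ) * w 1 * z.im ^ 2 := by
    simp [pairRe, lineVal, A, B]; ring
  have hk : (1 : ℝ) ≤ ((v 1 : ℝ) * w 1) ^ 2 := by
    have h : (1 : ℤ) ≤ (v 1 * w 1) ^ 2 := by
      nlinarith [Int.one_le_abs (mul_ne_zero hv hw), sq_abs (v 1 * w 1), abs_nonneg (v 1 * w 1)]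
    exact_mod_cast h
  have hd : (v 1 : ℝ) * B - (w 1 : ℝ) * A = -(vdet v w : ℝ) := by simp [A, B, vdet]; ring
  have hlow : -((vdet v w : ℝ) ^ 2) ≤ (v 1 : ℝ) * w 1 * (A * B) := by
    have e : 4 * ((v 1 : ℝ) * w 1 * (A * B)) =
        ((v 1 : ℝ) * B + (w 1 : ℝ) * A) ^ 2 - (vdet v w : ℝ) ^ 2 := by
      linear_combination ((vdet v w : ℝ) - ((v 1 : ℝ) * B - (w 1 : ℝ) * A)) * hd
    nlinarith [sq_nonneg ((v 1 : ℝ) * B + (w 1 : ℝ) * A), sq_nonneg (vdet v w : ℝ)]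
  have hz2 : (vdet v w : ℝ) ^ 2 < z.im ^ 2 := by
    rw [← sq_abs (vdet v w : ℝ)]
    exact pow_lt_pow_left₀ hz (abs_nonneg _) two_ne_zero
  have hpos : 0 < pairRe v w z * ((v 1 : ℝ) * w 1) := by
    rw [hP]; nlinarith [sq_nonneg z.im]
  have hs : SignType.sign (pairRe v w z) * SignType.sign ((v 1 : ℝ) * w 1) = 1 := by
    rw [← sign_mul, sign_pos hpos]
  push_cast
  revert hs
  generalize SignType.sign (pairRe v w z) = s1
  generalize SignType.sign ((v 1 : ℝ) * w 1) = s2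
  revert s1 s2
  decide

theorem crossD_eq_of_high {v w : Vec} (hv : v 1 ≠ 0) (hw : w 1 ≠ 0) {z₁ z₂ : ℍ}
    (h₁ : |(vdet v w : ℝ)| < z₁.im) (h₂ : |(vdet v w : ℝ)| < z₂.im) :
    crossD v w z₁ = crossD v w z₂ := by
  rw [crossD, crossD, sign_mul, sign_mul, sign_pairRe_of_lt hv hw h₁,
    sign_pairRe_of_lt hv hw h₂]

theorem not_cuspRel_zero_infty (hN : 1 < N) : ¬ CuspRel N vecInfty vecZero := by
  rintro ⟨γ, hγ, a, b, ha, hb, e⟩
  have h0 := congrFun e 0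
  simp [vecZero, vecInfty, mat, mulVec, dotProduct, Fin.sum_univ_two, hb] at h0
  have hd := γ.det_coe
  rw [det_fin_two, h0] at hd
  have hdvd : (N : ℤ) ∣ 1 := by
    obtain ⟨k, hk⟩ := mem_Gamma0.mp hγ
    exact ⟨-(γ 0 1 * k), by rw [hk] at hd; linear_combination -hd⟩
  have := Int.le_of_dvd one_pos hdvd
  omega

/-- Every non zero vector is a multiple of a translate of the cusp `∞`. -/
theorem exists_SL_mulVec_infty {v : Vec} (hv : v ≠ 0) :
    ∃ σ : SL(2, ℤ), ∃ k : ℤ, k ≠ 0 ∧ v = k • (mat σ *ᵥ vecInfty) := by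
  obtain ⟨g, a, c, hg, hac, ha, hc⟩ : ∃ (g : ℕ) (a c : ℤ), 0 < g ∧ Int.gcd a c = 1 ∧
      v 0 = a * g ∧ v 1 = c * g := by
    refine Int.exists_gcd_one' (Nat.pos_of_ne_zero fun h0 => hv ?_)
    obtain ⟨h1, h2⟩ := Int.gcd_eq_zero_iff.mp h0
    ext i; fin_cases i <;> assumption
  obtain ⟨x, y, hxy⟩ := Int.isCoprime_iff_gcd_eq_one.mpr hac
  refine ⟨⟨!![a, -y; c, x], by rw [det_fin_two_of]; linear_combination hxy⟩, g,
    by exact_mod_cast hg.ne', ?_⟩
  ext i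
  fin_cases i <;> simp [mat, vecInfty, ha, hc, mul_comm]

/-- The crossing homomorphism of a closed symbol is parabolic. -/
theorem isParabolicHom_psi_cycleHom (hN : 1 < N) (x : Additive (Gamma0 N)) :
    ModularCurve.Period.IsParabolicHom (Gamma0 N) (psi N (cycleHom N x)) := by
  obtain ⟨γ, rfl⟩ : ∃ γ, Additive.ofMul γ = x := ⟨Additive.toMul x, rfl⟩
  intro π hπ
  obtain ⟨c, hc, ε, hε, hfix⟩ := exists_fixed_vec hπ
  obtain ⟨a, ha, hac⟩ : ∃ a : Vec, a ≠ 0 ∧ ¬ CuspRel N c a := by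
    by_cases h : CuspRel N c vecInfty
    · exact ⟨vecZero, vecZero_ne_zero, fun h' => not_cuspRel_zero_infty hN (h.symm.trans h')⟩
    · exact ⟨vecInfty, vecInfty_ne_zero, h⟩
  rw [cycleHom_eq N γ ha, psi_symb]
  set b := mat (γ : SL(2, ℤ)) *ᵥ a
  have hb : b ≠ 0 := mat_mulVec_ne_zero _ ha
  have hbc : ¬ CuspRel N c b := fun h' =>
    hac (h'.trans (CuspRel.symm ⟨γ, γ.2, 1, 1, one_ne_zero, one_ne_zero, rfl⟩))
  obtain ⟨σ, k, hk, rfl⟩ := exists_SL_mulVec_infty hc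
  set t : ℝ := |(vdet a b : ℝ)| + 1 with ht
  set u : ℍ := ⟨⟨0, t⟩, by rw [ht]; positivity⟩
  rw [crossHom_apply a b π (σ • u), crossCount]
  refine (finsum_congr fun η => ?_).trans finsum_zero
  rw [sub_eq_zero, Subgroup.smul_def, Subgroup.smul_def, Subgroup.smul_def, ← mul_smul,
    ← mul_smul, ← mul_smul]
  set π' := σ⁻¹ * (π : SL(2, ℤ)) * σ with hπ'
  have hπe : (η : SL(2, ℤ)) * (π : SL(2, ℤ)) * σ = (η : SL(2, ℤ)) * σ * π' := by
    rw [hπ']; group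
  rw [hπe, mul_smul ((η : SL(2, ℤ)) * σ) π', crossD_smul ((η : SL(2, ℤ)) * σ) a b (π' • u),
    crossD_smul ((η : SL(2, ℤ)) * σ) a b u]
  have hup : π' 1 0 = 0 := by
    have hfix' : mat (π : SL(2, ℤ)) *ᵥ (mat σ *ᵥ vecInfty) = ε • (mat σ *ᵥ vecInfty) := by
      rw [mulVec_smul, smul_comm] at hfix
      exact smul_right_injective _ hk hfix
    have h2 : mat π' *ᵥ vecInfty = ε • vecInfty := by
      rw [hπ', mat_mul, mat_mul, ← mulVec_mulVec, ← mulVec_mulVec, hfix', mulVec_smul,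
        mulVec_mulVec, mat_inv_mul, one_mulVec]
    simpa [vecInfty, mat, mulVec, dotProduct, Fin.sum_univ_two] using congrFun h2 1
  have hnz : ∀ w : Vec, w ≠ 0 → ¬ CuspRel N (k • (mat σ *ᵥ vecInfty)) w →
      (mat ((η : SL(2, ℤ)) * σ)⁻¹ *ᵥ w) 1 ≠ 0 := by
    intro w hw hrel h1
    set w' := mat ((η : SL(2, ℤ)) * σ)⁻¹ *ᵥ w with hw'
    have hw0 : w' 0 ≠ 0 := fun h0 => mat_mulVec_ne_zero (((η : SL(2, ℤ)) * σ)⁻¹) hw
      (by ext i; fin_cases i; exacts [h0, h1])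
    have he : w' = w' 0 • vecInfty := by ext i; fin_cases i <;> simp [vecInfty, h1]
    have hw2 : w = mat ((η : SL(2, ℤ)) * σ) *ᵥ w' := by
      rw [hw', mulVec_mulVec, ← mat_mul, mul_inv_cancel, mat_one, one_mulVec]
    refine hrel ⟨η, η.2, k, w' 0, hk, hw0, ?_⟩
    conv_lhs => rw [hw2, he]
    rw [mulVec_smul, mulVec_smul, mat_mul, ← mulVec_mulVec, smul_comm]
  refine crossD_eq_of_high (hnz a ha hac) (hnz b hb hbc) ?_ ?_ <;>
    rw [vdet_mulVec, det_mat, one_mul]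
  · have : (π' • u).im = u.im := by
      rw [ModularGroup.im_smul_eq_div_normSq]
      have hd := π'.det_coe
      rw [det_fin_two, hup, mul_zero, sub_zero] at hd
      rcases Int.eq_one_or_neg_one_of_mul_eq_one' hd with ⟨_, h11⟩ | ⟨_, h11⟩ <;>
        simp [denom, hup, h11]
    rw [this]; show _ < t; rw [ht]; linarith
  · show _ < t; rw [ht]; linarith

end Fermat.Agent.LevelRaising

end
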