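import Mathlib.Data.ZMod.Basic
import Fermat.Agent.LevelRaising.Hecke
import Fermat.Agent.LevelRaising.PsiParabolic

/-!
# `T_ℓ` on boundary symbols

For `ℓ ≡ 1 (mod N)` the operator `T_ℓ` acts on boundary symbols, hence on functionals killing
all closed symbols, as multiplication by `ℓ + 1`.
-/

set_option autoImplicit false

open Matrix CongruenceSubgroup
open scoped MatrixGroups

namespace Fermat.Agent.LevelRaising

variable {N ℓ : ℕ}

theorem cuspRel_mulVec_of_one_mod (hℓ : ℓ.Prime) (hone : (ℓ : ZMod N) = 1) {g : Mat}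
    (hdet : g.det = ℓ) (hc : (N : ℤ) ∣ g 1 0) {v : Vec} (hv : v ≠ 0) :
    CuspRel N v (g *ᵥ v) := by
  obtain ⟨σ, k, hk, rfl⟩ := exists_SL_mulVec_infty hv
  have hdet0 : g.det ≠ 0 := by rw [hdet]; exact_mod_cast hℓ.ne_zero
  obtain ⟨σ', k', hk', e'⟩ :=
    exists_SL_mulVec_infty (mulVec_ne_zero hdet0 (mat_mulVec_ne_zero σ vecInfty_ne_zero))
  obtain ⟨σ', k', hk', e'⟩ : ∃ σ' : SL(2, ℤ), ∃ k' : ℤ, 0 < k' ∧
      g *ᵥ (mat σ *ᵥ vecInfty) = k' • (mat σ' *ᵥ vecInfty) := by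
    rcases lt_or_gt_of_ne hk' with h | h
    · refine ⟨-σ', -k', by omega, ?_⟩
      rw [e']
      simp only [mat, SpecialLinearGroup.coe_neg, neg_mulVec, smul_neg, neg_smul, neg_neg]
    · exact ⟨σ', k', h, e'⟩
  set X : Mat := mat σ'⁻¹ * g * mat σ with hX
  have hXcol : X *ᵥ vecInfty = k' • vecInfty := by
    rw [hX, ← mulVec_mulVec, ← mulVec_mulVec, e', mulVec_smul, mulVec_mulVec, mat_inv_mul,
      one_mulVec]
  have h00 : X 0 0 = k' := by
    simpa [vecInfty, mulVec, dotProduct, Fin.sum_univ_two] using congrFun hXcol 0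
  have h10 : X 1 0 = 0 := by
    simpa [vecInfty, mulVec, dotProduct, Fin.sum_univ_two] using congrFun hXcol 1
  have hdetX : X 0 0 * X 1 1 = ℓ := by
    have : X.det = ℓ := by rw [hX, det_mul, det_mul, det_mat, det_mat, hdet, one_mul, mul_one]
    rwa [det_fin_two, h10, mul_zero, sub_zero] at this
  have hk1 : (k' : ZMod N) = 1 ∧ (X 1 1 : ZMod N) = 1 := by
    have hdvd : k'.natAbs ∣ ℓ :=
      Int.ofNat_dvd_right.mp (show k' ∣ (ℓ : ℤ) from ⟨X 1 1, by rw [← hdetX, h00]⟩)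
    have hcast : (k' : ZMod N) * (X 1 1 : ZMod N) = 1 := by
      rw [← Int.cast_mul, ← h00, hdetX, Int.cast_natCast, hone]
    have hk'1 : (k' : ZMod N) = 1 := by
      have e : k' = (k'.natAbs : ℤ) := by omega
      rcases (Nat.dvd_prime hℓ).mp hdvd with h | h <;> rw [e, h] <;> simp [hone]
    exact ⟨hk'1, by rwa [hk'1, one_mul] at hcast⟩
  set γ : SL(2, ℤ) := σ' * ModularGroup.T ^ (X 0 1) * σ⁻¹ with hγ
  have hmem : γ ∈ Gamma0 N := by
    rw [Gamma0_mem]
    set φ : Mat →+* Matrix (Fin 2) (Fin 2) (ZMod N) := (Int.castRingHom (ZMod N)).mapMatrix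
    have hTX : φ (mat (ModularGroup.T ^ (X 0 1))) = φ X := by
      ext i j
      fin_cases i <;> fin_cases j <;>
        simp [φ, mat, ModularGroup.coe_T_zpow, h00, h10, hk1.1, hk1.2]
    have hcomp : φ (mat γ) = φ g := by
      rw [hγ, mat_mul, mat_mul, map_mul, map_mul, hTX, ← map_mul, ← map_mul, hX]
      congr 1
      simp only [← Matrix.mul_assoc]
      rw [← mat_mul, mul_inv_cancel, mat_one, Matrix.one_mul, Matrix.mul_assoc, ← mat_mul,
        mul_inv_cancel, mat_one, Matrix.mul_one]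
    have := congrFun (congrFun hcomp 1) 0
    simpa [φ, mat, (ZMod.intCast_zmod_eq_zero_iff_dvd _ _).mpr hc] using this
  refine ⟨γ, hmem, 1, k', one_ne_zero, hk'.ne', ?_⟩
  have hTe : mat (ModularGroup.T ^ (X 0 1)) *ᵥ vecInfty = vecInfty := by
    ext i; fin_cases i <;> simp [mat, ModularGroup.coe_T_zpow, vecInfty]
  rw [one_smul, mulVec_smul, mulVec_smul, e', hγ, mat_mul, mat_mul, ← mulVec_mulVec,
    ← mulVec_mulVec, mulVec_mulVec vecInfty (mat σ⁻¹), mat_inv_mul, one_mulVec, hTe, smul_comm]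

/-- `T_ℓ` multiplies the boundary by `ℓ + 1` for `ℓ ≡ 1 (mod N)`. -/
theorem boundary_symT (hℓ : ℓ.Prime) (hℓN : ¬ ℓ ∣ N) (hone : (ℓ : ZMod N) = 1) (x : ModSym N) :
    boundary N (symT N hℓ hℓN x) = ((ℓ : ℤ) + 1) • boundary N x := by
  suffices (boundary N).comp (symT N hℓ hℓN) = ((ℓ : ℤ) + 1) • boundary N from
    DFunLike.congr_fun this x
  refine hom_ext fun v w hv hw => ?_
  rw [AddMonoidHom.comp_apply, symT, IsCorr.push_symb, map_sum, AddMonoidHom.smul_apply,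
    boundary_symb N hv hw]
  have h : ∀ i, boundary N (symb N (tMat ℓ i *ᵥ v) (tMat ℓ i *ᵥ w)) =
      cuspDiv w - cuspDiv v := by
    intro i
    have hne : (tMat ℓ i).det ≠ 0 := by rw [det_tMat]; exact_mod_cast hℓ.ne_zero
    have h10 : (N : ℤ) ∣ tMat ℓ i 1 0 := by rw [tMat_10]; exact dvd_zero _
    rw [boundary_symb N (mulVec_ne_zero hne hv) (mulVec_ne_zero hne hw),
      ← cuspDiv_eq hv (mulVec_ne_zero hne hv)
        (cuspRel_mulVec_of_one_mod hℓ hone (det_tMat ℓ i) h10 hv),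
      ← cuspDiv_eq hw (mulVec_ne_zero hne hw)
        (cuspRel_mulVec_of_one_mod hℓ hone (det_tMat ℓ i) h10 hw)]
  rw [Finset.sum_congr rfl fun i _ => h i]
  simp [add_smul, smul_sub]

/-- A functional killing all closed symbols is an eigenvector of `T_ℓ` with eigenvalue `ℓ + 1`. -/
theorem comp_symT_of_comp_cycleHom_eq_zero {A : Type*} [AddCommGroup A] (hℓ : ℓ.Prime)
    (hℓN : ¬ ℓ ∣ N) (hone : (ℓ : ZMod N) = 1) {φ : ModSym N →+ A}
    (h : φ.comp (cycleHom N) = 0) (x : ModSym N) :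
    φ (symT N hℓ hℓN x) = ((ℓ : ℤ) + 1) • φ x := by
  have e := eq_comp_boundary h
  rw [DFunLike.congr_fun e (symT N hℓ hℓN x), DFunLike.congr_fun e x]
  simp only [AddMonoidHom.comp_apply, boundary_symT hℓ hℓN hone, map_zsmul]

end Fermat.Agent.LevelRaising
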