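import Fermat.Agent.LevelRaising.Eisenstein
import Fermat.Agent.LevelRaising.PsiInjective
import Fermat.Agent.LevelRaising.Dual

/-!
# Ihara's lemma for modular symbols modulo `p`

A functional modulo `p` that is old from both sides is Eisenstein (`ihara_eis`).  Through the
crossing map this gives surjectivity of the trace in dual form (`dvdModTorsion_of_trace`).
-/

set_option autoImplicit false

open Matrix CongruenceSubgroup
open scoped MatrixGroups

namespace Fermat.Agent.LevelRaising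

/-- The group-theoretic part of Ihara's lemma: a functional old from both sides kills `Γ₁(N)`. -/
def KillsGammaOne (N q p : ℕ) (hq : q.Prime) (hqN : ¬ q ∣ N) : Prop :=
  ∀ φ ψ : ModSym N →+ ZMod p,
    φ.comp (symRes N q) + (ψ.comp (symRes N q)).comp (symW hq hqN) = 0 →
    ∀ γ : Gamma0 N, (N : ℤ) ∣ (γ : SL(2, ℤ)) 0 0 - 1 → φ (cycleHom N (Additive.ofMul γ)) = 0

/-- The operator `T_ℓ - 2`. -/
noncomputable def eisOp (M : ℕ) {ℓ : ℕ} (hℓ : ℓ.Prime) (hℓM : ¬ ℓ ∣ M) :
    ModSym M →+ ModSym M :=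
  symT M hℓ hℓM - (2 : ℤ) • AddMonoidHom.id (ModSym M)

/-- `eisOp` is `T_ℓ - 2`. -/
theorem eisOp_apply {M ℓ : ℕ} (hℓ : ℓ.Prime) (hℓM : ¬ ℓ ∣ M) (x : ModSym M) :
    eisOp M hℓ hℓM x = symT M hℓ hℓM x - (2 : ℤ) • x := rfl

theorem transfer_comp {N M : ℕ} {ι A B : Type*} [Fintype ι] [AddCommGroup A] [AddCommGroup B]
    {g : ι → Mat} (hg : IsCorr N M g) (f : A →+ B) (h : Additive (Gamma0 M) →+ A) :
    hg.transfer (f.comp h) = f.comp (hg.transfer h) := by
  refine AddMonoidHom.ext fun x => ?_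
  obtain ⟨γ, rfl⟩ : ∃ γ, Additive.ofMul γ = x := ⟨Additive.toMul x, rfl⟩
  simp [IsCorr.transfer_apply, map_sum]

section

variable {N q p ℓ : ℕ} (hq : q.Prime) (hqN : ¬ q ∣ N) (hℓ : ℓ.Prime) (hℓN : ¬ ℓ ∣ N)

theorem lowerRight_δ (hone : (ℓ : ZMod N) = 1) (γ : Gamma0 N) (i : Fin ℓ ⊕ Unit) :
    ((((isCorr_T hℓ hℓN).δ γ i : Gamma0 N) : SL(2, ℤ)) 1 1 : ZMod N) =
      ((γ : SL(2, ℤ)) 1 1 : ZMod N) := by
  have h := (isCorr_T hℓ hℓN).spec γ i
  have h11 := congrArg (fun m : Mat => ((m 1 1 : ℤ) : ZMod N)) h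
  have d1 : ∀ j, ((tMat ℓ j 1 1 : ℤ) : ZMod N) = 1 := fun j => by
    rcases j with b | u <;> simp [tMat, hone]
  have c0 : ∀ g : Gamma0 N, (((g : SL(2, ℤ)) 1 0 : ℤ) : ZMod N) = 0 := fun g =>
    Gamma0_mem.mp g.2
  simp only [Matrix.mul_apply, Fin.sum_univ_two, tMat_10, zero_mul, Int.cast_add, Int.cast_mul,
    d1, one_mul, zero_add, mul_one, mat, c0] at h11
  exact h11.symm

include hq hqN in
/-- Ihara's lemma: a functional modulo `p` that is old from both sides is Eisenstein. -/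
theorem ihara_eis (hkill : KillsGammaOne N q p hq hqN) (hone : (ℓ : ZMod N) = 1)
    (hℓp : (ℓ : ZMod p) = 1) {φ ψ : ModSym N →+ ZMod p}
    (h : φ.comp (symRes N q) + (ψ.comp (symRes N q)).comp (symW hq hqN) = 0) :
    (φ.comp (eisOp N hℓ hℓN)).comp (eisOp N hℓ hℓN) = 0 := by
  have hcyc : (φ.comp (eisOp N hℓ hℓN)).comp (cycleHom N) = 0 := by
    refine AddMonoidHom.ext fun x => ?_
    obtain ⟨γ, rfl⟩ : ∃ γ, Additive.ofMul γ = x := ⟨Additive.toMul x, rfl⟩
    have key : ∀ i, φ (cycleHom N (Additive.ofMul ((isCorr_T hℓ hℓN).δ γ i))) =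
        φ (cycleHom N (Additive.ofMul γ)) := by
      intro i
      set d := (isCorr_T hℓ hℓN).δ γ i
      have h0 := hkill φ ψ h (d * γ⁻¹) ?_
      · rw [ofMul_mul, map_add, map_add, ofMul_inv, map_neg, map_neg] at h0
        exact eq_of_sub_eq_zero (by rw [sub_eq_add_neg]; exact h0)
      · rw [← ZMod.intCast_zmod_eq_zero_iff_dvd]
        have hd : (((d : SL(2, ℤ)) 1 1 : ℤ) : ZMod N) = ((γ : SL(2, ℤ)) 1 1 : ZMod N) :=
          lowerRight_δ hℓ hℓN hone γ i
        have hdet := congrArg (Int.cast : ℤ → ZMod N) (d : SL(2, ℤ)).det_coe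
        rw [det_fin_two] at hdet
        simp [Subgroup.coe_mul, SpecialLinearGroup.coe_inv, adjugate_fin_two, Matrix.mul_apply,
          Fin.sum_univ_two,
          (show (((d : SL(2, ℤ)) 1 0 : ℤ) : ZMod N) = 0 from Gamma0_mem.mp d.2),
          (show (((γ : SL(2, ℤ)) 1 0 : ℤ) : ZMod N) = 0 from Gamma0_mem.mp γ.2)] at hdet ⊢
        rw [← hd]
        linear_combination hdet
    rw [AddMonoidHom.comp_apply, AddMonoidHom.comp_apply, eisOp_apply, map_sub, symT,
      IsCorr.push_cycleHom, map_sum, Finset.sum_congr rfl fun i _ => key i, map_zsmul]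
    simp [hℓp]
    ring
  refine AddMonoidHom.ext fun x => ?_
  have h2 := comp_symT_of_comp_cycleHom_eq_zero hℓ hℓN hone hcyc x
  rw [AddMonoidHom.comp_apply, eisOp_apply, map_sub, h2, map_zsmul, ← sub_smul]
  simp [zsmul_eq_mul, hℓp]
  ring

end

section Surjective

variable {N q p ℓ : ℕ} [NeZero N] (hq : q.Prime) (hqN : ¬ q ∣ N) (hℓ : ℓ.Prime)
  (hℓM : ¬ ℓ ∣ N * q) (hℓN : ¬ ℓ ∣ N)

omit [NeZero N] in
theorem eisOp_symRes (x : ModSym (N * q)) :
    eisOp N hℓ hℓN (symRes N q x) = symRes N q (eisOp (N * q) hℓ hℓM x) := by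
  rw [eisOp_apply, eisOp_apply, map_sub, map_zsmul, symRes_symT]

omit [NeZero N] in
/-- `eisOp` commutes with the Atkin–Lehner map. -/
theorem eisOp_symW (x : ModSym (N * q)) :
    eisOp (N * q) hℓ hℓM (symW hq hqN x) = symW hq hqN (eisOp (N * q) hℓ hℓM x) := by
  rw [eisOp_apply, eisOp_apply, map_sub, map_zsmul, symT_symW]

omit [NeZero N] in
/-- `eisOp` commutes with the trace. -/
theorem eisOp_symTr (x : ModSym N) :
    eisOp (N * q) hℓ hℓM (symTr hq hqN x) = symTr hq hqN (eisOp N hℓ hℓN x) := by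
  rw [eisOp_apply, eisOp_apply, map_sub, map_zsmul, symT_symTr hq hqN hℓ hℓM hℓN]

/-- The mod `p` reduction of `psi`. -/
noncomputable def psiMod (M p : ℕ) (x : ModSym M) : Additive (Gamma0 M) →+ ZMod p :=
  (Int.castAddHom (ZMod p)).comp (psi M x)

theorem psiMod_apply {M : ℕ} (x : ModSym M) (γ : Additive (Gamma0 M)) :
    psiMod M p x γ = (psi M x γ : ZMod p) := rfl

theorem psiMod_eq_zero {M : ℕ} {x : ModSym M} (hx : DvdModTorsion p x) : psiMod M p x = 0 := by
  refine AddMonoidHom.ext fun γ => (ZMod.intCast_zmod_eq_zero_iff_dvd _ _).mpr ?_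
  exact hx (((AddMonoidHom.eval γ) : (Additive (Gamma0 M) →+ ℤ) →+ ℤ).comp (psi M))

omit [NeZero N] in
theorem psiMod_symTr (x : ModSym N) :
    psiMod (N * q) p (symTr hq hqN x) = (isCorr_Res (N := N) (q := q)).transfer (psiMod N p x) := by
  rw [psiMod, psiMod, psi_symTr, transfer_comp]

omit [NeZero N] in
theorem psiMod_symW (x : ModSym (N * q)) :
    psiMod (N * q) p (symW hq hqN x) = (isCorr_W hq hqN).transfer (psiMod (N * q) p x) := by
  rw [psiMod, psiMod, psi_symW, transfer_comp]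

include hℓM in
/-- Surjectivity of the trace, in dual form. -/
theorem dvdModTorsion_of_trace [Fact p.Prime] (hp2 : p ≠ 2) (hN : 1 < N)
    (hkill : KillsGammaOne N q p hq hqN) (hone : (ℓ : ZMod (N * q)) = 1) (hℓp : (ℓ : ZMod p) = 1)
    {x₁ x₂ : ModSym N}
    (hx : DvdModTorsion p (symTr hq hqN x₁ + symW hq hqN (symTr hq hqN x₂))) :
    DvdModTorsion p ((⇑(eisOp N hℓ hℓN))^[4] x₁) ∧
      DvdModTorsion p ((⇑(eisOp N hℓ hℓN))^[4] x₂) := by
  have hoN : (ℓ : ZMod N) = 1 := by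
    have := congrArg (ZMod.castHom (dvd_mul_right N q) (ZMod N)) hone
    rwa [map_natCast, map_one] at this
  set P := eisOp N hℓ hℓN
  set P' := eisOp (N * q) hℓ hℓM
  set y₁ := P x₁
  set y₂ := P x₂
  have hy : DvdModTorsion p (symTr hq hqN y₁ + symW hq hqN (symTr hq hqN y₂)) := by
    have := hx.map P'
    rwa [map_add, eisOp_symW hq hqN, eisOp_symTr hq hqN hℓ hℓM hℓN,
      eisOp_symTr hq hqN hℓ hℓM hℓN] at this
  obtain ⟨r, hr⟩ : (p : ℤ) ∣ (ℓ : ℤ) - 1 := by
    rw [← ZMod.intCast_zmod_eq_zero_iff_dvd]; simp [hℓp]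
  have hlift : ∀ x : ModSym N, ∃ φ : ModSym N →+ ZMod p,
      φ.comp (cycleHom N) = psiMod N p (P x) := by
    intro x
    refine exists_comp_cycleHom_eq _ fun γ hγ => ?_
    obtain ⟨g, hg⟩ := sub_section_boundary_mem N (P x)
    have hb : boundary N (P x) = (p : ℤ) • (r • boundary N x) := by
      rw [eisOp_apply, map_sub, map_zsmul, boundary_symT hℓ hℓN hoN, ← sub_smul, smul_smul, ← hr]
      congr 1; ring
    have : P x = cycleHom N g + (p : ℤ) • cuspSection N (r • boundary N x) := by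
      rw [hg, hb, map_zsmul]; abel
    rw [psiMod_apply, this, map_add, map_zsmul, AddMonoidHom.add_apply,
      isParabolicHom_psi_cycleHom hN g γ hγ, zero_add, AddMonoidHom.smul_apply, smul_eq_mul]
    simp
  obtain ⟨φ₁, e₁⟩ := hlift x₁
  obtain ⟨φ₂, e₂⟩ := hlift x₂
  have hcyc : (φ₁.comp (symRes N q) + (φ₂.comp (symRes N q)).comp (symW hq hqN)).comp
      (cycleHom (N * q)) = 0 := by
    have h0 := psiMod_eq_zero hy
    rw [psiMod, map_add, AddMonoidHom.comp_add, ← psiMod, ← psiMod, psiMod_symW, psiMod_symTr,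
      psiMod_symTr, ← e₁, ← e₂, IsCorr.transfer_comp_cycleHom, IsCorr.transfer_comp_cycleHom,
      IsCorr.transfer_comp_cycleHom] at h0
    rw [AddMonoidHom.add_comp]
    exact h0
  have hP : (φ₁.comp P).comp (symRes N q) +
      ((φ₂.comp P).comp (symRes N q)).comp (symW hq hqN) = 0 := by
    refine AddMonoidHom.ext fun z => ?_
    have h2 := comp_symT_of_comp_cycleHom_eq_zero hℓ hℓM hone hcyc z
    simp only [AddMonoidHom.add_apply, AddMonoidHom.comp_apply, AddMonoidHom.zero_apply, P,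
      eisOp_symRes hℓ hℓM hℓN] at h2 ⊢
    simp only [eisOp_apply, map_sub, map_zsmul, zsmul_eq_mul, Int.cast_add, Int.cast_natCast,
      Int.cast_one, Int.cast_ofNat, hℓp] at h2 ⊢
    simp only [symT_symW hq hqN] at h2 ⊢
    linear_combination h2
  have hP' : (φ₂.comp P).comp (symRes N q) +
      ((φ₁.comp P).comp (symRes N q)).comp (symW hq hqN) = 0 := by
    refine AddMonoidHom.ext fun z => ?_
    have := DFunLike.congr_fun hP (symW hq hqN z)
    simp only [AddMonoidHom.add_apply, AddMonoidHom.comp_apply, symW_symW] at this ⊢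
    rw [add_comm]; exact this
  have hfin : ∀ {φ ψ : ModSym N →+ ZMod p} (x : ModSym N),
      φ.comp (cycleHom N) = psiMod N p (P x) →
      (φ.comp P).comp (symRes N q) + ((ψ.comp P).comp (symRes N q)).comp (symW hq hqN) = 0 →
      DvdModTorsion p ((⇑P)^[4] x) := by
    intro φ ψ x e hrel
    have hz := ihara_eis hq hqN hℓ hℓN hkill hoN hℓp hrel
    have hstep : ∀ (φ : ModSym N →+ ZMod p) (y : ModSym N),
        φ.comp (cycleHom N) = psiMod N p y →
        (φ.comp P).comp (cycleHom N) = psiMod N p (P y) := by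
      intro φ y e
      rw [show psiMod N p (P y) = (isCorr_T hℓ hℓN).transfer (psiMod N p y) - (2 : ℤ) • psiMod N p y
        by
          refine AddMonoidHom.ext fun g => ?_
          simp [psiMod, P, eisOp_apply, psi_symT, transfer_comp, map_sub]]
      rw [← e, IsCorr.transfer_comp_cycleHom]
      refine AddMonoidHom.ext fun g => ?_
      simp [P, eisOp_apply, symT, map_sub]
    have h4 := hstep _ _ (hstep _ _ (hstep _ _ e))
    rw [show ((φ.comp P).comp P).comp P = 0 from hz, AddMonoidHom.zero_comp] at h4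
    intro χ
    obtain ⟨y, k, hk, hky⟩ := eq_smul_add_torsion_of_psi Fact.out hp2 ((⇑P)^[4] x) fun γ => by
      rw [← ZMod.intCast_zmod_eq_zero_iff_dvd]
      exact (DFunLike.congr_fun h4 γ).symm
    have h5 := congrArg χ hky
    rw [map_zsmul, map_zero, smul_eq_mul] at h5
    have h6 := (mul_eq_zero.mp h5).resolve_left hk
    rw [map_sub, map_zsmul, sub_eq_zero, smul_eq_mul] at h6
    exact ⟨χ y, h6⟩
  exact ⟨hfin x₁ e₁ hP, hfin x₂ e₂ hP'⟩

end Surjective

end Fermat.Agent.LevelRaising
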