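import Mathlib.RingTheory.Noetherian.Basic
import Mathlib.LinearAlgebra.Quotient.Basic
import Fermat.Agent.LevelRaising.Ihara

/-!
# Lifting to the new lattice

A class modulo `p` killed by both traces lifts, up to a power of the Eisenstein operator, to a
functional on which both traces vanish (`exists_new_lift`).
-/

set_option autoImplicit false

open Matrix CongruenceSubgroup
open scoped MatrixGroups

namespace Fermat.Agent.LevelRaising

/-- A functional divisible by `p` at every symbol is `p` times a functional. -/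
theorem exists_smul_eq_of_dvd {M p : ℕ} (v : ModSym M →+ ℤ) (h : ∀ u, (p : ℤ) ∣ v u) :
    ∃ Z : ModSym M →+ ℤ, v = (p : ℤ) • Z := by
  refine ⟨AddMonoidHom.mk' (fun u => v u / (p : ℤ)) fun x y => by
    rw [map_add, Int.add_ediv_of_dvd_left (h x)], AddMonoidHom.ext fun u => ?_⟩
  exact (Int.mul_ediv_cancel' (h u)).symm

variable {N q : ℕ} [NeZero N] (hq : q.Prime) (hqN : ¬ q ∣ N)

/-- The pair of traces on integral functionals. -/
noncomputable def traces :
    (ModSym (N * q) →+ ℤ) →+ (ModSym N →+ ℤ) × (ModSym N →+ ℤ) :=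
  AddMonoidHom.mk' (fun Y => (Y.comp (symTr hq hqN), (Y.comp (symW hq hqN)).comp (symTr hq hqN)))
    fun _ _ => rfl

omit [NeZero N] in
/-- The two traces of a functional. -/
theorem traces_apply (Y : ModSym (N * q) →+ ℤ) :
    traces hq hqN Y = (Y.comp (symTr hq hqN), (Y.comp (symW hq hqN)).comp (symTr hq hqN)) := rfl

variable {p ℓ : ℕ} [Fact p.Prime] (hℓ : ℓ.Prime) (hℓM : ¬ ℓ ∣ N * q) (hℓN : ¬ ℓ ∣ N)

omit [NeZero N] in
theorem eisOp_comm_symTr_iterate (n : ℕ) (x : ModSym N) :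
    (⇑(eisOp (N * q) hℓ hℓM))^[n] (symTr hq hqN x) =
      symTr hq hqN ((⇑(eisOp N hℓ hℓN))^[n] x) := by
  induction n with
  | zero => rfl
  | succ n ih => rw [Function.iterate_succ_apply', ih, eisOp_symTr hq hqN hℓ hℓM hℓN,
      Function.iterate_succ_apply']

/-- Pull back of a functional by the iterated operator. -/
noncomputable def pullEis (M n : ℕ) (hℓM' : ¬ ℓ ∣ M) :
    (ModSym M →+ ℤ) →+ (ModSym M →+ ℤ) :=
  AddMonoidHom.mk' (fun Z => AddMonoidHom.mk' (fun x => Z ((⇑(eisOp M hℓ hℓM'))^[n] x))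
      fun x y => by rw [iterate_map_add, map_add])
    fun _ _ => rfl

/-- `pullEis` precomposes with an iterate of `eisOp`. -/
theorem pullEis_apply {M : ℕ} (hℓM' : ¬ ℓ ∣ M) (n : ℕ) (Z : ModSym M →+ ℤ) (x : ModSym M) :
    pullEis hℓ M n hℓM' Z x = Z ((⇑(eisOp M hℓ hℓM'))^[n] x) := rfl

theorem pullEis_add {M : ℕ} (hℓM' : ¬ ℓ ∣ M) (a b : ℕ) (Z : ModSym M →+ ℤ) :
    pullEis hℓ M (a + b) hℓM' Z = pullEis hℓ M b hℓM' (pullEis hℓ M a hℓM' Z) := by
  refine AddMonoidHom.ext fun x => ?_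
  simp only [pullEis_apply, Function.iterate_add_apply]

omit [NeZero N] in
theorem traces_pullEis (n : ℕ) (Y : ModSym (N * q) →+ ℤ) :
    traces hq hqN (pullEis hℓ (N * q) n hℓM Y) =
      (pullEis hℓ N n hℓN (traces hq hqN Y).1, pullEis hℓ N n hℓN (traces hq hqN Y).2) := by
  simp only [traces_apply, Prod.mk.injEq]
  refine ⟨AddMonoidHom.ext fun x => ?_, AddMonoidHom.ext fun x => ?_⟩
  · simp only [AddMonoidHom.comp_apply, pullEis_apply,
      eisOp_comm_symTr_iterate hq hqN hℓ hℓM hℓN]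
  · simp only [AddMonoidHom.comp_apply, pullEis_apply]
    rw [← eisOp_comm_symTr_iterate hq hqN hℓ hℓM hℓN]
    congr 1
    generalize symTr hq hqN x = y
    induction n generalizing y with
    | zero => rfl
    | succ n ih => rw [Function.iterate_succ_apply, eisOp_symW, ih, Function.iterate_succ_apply]

variable (hp2 : p ≠ 2) (hN : 1 < N) (hkill : KillsGammaOne N q p hq hqN)
  (hone : (ℓ : ZMod (N * q)) = 1) (hℓp : (ℓ : ZMod p) = 1)

include hℓM hp2 hN hkill hone hℓp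

/-- One step of the surjectivity of the traces, modulo `p`. -/
theorem exists_traces_step (Z : (ModSym N →+ ℤ) × (ModSym N →+ ℤ)) :
    ∃ (Y : ModSym (N * q) →+ ℤ) (Z' : (ModSym N →+ ℤ) × (ModSym N →+ ℤ)),
      (pullEis hℓ N 4 hℓN Z.1, pullEis hℓ N 4 hℓN Z.2) = traces hq hqN Y + (p : ℤ) • Z' := by
  classical
  set v := (pullEis hℓ N 4 hℓN Z.1, pullEis hℓ N 4 hℓN Z.2) with hv
  set pMap : (ModSym N →+ ℤ) × (ModSym N →+ ℤ) →+ (ModSym N →+ ℤ) × (ModSym N →+ ℤ) :=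
    DistribSMul.toAddMonoidHom _ (p : ℤ)
  suffices h : v ∈ (traces hq hqN).range ⊔ pMap.range by
    obtain ⟨a, ⟨Y, rfl⟩, b, ⟨Z', rfl⟩, e⟩ := AddSubgroup.mem_sup.mp h
    exact ⟨Y, Z', e.symm⟩
  by_contra hmem
  obtain ⟨f, hf, hfv⟩ := exists_functional_ne_zero (p := p) _ (fun u => AddSubgroup.mem_sup_right
    (AddMonoidHom.mem_range.mpr ⟨u, show (p : ℤ) • u = p • u from natCast_zsmul u p⟩)) hmem
  obtain ⟨x₁, hx₁⟩ := exists_eq_eval p (f.comp (AddMonoidHom.inl _ (ModSym N →+ ℤ)))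
  obtain ⟨x₂, hx₂⟩ := exists_eq_eval p (f.comp (AddMonoidHom.inr (ModSym N →+ ℤ) _))
  have hsplit : ∀ a b, f (a, b) = (a x₁ : ZMod p) + (b x₂ : ZMod p) := fun a b => by
    rw [← hx₁ a, ← hx₂ b, AddMonoidHom.comp_apply, AddMonoidHom.comp_apply, ← map_add]
    simp
  have hdvd : DvdModTorsion p (symTr hq hqN x₁ + symW hq hqN (symTr hq hqN x₂)) := by
    intro Y
    rw [← ZMod.intCast_zmod_eq_zero_iff_dvd, map_add, Int.cast_add]
    have := hf _ (AddSubgroup.mem_sup_left ⟨Y, rfl⟩)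
    rwa [traces_apply, hsplit] at this
  obtain ⟨h1, h2⟩ :=
    dvdModTorsion_of_trace hq hqN hℓ hℓM hℓN hp2 hN hkill hone hℓp hdvd
  refine hfv ?_
  rw [hv, hsplit, pullEis_apply, pullEis_apply,
    (ZMod.intCast_zmod_eq_zero_iff_dvd _ _).mpr (h1 Z.1),
    (ZMod.intCast_zmod_eq_zero_iff_dvd _ _).mpr (h2 Z.2), add_zero]

omit hℓM hp2 hN hkill hone hℓp in
theorem exists_bound_torsion {A : Type*} [AddCommGroup A] [Module.Finite ℤ A] (p : ℕ) :
    ∃ k : ℕ, ∀ (j : ℕ) (a : A), ((p : ℤ) ^ j) • a = 0 → ((p : ℤ) ^ k) • a = 0 := by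
  obtain ⟨k, hk⟩ := monotone_stabilizes_iff_noetherian.mpr
    (inferInstance : IsNoetherian ℤ A)
    ⟨fun j => LinearMap.ker (LinearMap.lsmul ℤ A ((p : ℤ) ^ j)), fun i j hij a ha => by
      simp only [LinearMap.mem_ker, LinearMap.lsmul_apply] at ha ⊢
      rw [← Nat.sub_add_cancel hij, pow_add, mul_smul, ha, smul_zero]⟩
  refine ⟨k, fun j a ha => ?_⟩
  rcases le_total k j with h | h
  · have e : LinearMap.ker (LinearMap.lsmul ℤ A ((p : ℤ) ^ k)) =
        LinearMap.ker (LinearMap.lsmul ℤ A ((p : ℤ) ^ j)) := hk j h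
    have : a ∈ LinearMap.ker (LinearMap.lsmul ℤ A ((p : ℤ) ^ k)) := by rw [e]; simpa using ha
    simpa using this
  · rw [← Nat.sub_add_cancel h, pow_add, mul_smul, ha, smul_zero]

include hℓN

/-- A class modulo `p` killed by the traces lifts to the new lattice,
up to the Eisenstein operator. -/
theorem exists_new_lift (y : ModSym (N * q) →+ ℤ)
    (hy : ∃ Z, traces hq hqN y = (p : ℤ) • Z) :
    ∃ (m : ℕ) (Y' W : ModSym (N * q) →+ ℤ), traces hq hqN Y' = 0 ∧
      Y' = pullEis hℓ (N * q) m hℓM y - (p : ℤ) • W := by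
  obtain ⟨Z, hZ⟩ := hy
  obtain ⟨k, hk⟩ := exists_bound_torsion
    (A := ((ModSym N →+ ℤ) × (ModSym N →+ ℤ)) ⧸ (traces hq hqN).toIntLinearMap.range) p
  set π := Submodule.mkQ (traces hq hqN).toIntLinearMap.range
  set pull : ℕ → (ModSym N →+ ℤ) × (ModSym N →+ ℤ) → (ModSym N →+ ℤ) × (ModSym N →+ ℤ) :=
    fun n Z => (pullEis hℓ N n hℓN Z.1, pullEis hℓ N n hℓN Z.2)
  have hker : ∀ v, π v = 0 ↔ ∃ W, traces hq hqN W = v := fun v => by
    rw [Submodule.mkQ_apply, Submodule.Quotient.mk_eq_zero]; rfl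
  have hiter : ∀ n, ∃ b, π (pull (4 * n) Z) = ((p : ℤ) ^ n) • π b := by
    intro n
    induction n with
    | zero => exact ⟨Z, by simp only [pull, Nat.mul_zero, pow_zero, one_smul]; rfl⟩
    | succ n ih =>
      obtain ⟨b, hb⟩ := ih
      obtain ⟨W₀, hW₀⟩ := (hker (pull (4 * n) Z - ((p : ℤ) ^ n) • b)).mp
        (by rw [map_sub, map_smul, hb, sub_self])
      obtain ⟨Y, b', hY⟩ :=
        exists_traces_step hq hqN hℓ hℓM hℓN hp2 hN hkill hone hℓp b
      refine ⟨b', ?_⟩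
      have e : pull (4 * (n + 1)) Z =
          traces hq hqN (pullEis hℓ (N * q) 4 hℓM W₀) + ((p : ℤ) ^ n) •
            (traces hq hqN Y + (p : ℤ) • b') := by
        rw [traces_pullEis hq hqN hℓ hℓM hℓN, hW₀, ← hY]
        simp only [pull, Prod.fst_sub, Prod.snd_sub, Prod.smul_fst, Prod.smul_snd, map_sub,
          map_zsmul, Prod.smul_mk, Prod.mk_add_mk, Nat.mul_succ, pullEis_add, sub_add_cancel]
      rw [e, map_add, map_smul, map_add, map_smul, (hker _).mpr ⟨_, rfl⟩, (hker _).mpr ⟨_, rfl⟩,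
        zero_add, zero_add, smul_smul, ← pow_succ]
  obtain ⟨b, hb⟩ := hiter k
  have hpz : (p : ℤ) • π (pull (4 * k) Z) = 0 := by
    rw [← map_smul]
    refine (hker _).mpr ⟨pullEis hℓ (N * q) (4 * k) hℓM y, ?_⟩
    rw [traces_pullEis hq hqN hℓ hℓM hℓN, hZ]
    simp [pull, -zsmul_eq_mul]
  have hzero : π (pull (4 * k) Z) = 0 := by
    rw [hb]
    refine hk (k + 1) _ ?_
    rw [pow_succ', mul_smul, ← hb]
    exact hpz
  obtain ⟨W, hW⟩ := (hker _).mp hzero
  refine ⟨4 * k, _, W, ?_, rfl⟩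
  rw [map_sub, map_zsmul, traces_pullEis hq hqN hℓ hℓM hℓN, hW, hZ]
  simp [pull, -zsmul_eq_mul]

end Fermat.Agent.LevelRaising
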