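import Mathlib.RingTheory.LocalRing.Module
import Mathlib.RingTheory.Support
import Mathlib.RingTheory.LocalRing.ResidueField.Ideal
import Mathlib.RingTheory.Ideal.MinimalPrime.Localization
import Fermat.Agent.LevelRaising.Algebra
import Fermat.Agent.LevelRaising.Lifting

/-!
# Eigen functionals in characteristic zero

A class modulo `p` in the new lattice is congruent to an eigen functional in characteristic zero
on that lattice (`exists_field_eigen`).
-/

set_option autoImplicit false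

noncomputable section

open Matrix CongruenceSubgroup TensorProduct
open scoped MatrixGroups

namespace Fermat.Agent.LevelRaising

variable {N q : ℕ} [NeZero N] [NeZero (N * q)] (hq : q.Prime) (hqN : ¬ q ∣ N)

omit [NeZero N] [NeZero (N * q)] in
/-- The Hecke algebra preserves the new lattice. -/
theorem traces_heckeSub (r : heckeSub (N * q)) {Z : ModSym (N * q) →+ ℤ}
    (h : traces hq hqN Z = 0) :
    traces hq hqN ((r : Module.End ℤ (ModSym (N * q) →+ ℤ)) Z) = 0 := by
  obtain ⟨r, hr⟩ := r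
  show traces hq hqN (r Z) = 0
  induction hr using Algebra.adjoin_induction generalizing Z with
  | mem x hx =>
    obtain ⟨ℓ, hℓ, hℓM, rfl⟩ := hx
    have hℓN : ¬ ℓ ∣ N := fun h' => hℓM (dvd_mul_of_dvd_left h' q)
    simp only [traces_apply, Prod.mk_eq_zero] at h ⊢
    refine ⟨AddMonoidHom.ext fun u => ?_, AddMonoidHom.ext fun u => ?_⟩
    · have h' := DFunLike.congr_fun h.1 (symT N hℓ hℓN u)
      simp only [AddMonoidHom.comp_apply, AddMonoidHom.zero_apply, pullT_apply] at h' ⊢
      rwa [symT_symTr hq hqN hℓ hℓM hℓN]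
    · have h' := DFunLike.congr_fun h.2 (symT N hℓ hℓN u)
      simp only [AddMonoidHom.comp_apply, AddMonoidHom.zero_apply, pullT_apply] at h' ⊢
      rwa [symT_symW hq hqN, symT_symTr hq hqN hℓ hℓM hℓN]
  | algebraMap a =>
    rw [Module.algebraMap_end_apply, map_zsmul, h, smul_zero]
  | add x y _ _ ihx ihy => rw [LinearMap.add_apply, map_add, ihx h, ihy h, add_zero]
  | mul x y _ _ ihx ihy => exact ihx (ihy h)

omit [NeZero N] in
/-- A class modulo `p` in the new lattice lifts to an eigen functional in characteristic zero. -/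
theorem exists_field_eigen {p : ℕ} [Fact p.Prime] (Y : ModSym (N * q) →+ ℤ)
    (hY : traces hq hqN Y = 0) (hY0 : ∃ z, ¬ (p : ℤ) ∣ Y z)
    (a : ℕ → ℤ) (good : ℕ → Prop)
    (hYT : ∀ (ℓ : ℕ) (hℓ : ℓ.Prime) (hℓM : ¬ ℓ ∣ N * q), good ℓ →
        ∀ z, (p : ℤ) ∣ Y (symT (N * q) hℓ hℓM z) - a ℓ * Y z) :
    ∃ (K : Type) (_ : Field K) (_ : CharZero K) (χ : heckeSub (N * q) →+* K)
      (n : Ideal (heckeSub (N * q))) (v : ModSym (N * q) →+ K),
      n.IsMaximal ∧ RingHom.ker χ ≤ n ∧ (p : heckeSub (N * q)) ∈ n ∧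
      (∀ (ℓ : ℕ) (hℓ : ℓ.Prime) (hℓM : ¬ ℓ ∣ N * q), good ℓ →
        heckeT' hℓ hℓM - (a ℓ : heckeSub (N * q)) ∈ n) ∧
      v ≠ 0 ∧
      (∀ (ℓ : ℕ) (hℓ : ℓ.Prime) (hℓM : ¬ ℓ ∣ N * q) (z : ModSym (N * q)),
        v (symT (N * q) hℓ hℓM z) = χ (heckeT' hℓ hℓM) * v z) ∧
      (∀ u, v (symTr hq hqN u) = 0) ∧ ∀ u, v (symW hq hqN (symTr hq hqN u)) = 0 := by
  -- the functionals on the new lattice
  let S : Submodule (heckeSub (N * q)) ((ModSym (N * q) →+ ℤ) →+ ℤ) :=
    { carrier := {d | ∀ Z, traces hq hqN Z = 0 → d Z = 0}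
      add_mem' := fun {d e} hd he Z hZ => by
        rw [AddMonoidHom.add_apply, hd Z hZ, he Z hZ, add_zero]
      zero_mem' := fun Z _ => rfl
      smul_mem' := fun r d hd Z hZ => hd _ (traces_heckeSub hq hqN r hZ) }
  set X := ((ModSym (N * q) →+ ℤ) →+ ℤ) ⧸ S
  set J := Module.annihilator (heckeSub (N * q)) X
  have hJ : ∀ r, r ∈ J ↔ ∀ Z, traces hq hqN Z = 0 →
      (r : Module.End ℤ (ModSym (N * q) →+ ℤ)) Z = 0 := by
    intro r
    rw [Module.mem_annihilator]
    refine ⟨fun h Z hZ => AddMonoidHom.ext fun z => ?_, fun h x => ?_⟩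
    · have h1 := h (Submodule.Quotient.mk (evalSym (N * q) z))
      rw [← Submodule.Quotient.mk_smul, Submodule.Quotient.mk_eq_zero] at h1
      exact h1 Z hZ
    · obtain ⟨d, rfl⟩ := Submodule.Quotient.mk_surjective S x
      rw [← Submodule.Quotient.mk_smul, Submodule.Quotient.mk_eq_zero]
      intro Z hZ
      rw [dual_smul_apply, h Z hZ, map_zero]
  -- the ideal of `Y` modulo `p`
  let nY : Ideal (heckeSub (N * q)) :=
    { carrier := {r | ∀ z, (p : ℤ) ∣ (r : Module.End ℤ (ModSym (N * q) →+ ℤ)) Y z}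
      add_mem' := fun {r s} hr hs z => by
        rw [Subalgebra.coe_add, LinearMap.add_apply, AddMonoidHom.add_apply]
        exact dvd_add (hr z) (hs z)
      zero_mem' := fun z => by simp
      smul_mem' := fun r s hs z => by
        obtain ⟨Z, hZ⟩ :=
          exists_smul_eq_of_dvd ((s : Module.End ℤ (ModSym (N * q) →+ ℤ)) Y) hs
        rw [smul_eq_mul, Subalgebra.coe_mul, Module.End.mul_apply, hZ, map_zsmul,
          AddMonoidHom.smul_apply, smul_eq_mul]
        exact dvd_mul_right _ _ }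
  have hnY : nY ≠ ⊤ := fun h => by
    obtain ⟨z, hz⟩ := hY0
    exact hz ((Ideal.eq_top_iff_one nY).mp h z)
  obtain ⟨n, hn, hnn⟩ := Ideal.exists_le_maximal nY hnY
  have hJn : J ≤ n := fun r hr => hnn fun z => by simp [(hJ r).mp hr Y hY]
  obtain ⟨P, hPJ, hPn⟩ := Ideal.exists_minimalPrimes_le (J := n) hJn
  have := hPJ.1.1
  -- the residue field at `P`
  have hne : Nontrivial (P.ResidueField ⊗[heckeSub (N * q)] X) := by
    refine (Module.mem_support_iff_nontrivial_residueField_tensorProduct ⟨P, this⟩).mp ?_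
    rw [Module.support_eq_zeroLocus, PrimeSpectrum.mem_zeroLocus]
    exact SetLike.coe_subset_coe.mpr hPJ.1.2
  obtain ⟨t, ht⟩ := exists_ne (0 : P.ResidueField ⊗[heckeSub (N * q)] X)
  obtain ⟨g, hg⟩ := Module.Projective.exists_dual_ne_zero P.ResidueField ht
  let lam : ((ModSym (N * q) →+ ℤ) →+ ℤ) →ₗ[heckeSub (N * q)] P.ResidueField :=
    ((g.restrictScalars (heckeSub (N * q))).comp
      (TensorProduct.mk (heckeSub (N * q)) P.ResidueField X 1)).comp S.mkQ
  let v : ModSym (N * q) →+ P.ResidueField := lam.toAddMonoidHom.comp (evalSym (N * q))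
  have hv : ∀ z, v z = lam (evalSym (N * q) z) := fun _ => rfl
  have hz : ∀ z, (∀ Z, traces hq hqN Z = 0 → Z z = 0) → v z = 0 := fun z h => by
    have h0 : S.mkQ (evalSym (N * q) z) = 0 := (Submodule.Quotient.mk_eq_zero S).mpr h
    simp only [hv, lam, LinearMap.comp_apply, h0, map_zero]
  refine ⟨P.ResidueField, inferInstance, ?_, algebraMap _ _, n, v, hn, ?_, hnn ?_,
    fun ℓ hℓ hℓM hg => hnn ?_, ?_, fun ℓ hℓ hℓM z => ?_, fun u => hz _ ?_, fun u => hz _ ?_⟩
  · refine charZero_of_inj_zero fun k hk => ?_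
    rw [← map_natCast (algebraMap (heckeSub (N * q)) P.ResidueField),
      Ideal.algebraMap_residueField_eq_zero] at hk
    by_contra hk0
    obtain ⟨y, hy, hky⟩ := Ideal.exists_mul_mem_of_mem_minimalPrimes hPJ hk
    refine hy ((hJ y).mpr fun Z hZ => AddMonoidHom.ext fun z => ?_)
    have h1 := DFunLike.congr_fun ((hJ _).mp hky Z hZ) z
    rw [← Int.cast_natCast, Subalgebra.coe_mul, Module.End.mul_apply, intCast_heckeSub_apply,
      AddMonoidHom.zero_apply] at h1
    exact (mul_eq_zero.mp h1).resolve_left (by exact_mod_cast hk0)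
  · intro r hr
    exact hPn (Ideal.algebraMap_residueField_eq_zero.mp hr)
  · intro z
    rw [show (p : heckeSub (N * q)) = ((p : ℤ) : heckeSub (N * q)) from (Int.cast_natCast p).symm,
      intCast_heckeSub_apply]
    exact dvd_mul_right _ _
  · intro z
    rw [Subalgebra.coe_sub, LinearMap.sub_apply, AddMonoidHom.sub_apply, intCast_heckeSub_apply,
      heckeT'_apply]
    exact hYT ℓ hℓ hℓM hg z
  · intro hv0
    have hlam : lam = 0 := LinearMap.ext_on (span_evalSym (M := N * q)) (by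
      rintro _ ⟨z, rfl⟩
      exact DFunLike.congr_fun hv0 z)
    refine hg ?_
    suffices g = 0 by rw [this, LinearMap.zero_apply]
    refine TensorProduct.AlgebraTensorModule.ext fun c x => ?_
    obtain ⟨d, rfl⟩ := Submodule.Quotient.mk_surjective S x
    have h1 : g (1 ⊗ₜ Submodule.Quotient.mk d) = 0 := LinearMap.congr_fun hlam d
    rw [show c ⊗ₜ[heckeSub (N * q)] (Submodule.Quotient.mk d : X) =
        c • ((1 : P.ResidueField) ⊗ₜ[heckeSub (N * q)] (Submodule.Quotient.mk d : X)) by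
      rw [TensorProduct.smul_tmul', smul_eq_mul, mul_one], map_smul, h1, smul_zero,
      LinearMap.zero_apply]
  · rw [hv, hv, ← heckeT'_smul_eval, map_smul, Algebra.smul_def]
  · intro Z hZ
    exact DFunLike.congr_fun (congrArg Prod.fst hZ) u
  · intro Z hZ
    exact DFunLike.congr_fun (congrArg Prod.snd hZ) u

end Fermat.Agent.LevelRaising
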