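import Fermat.Agent.S21
import Fermat.Agent.HeckeCohom.EigenHoms
import Fermat.Agent.HeckeEigen.Lift
import Fermat.Agent.LevelRaising.Bridge
import Fermat.Agent.LevelRaising.Eisenstein
import Fermat.Agent.LevelRaising.Field

/-!
# From functionals to newforms

An eigen functional on the new lattice gives an eigenform of level `N q` with the given
congruences and `a_q² = 1` (`exists_newform_of_field`).

The steps are:

* a functional with a non Eisenstein eigenvalue does not vanish on the cycles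
  (`comp_cycleHom_ne_zero_of_eigen`);
* on a functional killed by both traces, `U_q` is an involution, so one of the two `U_q` eigen
  combinations is non zero on the cycles (`exists_symU_eigen`);
* such a combination gives a character of the Hecke algebra with values in the range of the given
  character (`exists_heckeRingHom`);
* such a character is the eigenvalue system of an eigenform, and congruences modulo a maximal
  ideal pass to a maximal ideal of the algebraic integers (`exists_eigenform_congr`).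
-/

set_option autoImplicit false

noncomputable section

open Matrix CongruenceSubgroup ModularCurve ModularFormClass
open scoped MatrixGroups

namespace Fermat.Agent.LevelRaising

open HeckeEigen (eigenChar eigenCharInt)

/-- An integer lying in a proper ideal that contains the prime `p` is a multiple of `p`. -/
theorem prime_dvd_of_intCast_mem {R : Type*} [CommRing R] {n : Ideal R} (hn : n ≠ ⊤) {p : ℕ}
    (hpp : p.Prime) (hp : (p : R) ∈ n) {m : ℤ} (hm : (m : R) ∈ n) : (p : ℤ) ∣ m := by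
  by_contra hnd
  obtain ⟨s, t, hst⟩ := (Nat.prime_iff_prime_int.mp hpp).coprime_iff_not_dvd.mpr hnd
  refine hn ((Ideal.eq_top_iff_one n).mpr ?_)
  rw [← Int.cast_one, ← hst, Int.cast_add, Int.cast_mul, Int.cast_mul]
  exact n.add_mem (n.mul_mem_left _ (by simpa using hp)) (n.mul_mem_left _ hm)

/-- An eigen functional with a non Eisenstein eigenvalue at a prime `ℓ₀ ≡ 1` modulo the level and
modulo `p` does not vanish on the cycles. -/
theorem comp_cycleHom_ne_zero_of_eigen {M p ℓ₀ : ℕ} [NeZero M] [Fact p.Prime] (hℓ₀ : ℓ₀.Prime)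
    (hℓ₀M : ¬ ℓ₀ ∣ M) (hone : (ℓ₀ : ZMod M) = 1) (hℓp : (ℓ₀ : ZMod p) = 1) {a₀ : ℤ}
    (ha₀ : (a₀ : ZMod p) ≠ 2) {K : Type*} [Field K] (χ : heckeSub M →+* K)
    {n : Ideal (heckeSub M)} (hn : n.IsMaximal) (hker : RingHom.ker χ ≤ n)
    (hp : (p : heckeSub M) ∈ n) (hT : heckeT' hℓ₀ hℓ₀M - (a₀ : heckeSub M) ∈ n)
    {v : ModSym M →+ K} (hv : v ≠ 0)
    (hvT : ∀ z, v (symT M hℓ₀ hℓ₀M z) = χ (heckeT' hℓ₀ hℓ₀M) * v z) :
    v.comp (cycleHom M) ≠ 0 := by
  intro h0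
  obtain ⟨z, hz⟩ : ∃ z, v z ≠ 0 := by
    by_contra! hall
    exact hv (AddMonoidHom.ext hall)
  have h1 := comp_symT_of_comp_cycleHom_eq_zero hℓ₀ hℓ₀M hone h0 z
  rw [hvT, zsmul_eq_mul] at h1
  have h2 : χ (heckeT' hℓ₀ hℓ₀M - (((ℓ₀ : ℤ) + 1 : ℤ) : heckeSub M)) = 0 := by
    rw [map_sub, map_intCast, mul_right_cancel₀ hz h1, sub_self]
  have h3 := Ideal.sub_mem n (hker h2) hT
  rw [sub_sub_sub_cancel_left, ← Int.cast_sub] at h3
  have h4 := (ZMod.intCast_zmod_eq_zero_iff_dvd _ _).mpr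
    (prime_dvd_of_intCast_mem hn.ne_top Fact.out hp h3)
  push_cast at h4
  rw [hℓp] at h4
  exact ha₀ (by linear_combination h4)

/-- On a functional killed by the second trace, `U_q` is minus the Atkin–Lehner involution. -/
theorem apply_symU_of_new {N q : ℕ} [NeZero (N * q)] (hq : q.Prime) (hqN : ¬ q ∣ N) {A : Type*}
    [AddCommGroup A] {v : ModSym (N * q) →+ A}
    (hvW : ∀ u, v (symW hq hqN (symTr hq hqN u)) = 0) (z : ModSym (N * q)) :
    v (symU (N * q) hq (dvd_mul_left q N) z) = -v (symW hq hqN z) := by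
  have h1 := hvW (symRes N q z)
  rw [symTr_symRes hq hqN, map_add, symW_symW, map_add] at h1
  exact eq_neg_of_add_eq_zero_right h1

/-- On a functional killed by both traces, `U_q` is an involution. -/
theorem apply_symU_symU_of_new {N q : ℕ} [NeZero (N * q)] (hq : q.Prime) (hqN : ¬ q ∣ N)
    {A : Type*} [AddCommGroup A] {v : ModSym (N * q) →+ A}
    (hvTr : ∀ u, v (symTr hq hqN u) = 0) (hvW : ∀ u, v (symW hq hqN (symTr hq hqN u)) = 0)
    (z : ModSym (N * q)) :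
    v (symU (N * q) hq (dvd_mul_left q N) (symU (N * q) hq (dvd_mul_left q N) z)) = v z := by
  have h1 := hvTr (symRes N q z)
  rw [symTr_symRes hq hqN, map_add] at h1
  rw [apply_symU_of_new hq hqN hvW, eq_neg_of_add_eq_zero_right h1, neg_neg]

/-- A new eigen functional which is non zero on the cycles has a combination with its image under
`U_q` that is still non zero there and is an eigen functional of `U_q` with eigenvalue `±1`. -/
theorem exists_symU_eigen {N q : ℕ} [NeZero (N * q)] (hq : q.Prime) (hqN : ¬ q ∣ N)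
    {K : Type*} [Field K] [CharZero K] (χ : heckeSub (N * q) →+* K) {v : ModSym (N * q) →+ K}
    (hcyc : v.comp (cycleHom (N * q)) ≠ 0)
    (hvT : ∀ (ℓ : ℕ) (hℓ : ℓ.Prime) (hℓM : ¬ ℓ ∣ N * q) (z : ModSym (N * q)),
        v (symT (N * q) hℓ hℓM z) = χ (heckeT' hℓ hℓM) * v z)
    (hvTr : ∀ u, v (symTr hq hqN u) = 0) (hvW : ∀ u, v (symW hq hqN (symTr hq hqN u)) = 0) :
    ∃ (u : ℤ) (g : ModSym (N * q) →+ K), u ^ 2 = 1 ∧ g.comp (cycleHom (N * q)) ≠ 0 ∧
      (∀ (ℓ : ℕ) (hℓ : ℓ.Prime) (hℓM : ¬ ℓ ∣ N * q),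
        g.comp (symT (N * q) hℓ hℓM) = χ (heckeT' hℓ hℓM) • g) ∧
      g.comp (symU (N * q) hq (dvd_mul_left q N)) = (u : K) • g := by
  set w : ModSym (N * q) →+ K := v.comp (symU (N * q) hq (dvd_mul_left q N)) with hw
  obtain ⟨u, hu, hg0⟩ : ∃ u : ℤ, u ^ 2 = 1 ∧ (v + u • w).comp (cycleHom (N * q)) ≠ 0 := by
    by_contra! hall
    have h1 := hall 1 (one_pow 2)
    have h2 := hall (-1) (by norm_num)
    refine hcyc (AddMonoidHom.ext fun x => ?_)
    have e1 := DFunLike.congr_fun h1 x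
    have e2 := DFunLike.congr_fun h2 x
    simp only [one_smul, neg_smul, AddMonoidHom.comp_apply, AddMonoidHom.add_apply,
      AddMonoidHom.neg_apply, AddMonoidHom.zero_apply] at e1 e2 ⊢
    have : (2 : K) * v (cycleHom (N * q) x) = 0 := by linear_combination e1 + e2
    exact (mul_eq_zero.mp this).resolve_left two_ne_zero
  have hwT : ∀ (ℓ : ℕ) (hℓ : ℓ.Prime) (hℓM : ¬ ℓ ∣ (N * q)) z,
      w (symT (N * q) hℓ hℓM z) = χ (heckeT' hℓ hℓM) * w z := fun ℓ hℓ hℓM z => by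
    simp only [hw, AddMonoidHom.comp_apply]
    rw [apply_symU_of_new hq hqN hvW, apply_symU_of_new hq hqN hvW, ← symT_symW hq hqN, hvT,
      mul_neg]
  have huK : (u : K) ^ 2 = 1 := by exact_mod_cast hu
  refine ⟨u, v + u • w, hu, hg0, fun ℓ hℓ hℓM => AddMonoidHom.ext fun z => ?_,
    AddMonoidHom.ext fun z => ?_⟩
  · simp [zsmul_eq_mul, hvT, hwT]
    ring
  · simp [zsmul_eq_mul, hw, apply_symU_symU_of_new hq hqN hvTr hvW]
    linear_combination -(v (symU (N * q) hq (dvd_mul_left q N) z)) * huK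

/-- An eigen functional which is non zero on the cycles gives a character of the Hecke algebra
away from the primes dividing `N`, with values in the range of `χ`. -/
theorem exists_heckeRingHom {N q : ℕ} [NeZero (N * q)] (hq : q.Prime) (hqN : ¬ q ∣ N)
    {K : Type} [Field K] [CharZero K] (χ : heckeSub (N * q) →+* K) (u : ℤ)
    {g : ModSym (N * q) →+ K} (hg0 : g.comp (cycleHom (N * q)) ≠ 0)
    (hgT : ∀ (ℓ : ℕ) (hℓ : ℓ.Prime) (hℓM : ¬ ℓ ∣ N * q),
        g.comp (symT (N * q) hℓ hℓM) = χ (heckeT' hℓ hℓM) • g)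
    (hgU : g.comp (symU (N * q) hq (dvd_mul_left q N)) = (u : K) • g) :
    ∃ ψ : CuspForm.heckeAlgebra (N * q) 2 {ℓ | ℓ ∣ N} →+* K,
      (∀ (ℓ : ℕ) (hℓ : ℓ.Prime) (hℓM : ¬ ℓ ∣ N * q) (hℓS : ℓ ∉ {ℓ | ℓ ∣ N}),
        ψ (CuspForm.heckeAlgebra.T hℓ hℓM hℓS) = χ (heckeT' hℓ hℓM)) ∧
      ψ (CuspForm.heckeAlgebra.U hq (dvd_mul_left q N) hqN) = u ∧ ∀ t, ψ t ∈ χ.range := by
  classical
  set S : Set ℕ := {ℓ | ℓ ∣ N}
  have hqM : q ∣ (N * q) := dvd_mul_left q N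
  let ev : ℕ → K := fun ℓ =>
    if ℓ = q then (u : K) else if h : ℓ.Prime ∧ ¬ ℓ ∣ (N * q) then χ (heckeT' h.1 h.2) else 0
  have hev : ∀ (ℓ : ℕ) (hℓ : ℓ.Prime) (hℓM : ¬ ℓ ∣ (N * q)), ev ℓ = χ (heckeT' hℓ hℓM) :=
    fun ℓ hℓ hℓM => by
      simp only [ev]
      rw [if_neg (show ℓ ≠ q from fun h => hℓM (h ▸ hqM)), dif_pos ⟨hℓ, hℓM⟩]
  have hbad : ∀ ℓ : ℕ, ℓ.Prime → ℓ ∣ (N * q) → ℓ ∉ S → ℓ = q := fun ℓ hℓ h hS =>
    (Nat.prime_dvd_prime_iff_eq hℓ hq).mp ((hℓ.dvd_mul.mp h).resolve_left hS)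
  have hES : HeckeCohom.EichlerShimuraSurjective (N * q) := fun φ hφ => by
    rwa [(S21.result (N * q)).2]
  obtain ⟨ψ, hψT, hψU⟩ := HeckeCohom.exists_ringHom_of_eigenHom (S := S) hES
    (g.comp (cycleHom (N * q)))
    (isParabolicHom_comp_cycleHom g) hg0 ev (fun ℓ hℓ hS => by
      have : Fact ℓ.Prime := ⟨hℓ⟩
      have : NeZero ℓ := ⟨hℓ.ne_zero⟩
      by_cases h : ℓ ∣ (N * q)
      · rw [HeckeCohom.heckeOp_of_dvd (N * q) h, comp_symU_cycleHom hℓ h]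
        obtain rfl := hbad ℓ hℓ h hS
        simp only [ev, if_pos]
        rw [hgU]; rfl
      · rw [HeckeCohom.heckeOp_of_not_dvd (N * q) h, comp_symT_cycleHom hℓ h, hgT, hev ℓ hℓ h]; rfl)
  have hψT' : ∀ (ℓ : ℕ) (hℓ : ℓ.Prime) (hℓM : ¬ ℓ ∣ N * q) (hℓS : ℓ ∉ S),
      ψ (CuspForm.heckeAlgebra.T hℓ hℓM hℓS) = χ (heckeT' hℓ hℓM) := fun ℓ hℓ hℓM hℓS =>
    (hψT ℓ hℓ hℓM hℓS).trans (hev ℓ hℓ hℓM)
  refine ⟨ψ, hψT', (hψU q hq hqM hqN).trans (if_pos rfl), ?_⟩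
  rintro ⟨t, ht⟩
  induction ht using Algebra.adjoin_induction with
  | mem x hx =>
    rcases hx with ⟨ℓ, hℓ, hℓM, hℓS, rfl⟩ | ⟨ℓ, hℓM, hℓ, hℓS, rfl⟩
    · exact ⟨heckeT' hℓ hℓM, (hψT' ℓ hℓ hℓM hℓS).symm⟩
    · refine ⟨(u : heckeSub (N * q)), ((hψU ℓ hℓ hℓM hℓS).trans ?_).symm⟩
      simp [ev, hbad ℓ hℓ hℓM hℓS]
  | algebraMap r =>
    refine ⟨(r : heckeSub (N * q)), ?_⟩
    rw [map_intCast, ← map_intCast ψ r]
    exact congrArg ψ (Subtype.ext (by simp))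
  | add x y _ _ hx hy => exact map_add ψ ⟨x, _⟩ ⟨y, _⟩ ▸ χ.range.add_mem hx hy
  | mul x y _ _ hx hy => exact map_mul ψ ⟨x, _⟩ ⟨y, _⟩ ▸ χ.range.mul_mem hx hy

/-- A character of the Hecke algebra with values in the range of `χ` is, up to an embedding, the
eigenvalue system of an eigenform; values congruent to `0` modulo a maximal ideal above `ker χ`
land in one maximal ideal of the algebraic integers. -/
theorem exists_eigenform_congr {M : ℕ} [NeZero M] {S : Set ℕ} {R : Type*} [CommRing R]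
    {K : Type*} [Field K] [CharZero K] (χ : R →+* K) {n : Ideal R} (hn : n.IsMaximal)
    (hker : RingHom.ker χ ≤ n) (ψ : CuspForm.heckeAlgebra M 2 S →+* K)
    (hrange : ∀ t, ψ t ∈ χ.range) :
    ∃ (f : CuspForm (Gamma0 M) 2) (hf : f.IsNormalizedEigenform)
      (𝔪' : Ideal (integralClosure ℤ ℂ)), 𝔪'.IsMaximal ∧
      (∀ (t : CuspForm.heckeAlgebra M 2 S) (r : R), ψ t = χ r → r ∈ n →
        eigenCharInt (CuspIntStr.hasIntegralStructure M 2) hf S t ∈ 𝔪') ∧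
      ∀ s t, ψ s = ψ t → eigenChar hf S s = eigenChar hf S t := by
  let red := χ.rangeRestrict.liftOfSurjective χ.rangeRestrict_surjective
    ⟨Ideal.Quotient.mk n, by rwa [RingHom.ker_rangeRestrict, Ideal.mk_ker]⟩
  let ψ' := red.comp (ψ.codRestrict χ.range hrange)
  have hψ' : ∀ t r, ψ t = χ r → ψ' t = Ideal.Quotient.mk n r := fun t r h => by
    show red _ = _
    rw [show ψ.codRestrict χ.range hrange t = χ.rangeRestrict r from Subtype.ext h]
    exact RingHom.liftOfRightInverse_comp_apply _ _ _ _ r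
  have : IsDomain (R ⧸ n) := Ideal.Quotient.isDomain n
  have : (RingHom.ker ψ').IsPrime := RingHom.ker_isPrime ψ'
  obtain ⟨f, hf, ι, hι, hιψ⟩ := HeckeCohom.exists_eigenform_of_ringHom_field ψ
  set χf := eigenCharInt (CuspIntStr.hasIntegralStructure M 2) hf S
  let := χf.toAlgebra
  have : IsScalarTower ℤ (CuspForm.heckeAlgebra M 2 S) (integralClosure ℤ ℂ) :=
    IsScalarTower.of_algebraMap_eq fun z => (map_intCast χf z).symm
  have : Algebra.IsIntegral (CuspForm.heckeAlgebra M 2 S) (integralClosure ℤ ℂ) :=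
    Algebra.IsIntegral.tower_top ℤ
  have hle : (⊥ : Ideal (integralClosure ℤ ℂ)).comap
      (algebraMap (CuspForm.heckeAlgebra M 2 S) (integralClosure ℤ ℂ)) ≤ RingHom.ker ψ' := by
    intro t ht
    have h0 : eigenChar hf S t = 0 := congrArg (fun x : integralClosure ℤ ℂ => (x : ℂ)) ht
    have h1 : ψ t = χ 0 := by
      rw [map_zero, ← hιψ]
      exact (congrArg ι (Subtype.ext (by exact h0))).trans (map_zero ι)
    rw [RingHom.mem_ker, hψ' t 0 h1, map_zero]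
  obtain ⟨Q, -, hQ, hQP⟩ := Ideal.exists_ideal_over_prime_of_isIntegral (RingHom.ker ψ') ⊥ hle
  obtain ⟨𝔪', hm, hQm⟩ := Ideal.exists_le_maximal Q hQ.ne_top
  refine ⟨f, hf, 𝔪', hm, fun t r h hr => hQm ?_, fun s t h => ?_⟩
  · have : t ∈ RingHom.ker ψ' := by
      rw [RingHom.mem_ker, hψ' t r h, Ideal.Quotient.eq_zero_iff_mem.mpr hr]
    rw [← hQP] at this
    exact this
  · rw [← hιψ, ← hιψ] at h
    exact congrArg Subtype.val (hι h)

/-- A new eigen functional in characteristic zero gives a new eigenform with its congruences. -/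
theorem exists_newform_of_field {N q p ℓ₀ : ℕ} [NeZero N] [NeZero (N * q)] [Fact p.Prime]
    (hq : q.Prime) (hqN : ¬ q ∣ N) (hℓ₀ : ℓ₀.Prime) (hℓ₀M : ¬ ℓ₀ ∣ N * q)
    (hone : (ℓ₀ : ZMod (N * q)) = 1) (hℓp : (ℓ₀ : ZMod p) = 1)
    (a : ℕ → ℤ) (good : ℕ → Prop) (hgood : good ℓ₀) (ha₀ : (a ℓ₀ : ZMod p) ≠ 2)
    {K : Type} [Field K] [CharZero K] (χ : heckeSub (N * q) →+* K)
    {n : Ideal (heckeSub (N * q))} (hn : n.IsMaximal) (hker : RingHom.ker χ ≤ n)
    (hp : (p : heckeSub (N * q)) ∈ n)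
    (hT : ∀ (ℓ : ℕ) (hℓ : ℓ.Prime) (hℓM : ¬ ℓ ∣ N * q), good ℓ →
        heckeT' hℓ hℓM - (a ℓ : heckeSub (N * q)) ∈ n)
    (v : ModSym (N * q) →+ K) (hv : v ≠ 0)
    (hvT : ∀ (ℓ : ℕ) (hℓ : ℓ.Prime) (hℓM : ¬ ℓ ∣ N * q) (z : ModSym (N * q)),
        v (symT (N * q) hℓ hℓM z) = χ (heckeT' hℓ hℓM) * v z)
    (hvTr : ∀ u, v (symTr hq hqN u) = 0) (hvW : ∀ u, v (symW hq hqN (symTr hq hqN u)) = 0) :
    ∃ (g : CuspForm (Gamma0 (N * q)) 2) (𝔪' : Ideal (integralClosure ℤ ℂ)),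
      g.IsNormalizedEigenform ∧ 𝔪'.IsMaximal ∧ (p : integralClosure ℤ ℂ) ∈ 𝔪' ∧
      (∀ ℓ : ℕ, ℓ.Prime → good ℓ → ¬ ℓ ∣ N * q →
        ∃ α : integralClosure ℤ ℂ, (α : ℂ) = qCoeff g ℓ ∧
          α - (a ℓ : integralClosure ℤ ℂ) ∈ 𝔪') ∧
      qCoeff g q ^ 2 = 1 := by
  have hqM : q ∣ (N * q) := dvd_mul_left q N
  have hcyc : v.comp (cycleHom (N * q)) ≠ 0 :=
    comp_cycleHom_ne_zero_of_eigen hℓ₀ hℓ₀M hone hℓp ha₀ χ hn hker hp (hT ℓ₀ hℓ₀ hℓ₀M hgood) hv
      (hvT ℓ₀ hℓ₀ hℓ₀M)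
  obtain ⟨u, g, hu, hg0, hgT, hgU⟩ := exists_symU_eigen hq hqN χ hcyc hvT hvTr hvW
  obtain ⟨ψ, hψT, hψU, hrange⟩ := exists_heckeRingHom hq hqN χ u hg0 hgT hgU
  obtain ⟨f, hf, 𝔪', hm, key, hinj⟩ := exists_eigenform_congr χ hn hker ψ hrange
  set S : Set ℕ := {ℓ | ℓ ∣ N}
  refine ⟨f, 𝔪', hf, hm, ?_, fun ℓ hℓ hg hℓM => ?_, ?_⟩
  · simpa using key (p : CuspForm.heckeAlgebra (N * q) 2 S) (p : heckeSub (N * q)) (by simp) hp
  · have hℓS : ℓ ∉ S := fun h => hℓM (dvd_mul_of_dvd_left h q)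
    refine ⟨eigenCharInt (CuspIntStr.hasIntegralStructure (N * q) 2) hf S
      (CuspForm.heckeAlgebra.T hℓ hℓM hℓS),
      HeckeEigen.eigenChar_T hf hℓ hℓM hℓS, ?_⟩
    have := key (CuspForm.heckeAlgebra.T hℓ hℓM hℓS - (a ℓ : CuspForm.heckeAlgebra (N * q) 2 S))
      (heckeT' hℓ hℓM - (a ℓ : heckeSub (N * q)))
      (by rw [map_sub, map_sub, map_intCast, map_intCast, hψT ℓ hℓ hℓM hℓS])
      (hT ℓ hℓ hℓM hg)
    rwa [map_sub, map_intCast] at this
  · have hU := HeckeEigen.eigenChar_U hf hq hqM (S := S) hqN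
    have h1 := hinj (CuspForm.heckeAlgebra.U hq hqM (S := S) hqN ^ 2) 1 (by
      rw [map_pow, map_one, hψU]
      exact_mod_cast hu)
    rwa [map_pow, map_one, hU] at h1

end Fermat.Agent.LevelRaising
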