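import Fermat.Agent.LevelRaising.Stabilizer
import Fermat.Agent.LevelRaising.Ihara

/-!
# Functionals old from both sides as homomorphisms

A functional on symbols of level `N` that is old from both sides gives a homomorphism on
`Γ₀(N)[1/q]` killing every element with a rational eigenvector.  If all such homomorphisms kill
`Γ₁(N)`, so does the functional (`killsGammaOne_of_hom`).
-/

set_option autoImplicit false

open Matrix CongruenceSubgroup
open scoped MatrixGroups

namespace Fermat.Agent.LevelRaising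

/-- The integral matrix of a `q`-power multiple of `g` has `N` dividing its lower left entry. -/
def HasQModel (N q : ℕ) (g : SL(2, ℚ)) : Prop :=
  ∃ n : ℕ, ∃ m : Mat, (q : ℚ) ^ n • (g : Matrix (Fin 2) (Fin 2) ℚ) = m.map (Int.cast : ℤ → ℚ) ∧
    (N : ℤ) ∣ m 1 0

/-- `SL(2, ℤ)` inside `SL(2, ℚ)`. -/
abbrev toSLQ (γ : SL(2, ℤ)) : SL(2, ℚ) := SpecialLinearGroup.map (Int.castRingHom ℚ) γ

theorem map_cast_injective : Function.Injective (fun m : Mat => m.map (Int.cast : ℤ → ℚ)) :=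
  Matrix.map_injective Int.cast_injective

section

variable {N q p : ℕ}

theorem det_of_model {g : SL(2, ℚ)} {n : ℕ} {m : Mat}
    (e : (q : ℚ) ^ n • (g : Matrix (Fin 2) (Fin 2) ℚ) = m.map (Int.cast : ℤ → ℚ)) :
    m.det = (q : ℤ) ^ (2 * n) := by
  have h := congrArg Matrix.det e
  rw [det_smul, g.2, mul_one, Fintype.card_fin,
    show m.map (Int.cast : ℤ → ℚ) = m.map (Int.castRingHom ℚ) from rfl,
    ← RingHom.mapMatrix_apply, ← RingHom.map_det] at h
  apply Int.cast_injective (α := ℚ)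
  simp only [eq_intCast] at h
  rw [← h]; push_cast; ring

/-- If every homomorphism on `G` vanishing on the elements with a rational eigenvector kills
`Γ₁(N)`, then so does every functional old from both sides. -/
theorem killsGammaOne_of_hom (hq : q.Prime) (hqN : ¬ q ∣ N) (G : Subgroup SL(2, ℚ))
    (hG : ∀ g ∈ G, HasQModel N q g) (hmem : ∀ γ ∈ Gamma0 N, toSLQ γ ∈ G)
    (hihara : ∀ h : Additive G →+ ZMod p,
      (∀ g : G, (∃ v : Fin 2 → ℚ, v ≠ 0 ∧ ∃ c : ℚ,
        (g.1 : Matrix (Fin 2) (Fin 2) ℚ) *ᵥ v = c • v) → h (Additive.ofMul g) = 0) →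
      ∀ (γ : SL(2, ℤ)) (hγ : γ ∈ Gamma0 N), (N : ℤ) ∣ γ 0 0 - 1 →
        h (Additive.ofMul ⟨toSLQ γ, hmem γ hγ⟩) = 0) :
    KillsGammaOne N q p hq hqN := by
  intro φ ψ hrel γ hγ1
  have hq0 : (q : ℤ) ≠ 0 := by exact_mod_cast hq.ne_zero
  have he := vecInfty_ne_zero
  let F : G → ℕ := fun g => (hG g g.2).choose
  let M : G → Mat := fun g => (hG g g.2).choose_spec.choose
  have hM : ∀ g, (q : ℚ) ^ F g • ((g : SL(2, ℚ)) : Matrix (Fin 2) (Fin 2) ℚ) =
      (M g).map (Int.cast : ℤ → ℚ) ∧ (N : ℤ) ∣ M g 1 0 :=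
    fun g => (hG g g.2).choose_spec.choose_spec
  have hfix : ∀ (g : G) (n : ℕ) (m : Mat), (q : ℚ) ^ n • ((g : SL(2, ℚ)) :
      Matrix (Fin 2) (Fin 2) ℚ) = m.map (Int.cast : ℤ → ℚ) → (N : ℤ) ∣ m 1 0 → Fixes φ m :=
    fun g n m e hc => fixes_of_det_pow hq hqN hrel n (det_of_model e) hc
  have hind : ∀ (g : G) (n : ℕ) (m : Mat), (q : ℚ) ^ n • ((g : SL(2, ℚ)) :
      Matrix (Fin 2) (Fin 2) ℚ) = m.map (Int.cast : ℤ → ℚ) →
      φ (symb N vecInfty (M g *ᵥ vecInfty)) = φ (symb N vecInfty (m *ᵥ vecInfty)) := by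
    intro g n m e
    have h2 : ((q : ℤ) ^ n) • M g = ((q : ℤ) ^ F g) • m := by
      apply map_cast_injective
      simp only [Matrix.map_smul' _ _ _ (fun a b => Int.cast_mul a b), Int.cast_pow,
        Int.cast_natCast, ← (hM g).1, ← e, smul_smul, mul_comm]
    rw [← symb_scale_right (pow_ne_zero n hq0), ← smul_mulVec, h2, smul_mulVec,
      symb_scale_right (pow_ne_zero _ hq0)]
  let h : Additive G →+ ZMod p :=
    AddMonoidHom.mk' (fun x => φ (symb N vecInfty (M (Additive.toMul x) *ᵥ vecInfty))) fun a b => by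
      set g₁ : G := Additive.toMul a
      set g₂ : G := Additive.toMul b
      show φ (symb N vecInfty (M (g₁ * g₂) *ᵥ vecInfty)) = _
      have e : (q : ℚ) ^ (F g₁ + F g₂) • (((g₁ * g₂ : G) : SL(2, ℚ)) :
          Matrix (Fin 2) (Fin 2) ℚ) = (M g₁ * M g₂).map (Int.cast : ℤ → ℚ) := by
        rw [show (M g₁ * M g₂).map (Int.cast : ℤ → ℚ) =
          (M g₁).map (Int.cast : ℤ → ℚ) * (M g₂).map (Int.cast : ℤ → ℚ) from
            Matrix.map_mul (f := Int.castRingHom ℚ), ← (hM g₁).1, ← (hM g₂).1,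
          Subgroup.coe_mul, SpecialLinearGroup.coe_mul, Matrix.smul_mul, Matrix.mul_smul,
          smul_smul, pow_add]
      have f₁ := hfix g₁ _ _ (hM g₁).1 (hM g₁).2
      have f₂ := hfix g₂ _ _ (hM g₂).1 (hM g₂).2
      have v₁ := mulVec_ne_zero f₁.1 he
      rw [hind _ _ _ e, ← mulVec_mulVec,
        ← symb_add he v₁ (mulVec_ne_zero f₁.1 (mulVec_ne_zero f₂.1 he)), map_add, f₁.2]
  have hh := hihara h ?_ γ γ.2 hγ1
  · have e1 : (q : ℚ) ^ 0 • ((toSLQ (γ : SL(2, ℤ))) : Matrix (Fin 2) (Fin 2) ℚ) =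
        (mat (γ : SL(2, ℤ))).map (Int.cast : ℤ → ℚ) := by
      rw [pow_zero, one_smul]; rfl
    rw [cycleHom_apply, ← hind ⟨_, hmem _ γ.2⟩ 0 _ e1]
    exact hh
  · rintro g ⟨v, hv, c, hvc⟩
    show φ (symb N vecInfty (M g *ᵥ vecInfty)) = 0
    -- clear denominators in the eigenvector
    set d : ℕ := (v 0).den * (v 1).den with hd
    have hd0 : (d : ℚ) ≠ 0 := by positivity
    let w : Vec := ![(v 0).num * (v 1).den, (v 1).num * (v 0).den]
    have hw : (fun i => (w i : ℚ)) = (d : ℚ) • v := by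
      funext i
      fin_cases i
      · simp [w, hd]
        rw [mul_comm ((v 0).den : ℚ), mul_assoc, Rat.den_mul_eq_num, mul_comm]
      · simp [w, hd]
        rw [mul_assoc, Rat.den_mul_eq_num, mul_comm]
    have hw0 : w ≠ 0 := fun h0 => hv (by
      have : (d : ℚ) • v = 0 := by rw [← hw, h0]; rfl
      exact (smul_eq_zero.mp this).resolve_left hd0)
    have fg := hfix g _ _ (hM g).1 (hM g).2
    have hmw : (fun i => ((M g *ᵥ w) i : ℚ)) = ((q : ℚ) ^ F g * c) • fun i => (w i : ℚ) := by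
      have : (fun i => ((M g *ᵥ w) i : ℚ)) =
          (M g).map (Int.cast : ℤ → ℚ) *ᵥ fun i => (w i : ℚ) := by
        funext i
        simp [Matrix.mulVec, dotProduct]
      rw [this, hw, ← (hM g).1, smul_mulVec, mulVec_smul, hvc, smul_smul, smul_smul, smul_smul]
      congr 1; ring
    set lam : ℚ := (q : ℚ) ^ F g * c
    have hlam : ((lam.den : ℤ)) • (M g *ᵥ w) = lam.num • w := by
      funext i
      apply Int.cast_injective (α := ℚ)
      have := congrFun hmw i
      simp only [Pi.smul_apply, smul_eq_mul] at this ⊢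
      push_cast
      rw [this, ← mul_assoc, Rat.den_mul_eq_num]
    have hnum : lam.num ≠ 0 := fun h0 => by
      rw [h0, zero_smul, smul_eq_zero] at hlam
      rcases hlam with h1 | h1
      · exact lam.den_ne_zero (by exact_mod_cast h1)
      · exact mulVec_ne_zero fg.1 hw0 h1
    have hsw : symb N w (M g *ᵥ w) = 0 := by
      rw [← symb_scale_right (a := (lam.den : ℤ)) (by exact_mod_cast lam.den_ne_zero), hlam,
        symb_scale_right hnum, symb_self]
    rw [← symb_add he hw0 (mulVec_ne_zero fg.1 he),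
      ← symb_add hw0 (mulVec_ne_zero fg.1 hw0) (mulVec_ne_zero fg.1 he), hsw, zero_add, map_add,
      fg.2, ← map_add, symb_swap w vecInfty]
    simp

end

end Fermat.Agent.LevelRaising
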