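import Fermat.Agent.IharaGroup.Main
import Fermat.Agent.LevelRaising.GammaOne

/-!
# Ihara's group theorem applied to modular symbols

Ihara's theorem on `Γ₀(N)[1/q]` shows that a functional old from both sides kills `Γ₁(N)`
(`killsGammaOne`).
-/

set_option autoImplicit false

open Matrix CongruenceSubgroup
open scoped MatrixGroups

namespace Fermat.Agent.LevelRaising

open IharaGroup (IsQInt qGamma0)

theorem hasQModel_of_mem {N q : ℕ} (hN : 0 < N) {g : SL(2, ℚ)} (hg : g ∈ qGamma0 N q) :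
    HasQModel N q g := by
  obtain ⟨hg, hg'⟩ := hg
  choose e m hm using hg
  obtain ⟨e', t, ht⟩ := hg'
  set n := e 0 0 + e 0 1 + e 1 0 + e 1 1 + e'
  have hle : ∀ i j, e i j ≤ n := fun i j => by
    fin_cases i <;> fin_cases j <;> simp [n] <;> omega
  refine ⟨n, of fun i j => (q : ℤ) ^ (n - e i j) * m i j, ?_, ?_⟩
  · ext i j
    simp only [Matrix.smul_apply, Matrix.map_apply, of_apply, smul_eq_mul]
    push_cast
    rw [← hm i j, ← mul_assoc, ← pow_add, Nat.sub_add_cancel (hle i j)]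
  · refine ⟨(q : ℤ) ^ (n - e') * t, ?_⟩
    simp only [of_apply]
    apply Int.cast_injective (α := ℚ)
    push_cast
    rw [← hm 1 0, ← ht, ← mul_assoc, ← pow_add, Nat.sub_add_cancel (hle 1 0)]
    have hN' : (N : ℚ) ≠ 0 := by exact_mod_cast hN.ne'
    rw [← mul_assoc ((q : ℚ) ^ (n - e')), ← pow_add, Nat.sub_add_cancel (by omega : e' ≤ n)]
    field_simp

/-- A functional old from both sides kills `Γ₁(N)`. -/
theorem killsGammaOne {N q p : ℕ} [Fact p.Prime] (hp2 : p ≠ 2) (hN : 0 < N) (hq : q.Prime)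
    (hqN : ¬ q ∣ N) : KillsGammaOne N q p hq hqN :=
  killsGammaOne_of_hom hq hqN (qGamma0 N q) (fun _ hg => hasQModel_of_mem hN hg)
    (fun γ hγ => IharaGroup.mem_qGamma0_intCast γ (mem_Gamma0.mp hγ))
    fun h hcusp γ hγ ha => IharaGroup.ihara hp2 hN hq hqN h hcusp γ (mem_Gamma0.mp hγ) ha

end Fermat.Agent.LevelRaising
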