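import Fermat.Agent.LevelRaising.Lifting

/-!
# From level `N` to a new class at level `N q`

A functional that is eigen modulo `p` at level `N` and satisfies the level raising congruence
gives a nonzero class modulo `p` in the new lattice at level `N q` with the same eigenvalues
(`exists_new_eigen`).
-/

set_option autoImplicit false

open Matrix CongruenceSubgroup
open scoped MatrixGroups

namespace Fermat.Agent.LevelRaising

/-- A functional which is eigen modulo `p` and satisfies the level raising congruence gives a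
nonzero class modulo `p` in the new lattice, with the same eigenvalues. -/
theorem exists_new_eigen {N q p ℓ₀ : ℕ} [NeZero N] [Fact p.Prime] (hq : q.Prime) (hqN : ¬ q ∣ N)
    (hp2 : p ≠ 2) (hN : 1 < N) (hkill : KillsGammaOne N q p hq hqN)
    (hℓ₀ : ℓ₀.Prime) (hℓ₀M : ¬ ℓ₀ ∣ N * q) (hℓ₀N : ¬ ℓ₀ ∣ N)
    (hone : (ℓ₀ : ZMod (N * q)) = 1) (hℓp : (ℓ₀ : ZMod p) = 1)
    (a : ℕ → ℤ) (good : ℕ → Prop) (hgood : good ℓ₀) (ha₀ : (a ℓ₀ : ZMod p) ≠ 2)
    {ε : ℤ} (hε : ε ^ 2 = 1) (x : ModSym N →+ ℤ) (hx0 : ∃ z, ¬ (p : ℤ) ∣ x z)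
    (hxT : ∀ (ℓ : ℕ) (hℓ : ℓ.Prime) (hℓN : ¬ ℓ ∣ N), good ℓ →
        ∀ z, (p : ℤ) ∣ x (symT N hℓ hℓN z) - a ℓ * x z)
    (hxq : ∀ z, (p : ℤ) ∣ x (symT N hq hqN z) - ε * ((q : ℤ) + 1) * x z) :
    ∃ Y : ModSym (N * q) →+ ℤ, traces hq hqN Y = 0 ∧ (∃ z, ¬ (p : ℤ) ∣ Y z) ∧
      ∀ (ℓ : ℕ) (hℓ : ℓ.Prime) (hℓM : ¬ ℓ ∣ N * q), good ℓ →
        ∀ z, (p : ℤ) ∣ Y (symT (N * q) hℓ hℓM z) - a ℓ * Y z := by
  have h1N : (ℓ₀ : ZMod N) = 1 := by
    have := congrArg (ZMod.castHom (dvd_mul_right N q) (ZMod N)) hone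
    rwa [map_natCast, map_one] at this
  have hε' : ((ε : ℤ) : ZMod p) ^ 2 = 1 := by
    have := congrArg (Int.cast : ℤ → ZMod p) hε
    push_cast at this
    exact this
  have cast0 : ∀ {u : ℤ}, (u : ZMod p) = 0 → (p : ℤ) ∣ u :=
    (ZMod.intCast_zmod_eq_zero_iff_dvd _ _).mp
  have cX : ∀ (ℓ : ℕ) (hℓ : ℓ.Prime) (hℓN : ¬ ℓ ∣ N), good ℓ → ∀ z,
      (x (symT N hℓ hℓN z) : ZMod p) = a ℓ * x z := by
    intro ℓ hℓ hℓN hg z
    have := (ZMod.intCast_zmod_eq_zero_iff_dvd _ _).mpr (hxT ℓ hℓ hℓN hg z)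
    push_cast at this
    exact sub_eq_zero.mp this
  have cQ : ∀ z, (x (symT N hq hqN z) : ZMod p) = ε * ((q : ZMod p) + 1) * x z := by
    intro z
    have := (ZMod.intCast_zmod_eq_zero_iff_dvd _ _).mpr (hxq z)
    push_cast at this
    exact sub_eq_zero.mp this
  set y : ModSym (N * q) →+ ℤ :=
    x.comp (symRes N q) - ε • (x.comp (symRes N q)).comp (symW hq hqN)
  have hy : ∀ z, y z = x (symRes N q z) - ε * x (symRes N q (symW hq hqN z)) := fun z => by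
    simp [y]
  have hyT : ∀ (ℓ : ℕ) (hℓ : ℓ.Prime) (hℓM : ¬ ℓ ∣ N * q), good ℓ → ∀ z,
      (y (symT (N * q) hℓ hℓM z) : ZMod p) = a ℓ * y z := by
    intro ℓ hℓ hℓM hg z
    have hℓN : ¬ ℓ ∣ N := fun h => hℓM (dvd_mul_of_dvd_left h q)
    rw [hy, hy, ← symT_symW hq hqN, symRes_symT hℓ hℓM hℓN, symRes_symT hℓ hℓM hℓN]
    push_cast
    rw [cX ℓ hℓ hℓN hg, cX ℓ hℓ hℓN hg]
    ring
  have ht1 : ∀ u, (p : ℤ) ∣ (y.comp (symTr hq hqN)) u := fun u => cast0 (by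
    rw [AddMonoidHom.comp_apply, hy, symRes_symTr, symRes_symW_symTr, map_zsmul, smul_eq_mul]
    push_cast
    rw [cQ]
    linear_combination -((q : ZMod p) + 1) * (x u : ZMod p) * hε')
  have ht2 : ∀ u, (p : ℤ) ∣ ((y.comp (symW hq hqN)).comp (symTr hq hqN)) u := fun u => cast0 (by
    rw [AddMonoidHom.comp_apply, AddMonoidHom.comp_apply, hy, symW_symW, symRes_symTr,
      symRes_symW_symTr, map_zsmul, smul_eq_mul]
    push_cast
    rw [cQ]
    ring)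
  obtain ⟨Z₁, hZ₁⟩ := exists_smul_eq_of_dvd _ ht1
  obtain ⟨Z₂, hZ₂⟩ := exists_smul_eq_of_dvd _ ht2
  obtain ⟨k, Y, W, hY0, hY⟩ := exists_new_lift hq hqN hℓ₀ hℓ₀M hℓ₀N hp2 hN hkill hone hℓp y
    ⟨(Z₁, Z₂), by rw [traces_apply, hZ₁, hZ₂]; rfl⟩
  have hcY : ∀ z, (Y z : ZMod p) = ((a ℓ₀ : ZMod p) - 2) ^ k * y z := by
    have hiter : ∀ (n : ℕ) z, (y ((⇑(eisOp (N * q) hℓ₀ hℓ₀M))^[n] z) : ZMod p) =
        ((a ℓ₀ : ZMod p) - 2) ^ n * y z := by
      intro n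
      induction n with
      | zero => intro z; simp
      | succ n ih =>
        intro z
        rw [Function.iterate_succ_apply, ih, eisOp_apply, map_sub, map_zsmul, Int.cast_sub,
          hyT ℓ₀ hℓ₀ hℓ₀M hgood, smul_eq_mul]
        push_cast
        ring
    intro z
    rw [hY, AddMonoidHom.sub_apply, pullEis_apply, AddMonoidHom.smul_apply, smul_eq_mul,
      Int.cast_sub, Int.cast_mul, Int.cast_natCast, ZMod.natCast_self, zero_mul, sub_zero, hiter]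
  have ha' : ((a ℓ₀ : ZMod p) - 2) ≠ 0 := sub_ne_zero.mpr ha₀
  refine ⟨Y, hY0, ?_, fun ℓ hℓ hℓM hg z => cast0 ?_⟩
  · by_contra hall
    push Not at hall
    have hy0 : ∀ z, (y z : ZMod p) = 0 := fun z => by
      have := (ZMod.intCast_zmod_eq_zero_iff_dvd _ _).mpr (hall z)
      rw [hcY] at this
      exact (mul_eq_zero.mp this).resolve_left (pow_ne_zero _ ha')
    set φ : ModSym N →+ ZMod p := (Int.castAddHom (ZMod p)).comp x
    have hrel : φ.comp (symRes N q) +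
        (((-ε) • φ).comp (symRes N q)).comp (symW hq hqN) = 0 := AddMonoidHom.ext fun z => by
      have := hy0 z
      rw [hy] at this
      push_cast at this
      simp [φ, zsmul_eq_mul, ← sub_eq_add_neg, this]
    have hI := ihara_eis hq hqN hℓ₀ hℓ₀N hkill h1N hℓp hrel
    obtain ⟨z, hz⟩ := hx0
    refine hz (cast0 ?_)
    have h2 := DFunLike.congr_fun hI z
    simp only [AddMonoidHom.comp_apply, AddMonoidHom.zero_apply, eisOp_apply, φ,
      Int.coe_castAddHom, map_sub, map_zsmul] at h2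
    simp only [cX ℓ₀ hℓ₀ hℓ₀N hgood] at h2
    have h3 : ((a ℓ₀ : ZMod p) - 2) ^ 2 * (x z : ZMod p) = 0 := by
      rw [← h2]; simp [zsmul_eq_mul]; ring
    exact (mul_eq_zero.mp h3).resolve_left (pow_ne_zero _ ha')
  · rw [Int.cast_sub, Int.cast_mul, hcY, hcY, hyT ℓ hℓ hℓM hg]
    ring

end Fermat.Agent.LevelRaising
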