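import Fermat.Agent.SmallLevel.Vanishing
import Fermat.Agent.LevelRaisingPrime.Frobenius
import Fermat.Agent.LevelRaising.Kill
import Fermat.Agent.LevelRaising.Eigen
import Fermat.Agent.LevelRaising.New
import Fermat.Agent.LevelRaising.Final

/-!
# Level raising at one prime

If a weight two eigenform of level `N` is congruent to a given system of integers modulo `p`,
satisfies `a_q² ≡ (q + 1)²`, and has a non-Eisenstein auxiliary prime, then there is an eigenform of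
level `N q` with the same congruences and `a_q² = 1` (`exists_newform`).
-/

set_option autoImplicit false

noncomputable section

open CongruenceSubgroup ModularFormClass

namespace Fermat.Agent.LevelRaising

/-- Level raising: congruent form at level `N`, congruence at `q`, one non Eisenstein prime. -/
theorem exists_newform {N q p ℓ₀ : ℕ} [NeZero N] [Fact p.Prime] (hq : q.Prime) (hqN : ¬ q ∣ N)
    (hp2 : p ≠ 2) {f : CuspForm (Gamma0 N) 2} (hf : f.IsNormalizedEigenform)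
    {𝔪 : Ideal (integralClosure ℤ ℂ)} (hmax : 𝔪.IsMaximal)
    (hpm : (p : integralClosure ℤ ℂ) ∈ 𝔪) (a : ℕ → ℤ) (good : ℕ → Prop)
    (hcong : ∀ ℓ : ℕ, ℓ.Prime → good ℓ → ¬ ℓ ∣ N → ∃ α : integralClosure ℤ ℂ,
      (α : ℂ) = qCoeff f ℓ ∧ α - (a ℓ : integralClosure ℤ ℂ) ∈ 𝔪)
    (hLR : ∃ α : integralClosure ℤ ℂ, (α : ℂ) = qCoeff f q ∧
      α ^ 2 - ((q : integralClosure ℤ ℂ) + 1) ^ 2 ∈ 𝔪)
    (hℓ₀ : ℓ₀.Prime) (hℓ₀M : ¬ ℓ₀ ∣ N * q) (hone : (ℓ₀ : ZMod (N * q)) = 1)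
    (hℓp : (ℓ₀ : ZMod p) = 1) (hgood : good ℓ₀) (ha₀ : (a ℓ₀ : ZMod p) ≠ 2) :
    ∃ (g : CuspForm (Gamma0 (N * q)) 2) (𝔪' : Ideal (integralClosure ℤ ℂ)),
      g.IsNormalizedEigenform ∧ 𝔪'.IsMaximal ∧ (p : integralClosure ℤ ℂ) ∈ 𝔪' ∧
      (∀ ℓ : ℕ, ℓ.Prime → good ℓ → ¬ ℓ ∣ N * q →
        ∃ α : integralClosure ℤ ℂ, (α : ℂ) = qCoeff g ℓ ∧
          α - (a ℓ : integralClosure ℤ ℂ) ∈ 𝔪') ∧
      qCoeff g q ^ 2 = 1 := by
  have : NeZero (N * q) := ⟨Nat.mul_ne_zero (NeZero.ne N) hq.ne_zero⟩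
  have hℓ₀N : ¬ ℓ₀ ∣ N := fun h => hℓ₀M (dvd_mul_of_dvd_left h q)
  have hN : 1 < N := by
    by_contra h
    have h1 : N = 1 := by have := NeZero.pos N; omega
    subst h1
    refine hf.ne_zero (SmallLevel.cuspForm_eq_zero_of_index_lt (N := 1) (k := 2)
      (SmallLevel.Gamma_le_Gamma0 1) ?_ f)
    simp [show CongruenceSubgroup.Gamma0 1 = ⊤ from
      eq_top_iff.mpr fun g _ ↦ CongruenceSubgroup.Gamma0_mem.mpr (Subsingleton.elim _ _)]
  obtain ⟨ε, x, hε, hx0, hxT, hxq⟩ := exists_mod_eigen hq hqN hf hmax hpm a good hcong hLR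
  obtain ⟨Y, hY, hY0, hYT⟩ := exists_new_eigen hq hqN hp2 hN
    (killsGammaOne hp2 (by omega) hq hqN) hℓ₀ hℓ₀M hℓ₀N hone hℓp a good hgood ha₀ hε x hx0 hxT hxq
  obtain ⟨K, hKF, hK0, χ, n, v, hn, hker, hpn, hTn, hv, hvT, hvTr, hvW⟩ :=
    exists_field_eigen hq hqN Y hY hY0 a good hYT
  exact exists_newform_of_field hq hqN hℓ₀ hℓ₀M hone hℓp a good hgood ha₀ χ hn hker hpn hTn v hv
    hvT hvTr hvW

end Fermat.Agent.LevelRaising
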