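import Fermat.Agent.LevelRaising.Hecke
import Fermat.Agent.LevelRaising.Manin

/-!
# The stabiliser of a functional old from both sides

If the pull back to level `N q` of a functional on symbols of level `N` is old from both sides,
the functional is fixed by every integral matrix with `N ∣ c` and determinant an even power of `q`,
that is by `Γ₀(N)[1/q]` (`fixes_of_det_pow`).
-/

set_option autoImplicit false

open Matrix CongruenceSubgroup
open scoped MatrixGroups

namespace Fermat.Agent.LevelRaising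

variable {N q : ℕ} {A : Type*} [AddCommGroup A]

/-- The integral matrices fixing a functional. -/
def Fixes (φ : ModSym N →+ A) (g : Mat) : Prop :=
  g.det ≠ 0 ∧ ∀ v w, φ (symb N (g *ᵥ v) (g *ᵥ w)) = φ (symb N v w)

theorem Fixes.mul {φ : ModSym N →+ A} {g h : Mat} (hg : Fixes φ g) (hh : Fixes φ h) :
    Fixes φ (g * h) :=
  ⟨by rw [det_mul]; exact mul_ne_zero hg.1 hh.1, fun v w => by
    rw [← mulVec_mulVec, ← mulVec_mulVec, hg.2, hh.2]⟩

theorem Fixes.adjugate {φ : ModSym N →+ A} {g : Mat} (h : Fixes φ g) : Fixes φ g.adjugate := by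
  refine ⟨by rw [det_adjugate']; exact h.1, fun v w => ?_⟩
  rw [← h.2 (g.adjugate *ᵥ v) (g.adjugate *ᵥ w), mulVec_mulVec, mulVec_mulVec, mul_adjugate,
    smul_mulVec, smul_mulVec, one_mulVec, one_mulVec, symb_scale_left h.1, symb_scale_right h.1]

theorem fixes_mat (φ : ModSym N →+ A) {γ : SL(2, ℤ)} (hγ : γ ∈ Gamma0 N) : Fixes φ (mat γ) :=
  ⟨det_mat_ne_zero γ, fun v w => by rw [symb_gamma hγ]⟩

theorem fixes_conj (hq : q.Prime) (hqN : ¬ q ∣ N) {φ ψ : ModSym N →+ A}
    (h : φ.comp (symRes N q) + (ψ.comp (symRes N q)).comp (symW hq hqN) = 0)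
    {γ : SL(2, ℤ)} (hγ : γ ∈ Gamma0 N) :
    Fixes φ ((tMat q (.inr ())).adjugate * mat γ * tMat q (.inr ())) := by
  have hq0 : (q : ℤ) ≠ 0 := by exact_mod_cast hq.ne_zero
  have hF : ∀ v w, φ (symb N v w) = -ψ (symb N (wMat N q *ᵥ v) (wMat N q *ᵥ w)) := by
    intro v w
    have := DFunLike.congr_fun h (symb (N * q) v w)
    simp only [AddMonoidHom.add_apply, AddMonoidHom.comp_apply, symW_symb, symRes_symb,
      AddMonoidHom.zero_apply] at this
    exact eq_neg_of_add_eq_zero_left this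
  obtain ⟨γ₀, hγ₀, e₀⟩ := exists_Gamma0_of_det_one (N := N)
    (m := !![Int.gcdA q N, -Int.gcdB q N; (N : ℤ), (q : ℤ)])
    (by rw [det_fin_two_of]; linear_combination bezout hq hqN) (by simp)
  have hW : wMat N q = mat γ₀ * tMat q (.inr ()) := by
    rw [e₀, tMat, mul_fin_two, wMat]; simp [mul_comm]
  set δ := γ₀ * γ * γ₀⁻¹
  have hδ : δ ∈ Gamma0 N := mul_mem (mul_mem hγ₀ hγ) (inv_mem hγ₀)
  have key : wMat N q * ((tMat q (.inr ())).adjugate * mat γ * tMat q (.inr ())) =
      (q : ℤ) • (mat δ * wMat N q) := by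
    simp only [hW, δ, ← Matrix.mul_assoc]
    rw [Matrix.mul_assoc (mat γ₀) (tMat q (.inr ())), mul_adjugate, det_tMat, Matrix.mul_smul,
      Matrix.mul_one, Matrix.smul_mul, Matrix.smul_mul]
    congr 1
    rw [← mat_mul, ← mat_mul, inv_mul_cancel_right]
  refine ⟨?_, fun v w => ?_⟩
  · rw [det_mul, det_mul, det_adjugate', det_mat, det_tMat]
    exact mul_ne_zero (mul_ne_zero hq0 one_ne_zero) hq0
  · rw [hF, hF, mulVec_mulVec, mulVec_mulVec, key, smul_mulVec, smul_mulVec,
      symb_scale_left hq0, symb_scale_right hq0, ← mulVec_mulVec, ← mulVec_mulVec, symb_gamma hδ]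

/-- Every integral matrix with `N ∣ c` and determinant an even power of `q` fixes `φ`. -/
theorem fixes_of_det_pow (hq : q.Prime) (hqN : ¬ q ∣ N) {φ ψ : ModSym N →+ A}
    (h : φ.comp (symRes N q) + (ψ.comp (symRes N q)).comp (symW hq hqN) = 0) :
    ∀ (n : ℕ) {m : Mat}, m.det = (q : ℤ) ^ (2 * n) → (N : ℤ) ∣ m 1 0 → Fixes φ m := by
  have hq0 : (q : ℤ) ≠ 0 := by exact_mod_cast hq.ne_zero
  set D := tMat q (.inr ())
  have hD : D = !![(q : ℤ), 0; 0, 1] := rfl
  have hU : ∀ t : ℤ, Fixes φ !![(q : ℤ), t; 0, (q : ℤ)] := by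
    intro t
    have := fixes_conj hq hqN h (γ := ModularGroup.T ^ t)
      (by rw [mem_Gamma0, ModularGroup.coe_T_zpow]; simp)
    convert this using 1
    rw [mat, ModularGroup.coe_T_zpow, tMat, adjugate_fin_two_of, mul_fin_two, mul_fin_two]
    simp
  have hB : Fixes φ !![((q : ℤ)) ^ 2, 0; 0, 1] := by
    obtain ⟨γ, hγ, eγ⟩ := exists_Gamma0_of_det_one (N := N)
      (m := !![(q : ℤ), -Int.gcdB q N; (N : ℤ), Int.gcdA q N])
      (by rw [det_fin_two_of]; linear_combination bezout hq hqN) (by simp)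
    obtain ⟨L, hL, eL⟩ := exists_Gamma0_of_det_one (N := N)
      (m := !![(1 : ℤ), 0; -((N : ℤ) * q), 1]) (by simp [det_fin_two_of]) (by simp)
    convert! ((fixes_mat φ hγ).mul (hU (Int.gcdB q N))).mul (fixes_mat φ hL) using 1
    rw [eγ, eL, mul_fin_two, mul_fin_two]
    ext i j
    fin_cases i <;> fin_cases j <;> simp
    · ring
    · ring
    · linear_combination ((N : ℤ) * q) * bezout hq hqN
    · linear_combination -bezout hq hqN
  have hBadj : ∀ x : ℤ, Fixes φ !![1, x; 0, (q : ℤ) ^ 2] := by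
    intro x
    have hT : ModularGroup.T ^ x ∈ Gamma0 N := by rw [mem_Gamma0, ModularGroup.coe_T_zpow]; simp
    convert! hB.adjugate.mul (fixes_mat φ hT) using 1
    rw [adjugate_fin_two_of, mat, ModularGroup.coe_T_zpow, mul_fin_two]
    simp
  have hprod : ∀ i j, Fixes φ (tMat q i * tMat q j) := by
    intro i j
    rcases i with b | u <;> rcases j with b' | u'
    · convert! hBadj ((b' : ℤ) + (b : ℤ) * q) using 1
      simp [tMat, pow_two]
    · convert! hU (b : ℤ) using 1
      simp [tMat]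
    · have := (hU 0).mul (fixes_mat φ (γ := ModularGroup.T ^ (b' : ℤ))
        (by rw [mem_Gamma0, ModularGroup.coe_T_zpow]; simp))
      convert! this using 1
      rw [tMat, tMat, mat, ModularGroup.coe_T_zpow]
      simp
    · convert! hB using 1
      simp [tMat, pow_two]
  intro n
  induction n with
  | zero =>
    intro m hdet hc
    obtain ⟨γ, hγ, rfl⟩ := exists_Gamma0_of_det_one (by simpa using hdet) hc
    exact fixes_mat φ hγ
  | succ n ih =>
    intro m hdet hc
    obtain ⟨i, m', hm', rfl⟩ := exists_tMat_factor hq hqN (m := m)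
      (by rw [hdet]; exact dvd_pow_self _ (by omega)) hc
    rw [det_mul, det_tMat] at hdet
    have hd' : m'.det = (q : ℤ) ^ (2 * n + 1) := by
      apply mul_right_cancel₀ hq0
      rw [hdet]; ring
    obtain ⟨j, m'', hm'', rfl⟩ := exists_tMat_factor hq hqN (m := m')
      (by rw [hd']; exact dvd_pow_self _ (by omega)) hm'
    rw [det_mul, det_tMat] at hd'
    have hd'' : m''.det = (q : ℤ) ^ (2 * n) := by
      apply mul_right_cancel₀ hq0
      rw [hd']; ring
    rw [Matrix.mul_assoc]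
    exact (ih hd'' hm'').mul (hprod j i)

end Fermat.Agent.LevelRaising
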